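import Fermat.Agent.Jac.Alg.LineData
import Mathlib.RingTheory.Finiteness.Basic
import Mathlib.RingTheory.TensorProduct.Finite

/-!
# Finitely many generators over `R` up to powers of `y`
-/

set_option autoImplicit false

universe u

noncomputable section

open TensorProduct Polynomial

namespace Fermat.Agent.Jac

namespace CurveData

variable {k : Type u} [Field k] (D : CurveData.{u} k) (R : Type u) [CommRing R] [Algebra k R]

theorem exists_gen_AR₁ : ∃ s : Finset (D.AR₁ R), ∀ z : D.AR₁ R,
    z ∈ Submodule.span R {w | ∃ a : ℕ, ∃ v ∈ s, w = D.yR R ^ a * v} := by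
  classical
  let := (aeval D.y : k[X] →ₐ[k] D.A₁).toRingHom.toAlgebra
  have : IsScalarTower k k[X] D.A₁ :=
    IsScalarTower.of_algebraMap_eq fun r => ((aeval D.y : k[X] →ₐ[k] D.A₁).commutes r).symm
  have : Module.Finite k[X] D.A₁ := D.finite_y
  obtain ⟨s₀, hs₀⟩ := (Module.finite_def.mp (inferInstance : Module.Finite k[X] D.A₁))
  refine ⟨s₀.image fun b => 1 ⊗ₜ b, fun z => ?_⟩
  induction z using TensorProduct.induction_on with
  | zero => exact zero_mem _
  | add p q hp hq => exact add_mem hp hq
  | tmul r b =>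
    have hb : b ∈ Submodule.span k[X] (s₀ : Set D.A₁) := hs₀ ▸ Submodule.mem_top
    rw [show r ⊗ₜ[k] b = r • ((1 : R) ⊗ₜ[k] b) by rw [TensorProduct.smul_tmul', smul_eq_mul, mul_one]]
    refine Submodule.smul_mem _ r ?_
    suffices h : ∀ (p : k[X]), (1 : R) ⊗ₜ[k] (p • b) ∈
        Submodule.span R {w | ∃ a : ℕ, ∃ v ∈ s₀.image fun b => (1 : R) ⊗ₜ[k] b, w = D.yR R ^ a * v} by
      simpa using h 1
    induction hb using Submodule.span_induction with
    | mem w hw =>
      intro p
      induction p using Polynomial.induction_on' with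
      | add p q hp hq => rw [add_smul, tmul_add]; exact add_mem hp hq
      | monomial a c =>
        have hm : (monomial a c : k[X]) • w = c • (D.y ^ a * w) := by
          rw [Algebra.smul_def, Algebra.smul_def]
          show aeval D.y (monomial a c) * w = _
          rw [aeval_monomial]; ring
        rw [hm, TensorProduct.tmul_smul]
        refine Submodule.smul_of_tower_mem _ c (Submodule.subset_span ⟨a, _, Finset.mem_image_of_mem _ hw, ?_⟩)
        rw [Algebra.TensorProduct.tmul_pow, one_pow, Algebra.TensorProduct.tmul_mul_tmul, one_mul]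
    | zero => intro p; simp
    | add p q _ _ hp hq => intro c; rw [smul_add, tmul_add]; exact add_mem (hp c) (hq c)
    | smul c p _ hp => intro c'; rw [smul_smul]; exact hp _

end CurveData

namespace LineData

variable {k : Type u} [Field k] {D : CurveData.{u} k} {R : Type u} [CommRing R] [Algebra k R]
variable (L : LineData D R)

theorem exists_gen_N : ∃ s : Finset L.N, ∀ n : L.N,
    n ∈ Submodule.span R {w | ∃ a : ℕ, ∃ v ∈ s, w = D.yR R ^ a • v} := by
  classical
  obtain ⟨s₁, hs₁⟩ := D.exists_gen_AR₁ R
  obtain ⟨s₂, hs₂⟩ := (Module.finite_def.mp (inferInstance : Module.Finite (D.AR₁ R) L.N))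
  refine ⟨Finset.image₂ (fun a v => a • v) s₁ s₂, fun n => ?_⟩
  have hn : n ∈ Submodule.span (D.AR₁ R) (s₂ : Set L.N) := hs₂ ▸ Submodule.mem_top
  suffices h : ∀ c : D.AR₁ R, c • n ∈ Submodule.span R
      {w | ∃ a : ℕ, ∃ v ∈ Finset.image₂ (fun a v => a • v) s₁ s₂, w = D.yR R ^ a • v} by
    simpa using h 1
  induction hn using Submodule.span_induction with
  | mem v hv =>
    intro c
    induction hs₁ c using Submodule.span_induction with
    | mem w hw =>
      obtain ⟨a, b, hb, rfl⟩ := hw
      exact Submodule.subset_span ⟨a, _, Finset.mem_image₂_of_mem hb hv, mul_smul _ _ _⟩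
    | zero => simp
    | add p q _ _ hp hq => rw [add_smul]; exact add_mem hp hq
    | smul r p _ hp => rw [smul_assoc]; exact Submodule.smul_mem _ r hp
  | zero => intro c; simp
  | add p q _ _ hp hq => intro c; rw [smul_add]; exact add_mem (hp c) (hq c)
  | smul c p _ hp => intro c'; rw [smul_smul]; exact hp _

end LineData

end Fermat.Agent.Jac
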