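import Fermat.Agent.Jac.Alg.Bounded
import Fermat.Agent.Jac.Alg.Span
import Mathlib.Algebra.Module.Projective
import Mathlib.RingTheory.Finiteness.Prod
import Mathlib.LinearAlgebra.TensorProduct.Tower

/-!
# Cohomology of a line bundle on the curve times `Spec R`

`H1` is finite and vanishes after a twist; when it vanishes `H0` is finite projective.
-/

set_option autoImplicit false

universe u

noncomputable section

open TensorProduct

namespace Fermat.Agent.Jac.LineData

variable {k : Type u} [Field k] {D : CurveData.{u} k} {R : Type u} [CommRing R] [Algebra k R]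
variable (L : LineData D R)

/-- `x` on the intersection. -/
local notation "xB" => algebraMap (CurveData.AR D R) (CurveData.BR D R) (CurveData.xR D R)

/-- `y` on the intersection. -/
local notation "yB" => algebraMap (CurveData.AR₁ D R) (CurveData.BR D R) (CurveData.yR D R)

theorem xB_pow_mul_yB_pow (a : ℕ) : xB ^ a * yB ^ a = 1 := by
  rw [← mul_pow, D.xR_mul_yR R, one_pow]

theorem exists_pow_smul_mem_range_f₀ (z : L.P) :
    ∃ (l : ℕ) (m : L.M), xB ^ l • z = L.f₀ m := by
  obtain ⟨l, m, hm⟩ := D.exists_tmul_of_mem (L.glue.symm z)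
  refine ⟨l, m, ?_⟩
  rw [f₀_apply, ← hm, map_smul, LinearEquiv.apply_symm_apply]

theorem exists_bound : ∃ b : ℕ, ∀ z : L.P, ∃ (m : L.M) (n : L.N),
    z = L.f₀ m + xB ^ b • L.f₁ n := by
  classical
  obtain ⟨s, hs⟩ := L.exists_gen_N
  choose l m hl using fun v : L.N => L.exists_pow_smul_mem_range_f₀ (L.f₁ v)
  refine ⟨s.sup l, fun z => ?_⟩
  set b := s.sup l
  have key : ∀ (v : L.N) (_ : v ∈ s) (c : ℕ), ∃ (m' : L.M) (n' : L.N),
      xB ^ c • L.f₁ v = L.f₀ m' + xB ^ b • L.f₁ n' := by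
    intro v hv c
    rcases le_or_gt (l v) c with h | h
    · refine ⟨D.xR R ^ (c - l v) • m v, 0, ?_⟩
      rw [f₀_smul, map_pow, ← hl, smul_smul, ← pow_add, Nat.sub_add_cancel h, map_zero, smul_zero,
        add_zero]
    · have hb : c ≤ b := (h.le).trans (Finset.le_sup hv)
      refine ⟨0, D.yR R ^ (b - c) • v, ?_⟩
      obtain ⟨e, he⟩ := Nat.exists_eq_add_of_le hb
      rw [f₁_smul, map_pow, map_zero, zero_add, smul_smul, he, Nat.add_sub_cancel_left, pow_add,
        mul_assoc, xB_pow_mul_yB_pow, mul_one]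
  obtain ⟨c, n, hn⟩ := D.exists_tmul_of_mem₁ z
  have hz : z = xB ^ c • L.f₁ n := by
    rw [f₁_apply, ← hn, smul_smul, xB_pow_mul_yB_pow, one_smul]
  subst hz
  clear hn
  induction hs n using Submodule.span_induction generalizing c with
  | mem w hw =>
    obtain ⟨a, v, hv, rfl⟩ := hw
    rcases le_or_gt a c with h | h
    · obtain ⟨e, rfl⟩ := Nat.exists_eq_add_of_le h
      obtain ⟨m', n', h'⟩ := key v hv e
      refine ⟨m', n', ?_⟩
      rw [f₁_smul, map_pow, smul_smul, add_comm a e, pow_add, mul_assoc, xB_pow_mul_yB_pow,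
        mul_one, h']
    · obtain ⟨e, rfl⟩ := Nat.exists_eq_add_of_le h.le
      refine ⟨0, D.yR R ^ (b + e) • v, ?_⟩
      rw [f₁_smul, f₁_smul, map_pow, map_pow, map_zero, zero_add, smul_smul, smul_smul, pow_add,
        pow_add, ← mul_assoc, ← mul_assoc, xB_pow_mul_yB_pow, xB_pow_mul_yB_pow]
  | zero => exact ⟨0, 0, by simp⟩
  | add p q _ _ hp hq =>
    obtain ⟨m₁, n₁, h₁⟩ := hp c
    obtain ⟨m₂, n₂, h₂⟩ := hq c
    refine ⟨m₁ + m₂, n₁ + n₂, ?_⟩
    rw [map_add, map_add, map_add, smul_add, smul_add, h₁, h₂]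
    abel
  | smul r p _ hp =>
    obtain ⟨m₁, n₁, h₁⟩ := hp c
    refine ⟨r • m₁, r • n₁, ?_⟩
    rw [map_smul, map_smul, map_smul, smul_comm, h₁, smul_add, smul_comm r]

/-- `H1` vanishes after a large twist. -/
theorem exists_twist_surjective :
    ∃ b : ℕ, ∀ m : ℕ, b ≤ m → Function.Surjective (L.twist m).δ := by
  obtain ⟨b, hb⟩ := L.exists_bound
  refine ⟨b, fun j hj z => ?_⟩
  obtain ⟨m, n, hz⟩ := hb (xB ^ j • (show L.P from z))
  obtain ⟨e, rfl⟩ := Nat.exists_eq_add_of_le hj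
  refine ⟨(m, -(D.yR R ^ e • n)), ?_⟩
  rw [δ_apply, twist_f₀]
  show yB ^ (b + e) • L.f₀ m - L.f₁ (-(D.yR R ^ e • n)) = (z : L.P)
  rw [map_neg, sub_neg_eq_add, f₁_smul, map_pow]
  have h2 := congrArg (fun w => yB ^ (b + e) • w) hz
  simp only [smul_add, smul_smul] at h2
  rw [mul_comm, xB_pow_mul_yB_pow, one_smul] at h2
  refine Eq.trans ?_ h2.symm
  congr 2
  rw [pow_add, mul_right_comm, mul_comm (yB ^ b), xB_pow_mul_yB_pow, one_mul]

instance finite_H1 : Module.Finite R L.H1 := by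
  classical
  obtain ⟨b, hb⟩ := L.exists_bound
  obtain ⟨s, hs⟩ := L.exists_gen_N
  refine Module.finite_def.mpr ⟨(Finset.range b ×ˢ s).image
    (fun p => Submodule.Quotient.mk (xB ^ b • L.f₁ (D.yR R ^ p.1 • p.2))), ?_⟩
  rw [eq_top_iff]
  rintro z -
  obtain ⟨w, rfl⟩ := Submodule.Quotient.mk_surjective _ z
  obtain ⟨m, n, rfl⟩ := hb w
  have hm : (Submodule.Quotient.mk (L.f₀ m) : L.H1) = 0 :=
    (Submodule.Quotient.mk_eq_zero _).mpr ⟨(m, 0), by simp [δ_apply]⟩
  rw [Submodule.Quotient.mk_add, hm, zero_add]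
  induction hs n using Submodule.span_induction with
  | mem w hw =>
    obtain ⟨a, v, hv, rfl⟩ := hw
    rcases le_or_gt b a with h | h
    · obtain ⟨e, rfl⟩ := Nat.exists_eq_add_of_le h
      have : (Submodule.Quotient.mk (xB ^ b • L.f₁ (D.yR R ^ (b + e) • v)) : L.H1) = 0 := by
        refine (Submodule.Quotient.mk_eq_zero _).mpr ⟨(0, -(D.yR R ^ e • v)), ?_⟩
        rw [δ_apply, map_zero, zero_sub, map_neg, neg_neg, f₁_smul, f₁_smul, map_pow, map_pow,
          smul_smul, pow_add, ← mul_assoc, xB_pow_mul_yB_pow, one_mul]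
      rw [this]
      exact zero_mem _
    · exact Submodule.subset_span (Finset.mem_coe.mpr (Finset.mem_image.mpr
        ⟨(a, v), Finset.mem_product.mpr ⟨Finset.mem_range.mpr h, hv⟩, rfl⟩))
  | zero => simp
  | add p q _ _ hp hq => rw [map_add, smul_add, Submodule.Quotient.mk_add]; exact add_mem hp hq
  | smul r p _ hp =>
    rw [map_smul, smul_comm, Submodule.Quotient.mk_smul]
    exact Submodule.smul_mem _ r hp

/-- A linear functional on `M` extends to the intersection. -/
theorem exists_extend (φ : L.M →ₗ[D.AR R] D.AR R) :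
    ∃ ψ : L.P →ₗ[D.BR R] D.BR R, ∀ m, ψ (L.f₀ m) = algebraMap _ _ (φ m) := by
  refine ⟨(TensorProduct.AlgebraTensorModule.rid (D.AR R) (D.BR R) (D.BR R)).toLinearMap ∘ₗ
    φ.baseChange (D.BR R) ∘ₗ L.glue.symm.toLinearMap, fun m => ?_⟩
  simp [f₀_apply, Algebra.smul_def]

/-- A linear functional on `N` extends to the intersection. -/
theorem exists_extend₁ (φ : L.N →ₗ[D.AR₁ R] D.AR₁ R) :
    ∃ ψ : L.P →ₗ[D.BR R] D.BR R, ∀ n, ψ (L.f₁ n) = algebraMap _ _ (φ n) := by
  refine ⟨(TensorProduct.AlgebraTensorModule.rid (D.AR₁ R) (D.BR R) (D.BR R)).toLinearMap ∘ₗ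
    φ.baseChange (D.BR R), fun n => ?_⟩
  simp [f₁_apply, Algebra.smul_def]

/-- The first components of global sections lie in a finitely generated submodule. -/
theorem exists_fg_fst : ∃ W : Submodule R L.M, W.FG ∧ ∀ z ∈ L.H0, z.1 ∈ W := by
  classical
  obtain ⟨p, e, q, hqe⟩ : ∃ (p : ℕ) (e : L.M →ₗ[D.AR R] (Fin p → D.AR R))
      (q : (Fin p → D.AR R) →ₗ[D.AR R] L.M), q ∘ₗ e = LinearMap.id := by
    obtain ⟨p, f, hf⟩ := Module.Finite.exists_fin' (D.AR R) L.M
    obtain ⟨e, he⟩ := Module.projective_lifting_property f LinearMap.id hf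
    exact ⟨p, e, f, he⟩
  choose ψ hψ using fun i : Fin p => L.exists_extend (LinearMap.proj i ∘ₗ e)
  obtain ⟨t, ht⟩ := (Module.finite_def.mp (inferInstance : Module.Finite (D.AR₁ R) L.N))
  choose l a hl using fun (i : Fin p) (v : L.N) => IsLocalization.Away.surj (D.yR R) (ψ i (L.f₁ v))
  let b := Finset.univ.sup fun i : Fin p => t.sup (l i)
  obtain ⟨s, -, hs⟩ := D.exists_bound_set R b
  let W : Submodule R L.M := Submodule.span R
    ((Finset.univ ×ˢ s).image fun iv : Fin p × D.A =>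
      q (Pi.single iv.1 ((1 : R) ⊗ₜ[k] iv.2)) : Finset L.M)
  refine ⟨W, ⟨_, rfl⟩, fun z hz => ?_⟩
  obtain ⟨m, n⟩ := z
  have hmn := L.mem_H0.mp hz
  have hcoord : ∀ i, e m i ∈ Submodule.span R ((fun v => (1 : R) ⊗ₜ[k] v) '' (↑s : Set D.A)) := by
    intro i
    obtain ⟨c, hc⟩ : ∃ c : D.AR₁ R, yB ^ b * ψ i (L.f₁ n) = algebraMap _ _ c := by
      have hn : n ∈ Submodule.span (D.AR₁ R) (t : Set L.N) := ht ▸ Submodule.mem_top
      clear hz hmn
      induction hn using Submodule.span_induction with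
      | mem v hv =>
        obtain ⟨f, hf⟩ := Nat.exists_eq_add_of_le
          (show l i v ≤ b from (Finset.le_sup hv).trans (Finset.le_sup (f := fun i => t.sup (l i)) (Finset.mem_univ i)))
        refine ⟨D.yR R ^ f * a i v, ?_⟩
        rw [map_mul, map_pow, ← hl i v, hf, pow_add]
        ring
      | zero => exact ⟨0, by simp⟩
      | add u v _ _ hu hv =>
        obtain ⟨c₁, h₁⟩ := hu
        obtain ⟨c₂, h₂⟩ := hv
        exact ⟨c₁ + c₂, by rw [map_add, map_add, mul_add, h₁, h₂, map_add]⟩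
      | smul r v _ hv =>
        obtain ⟨c₁, h₁⟩ := hv
        exact ⟨r * c₁, by rw [f₁_smul, map_smul, smul_eq_mul, map_mul, ← h₁]; ring⟩
    refine hs (e m i) c ?_
    rw [← hc, ← hmn, hψ]
    rfl
  have hm : m = ∑ i, q (Pi.single i (e m i)) := by
    rw [← map_sum, Finset.univ_sum_single]
    exact (LinearMap.congr_fun hqe m).symm
  show m ∈ W
  rw [hm]
  refine Submodule.sum_mem _ fun i _ => ?_
  have key : ∀ w ∈ Submodule.span R ((fun v => (1 : R) ⊗ₜ[k] v) '' (↑s : Set D.A)),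
      q (Pi.single i w) ∈ W := fun w hw => by
    induction hw using Submodule.span_induction with
    | mem u hu =>
      obtain ⟨v, hv, rfl⟩ := hu
      exact Submodule.subset_span (Finset.mem_coe.mpr (Finset.mem_image.mpr
        ⟨(i, v), Finset.mem_product.mpr ⟨Finset.mem_univ i, hv⟩, rfl⟩))
    | zero => simp
    | add u v _ _ hu hv => rw [Pi.single_add, map_add]; exact add_mem hu hv
    | smul r u _ hu =>
      rw [Pi.single_smul, LinearMap.map_smul_of_tower]
      exact Submodule.smul_mem _ r hu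
  exact key _ (hcoord i)

/-- If `H1 = 0`, there is an idempotent projection onto the global sections. -/
theorem exists_proj (h : Function.Surjective L.δ) :
    ∃ π : (L.M × L.N) →ₗ[R] L.H0, ∀ z : L.H0, π z = z := by
  have : Module.Projective R (L.M × L.N) := inferInstance
  -- the intersection is projective, being a quotient with a section
  have : Module.Projective R L.P := by
    have : Module.Projective R (D.BR R ⊗[D.AR₁ R] L.N) :=
      LineData.projective_restrict (D.BR R) _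
    infer_instance
  obtain ⟨σ, hσ⟩ := Module.projective_lifting_property L.δ LinearMap.id h
  have hσ' : ∀ w, L.δ (σ w) = w := fun w => LinearMap.congr_fun hσ w
  have hmem : ∀ z : L.M × L.N, ((LinearMap.id : (L.M × L.N) →ₗ[R] _) - σ ∘ₗ L.δ) z ∈ L.H0 := fun z => by
    show _ ∈ LinearMap.ker L.δ
    rw [LinearMap.mem_ker, LinearMap.sub_apply, map_sub, LinearMap.comp_apply, hσ']
    simp
  refine ⟨(LinearMap.id - σ ∘ₗ L.δ).codRestrict L.H0 hmem, fun z => Subtype.ext ?_⟩
  have hz : L.δ (z : L.M × L.N) = 0 := z.2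
  simp [hz]

/-- If `H1 = 0`, then `H0` is projective. -/
theorem projective_H0 (h : Function.Surjective L.δ) : Module.Projective R L.H0 := by
  obtain ⟨π, hπ⟩ := L.exists_proj h
  exact Module.Projective.of_split L.H0.subtype π (LinearMap.ext hπ)

/-- The second components of global sections lie in a finitely generated submodule. -/
theorem exists_fg_snd : ∃ W : Submodule R L.N, W.FG ∧ ∀ z ∈ L.H0, z.2 ∈ W := by
  classical
  obtain ⟨p, e, q, hqe⟩ : ∃ (p : ℕ) (e : L.N →ₗ[D.AR₁ R] (Fin p → D.AR₁ R))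
      (q : (Fin p → D.AR₁ R) →ₗ[D.AR₁ R] L.N), q ∘ₗ e = LinearMap.id := by
    obtain ⟨p, f, hf⟩ := Module.Finite.exists_fin' (D.AR₁ R) L.N
    obtain ⟨e, he⟩ := Module.projective_lifting_property f LinearMap.id hf
    exact ⟨p, e, f, he⟩
  choose ψ hψ using fun i : Fin p => L.exists_extend₁ (LinearMap.proj i ∘ₗ e)
  obtain ⟨t, ht⟩ := (Module.finite_def.mp (inferInstance : Module.Finite (D.AR R) L.M))
  choose l a hl using fun (i : Fin p) (v : L.M) => IsLocalization.Away.surj (D.xR R) (ψ i (L.f₀ v))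
  let b := Finset.univ.sup fun i : Fin p => t.sup (l i)
  obtain ⟨s, hsV, hs⟩ := D.exists_bound_set R b
  choose g hg using fun (v : {v // v ∈ s}) => D.mem_Vpole.mp (hsV v.2)
  let W : Submodule R L.N := Submodule.span R
    ((Finset.univ ×ˢ s.attach).image fun iv : Fin p × {v // v ∈ s} =>
      q (Pi.single iv.1 ((1 : R) ⊗ₜ[k] g iv.2)) : Finset L.N)
  refine ⟨W, ⟨_, rfl⟩, fun z hz => ?_⟩
  obtain ⟨m, n⟩ := z
  have hmn := L.mem_H0.mp hz
  have hcoord : ∀ i, e n i ∈
      Submodule.span R (Set.range fun v : {v // v ∈ s} => (1 : R) ⊗ₜ[k] g v) := by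
    intro i
    obtain ⟨c, hc⟩ : ∃ c : D.AR R, xB ^ b * ψ i (L.f₀ m) = algebraMap _ _ c := by
      have hn : m ∈ Submodule.span (D.AR R) (t : Set L.M) := ht ▸ Submodule.mem_top
      clear hz hmn
      induction hn using Submodule.span_induction with
      | mem v hv =>
        obtain ⟨f, hf⟩ := Nat.exists_eq_add_of_le
          (show l i v ≤ b from (Finset.le_sup hv).trans (Finset.le_sup (f := fun i => t.sup (l i)) (Finset.mem_univ i)))
        refine ⟨D.xR R ^ f * a i v, ?_⟩
        rw [map_mul, map_pow, ← hl i v, hf, pow_add]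
        ring
      | zero => exact ⟨0, by simp⟩
      | add u v _ _ hu hv =>
        obtain ⟨c₁, h₁⟩ := hu
        obtain ⟨c₂, h₂⟩ := hv
        exact ⟨c₁ + c₂, by rw [map_add, map_add, mul_add, h₁, h₂, map_add]⟩
      | smul r v _ hv =>
        obtain ⟨c₁, h₁⟩ := hv
        exact ⟨r * c₁, by rw [f₀_smul, map_smul, smul_eq_mul, map_mul, ← h₁]; ring⟩
    have hψn : algebraMap (D.AR₁ R) (D.BR R) (e n i) = yB ^ b * algebraMap _ _ c := by
      rw [← hc, ← mul_assoc, mul_comm (yB ^ b), xB_pow_mul_yB_pow, one_mul, hmn, hψ]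
      rfl
    have hc' := hs c (e n i) hψn.symm
    obtain ⟨w, hw, hw'⟩ : ∃ w ∈ Submodule.span R (Set.range fun v : {v // v ∈ s} => (1 : R) ⊗ₜ[k] g v),
        algebraMap (D.AR₁ R) (D.BR R) w = yB ^ b * algebraMap _ _ c := by
      clear hc hψn
      induction hc' using Submodule.span_induction with
      | mem u hu =>
        obtain ⟨v, hv, rfl⟩ := hu
        refine ⟨(1 : R) ⊗ₜ[k] g ⟨v, hv⟩, Submodule.subset_span ⟨_, rfl⟩, ?_⟩
        rw [CurveData.algebraMap_AR₁_tmul, hg, CurveData.algebraMap_AR_tmul,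
          CurveData.algebraMap_AR₁_tmul, Algebra.TensorProduct.tmul_pow, one_pow,
          Algebra.TensorProduct.tmul_mul_tmul, one_mul]
      | zero => exact ⟨0, zero_mem _, by simp⟩
      | add u v _ _ hu hv =>
        obtain ⟨w₁, hw₁, h₁⟩ := hu
        obtain ⟨w₂, hw₂, h₂⟩ := hv
        exact ⟨w₁ + w₂, add_mem hw₁ hw₂, by rw [map_add, map_add, mul_add, h₁, h₂]⟩
      | smul r u _ hu =>
        obtain ⟨w₁, hw₁, h₁⟩ := hu
        exact ⟨r • w₁, Submodule.smul_mem _ r hw₁, by
          rw [← IsScalarTower.toAlgHom_apply R (D.AR₁ R) (D.BR R), map_smul,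
            ← IsScalarTower.toAlgHom_apply R (D.AR R) (D.BR R) (r • u), map_smul, mul_smul_comm]
          exact congrArg (r • ·) h₁⟩
    rwa [D.injective_algebraMap₁ (hw'.trans hψn.symm)] at hw
  have hn : n = ∑ i, q (Pi.single i (e n i)) := by
    rw [← map_sum, Finset.univ_sum_single]
    exact (LinearMap.congr_fun hqe n).symm
  show n ∈ W
  rw [hn]
  refine Submodule.sum_mem _ fun i _ => ?_
  have key : ∀ w ∈ Submodule.span R (Set.range fun v : {v // v ∈ s} => (1 : R) ⊗ₜ[k] g v),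
      q (Pi.single i w) ∈ W := fun w hw => by
    induction hw using Submodule.span_induction with
    | mem u hu =>
      obtain ⟨v, rfl⟩ := hu
      exact Submodule.subset_span (Finset.mem_coe.mpr (Finset.mem_image.mpr
        ⟨(i, v), Finset.mem_product.mpr ⟨Finset.mem_univ i, Finset.mem_attach _ _⟩, rfl⟩))
    | zero => simp
    | add u v _ _ hu hv => rw [Pi.single_add, map_add]; exact add_mem hu hv
    | smul r u _ hu =>
      rw [Pi.single_smul, LinearMap.map_smul_of_tower]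
      exact Submodule.smul_mem _ r hu
  exact key _ (hcoord i)

/-- If `H1 = 0`, then `H0` is finitely generated. -/
theorem finite_H0 (h : Function.Surjective L.δ) : Module.Finite R L.H0 := by
  obtain ⟨π, hπ⟩ := L.exists_proj h
  obtain ⟨W₀, hW₀, h₀⟩ := L.exists_fg_fst
  obtain ⟨W₁, hW₁, h₁⟩ := L.exists_fg_snd
  have : Module.Finite R W₀ := Module.Finite.iff_fg.mpr hW₀
  have : Module.Finite R W₁ := Module.Finite.iff_fg.mpr hW₁
  exact Module.Finite.of_surjective (π ∘ₗ W₀.subtype.prodMap W₁.subtype) fun z =>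
    ⟨(⟨_, h₀ _ z.2⟩, ⟨_, h₁ _ z.2⟩), hπ z⟩

end Fermat.Agent.Jac.LineData
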