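import Fermat.Agent.Jac.Alg.PullBij
import Fermat.Agent.Jac.Alg.Coh
import Mathlib.LinearAlgebra.TensorProduct.RightExactness
import Mathlib.RingTheory.Spectrum.Prime.FreeLocus

/-!
# Cohomology and base change

If `H1 = 0` then this persists after pullback and `H0` commutes with base change.
-/

set_option autoImplicit false

universe u

noncomputable section

open TensorProduct

namespace Fermat.Agent.Jac.LineData

variable {k : Type u} [Field k] {D : CurveData.{u} k}
variable {R R' : Type u} [CommRing R] [Algebra k R] [CommRing R'] [Algebra k R']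
  [Algebra R R'] [IsScalarTower k R R']
variable {L : LineData D R} {L' : LineData D R'}
variable (p : Pullback (IsScalarTower.toAlgHom k R R') L L')

theorem mapBR_res₁ (a : D.AR₁ R) :
    D.mapBR (IsScalarTower.toAlgHom k R R') (algebraMap (D.AR₁ R) (D.BR R) a) =
      algebraMap (D.AR₁ R') (D.BR R') (D.mapAR₁ (IsScalarTower.toAlgHom k R R') a) := by
  induction a using TensorProduct.induction_on with
  | zero => simp
  | tmul r a => rfl
  | add x y hx hy => rw [map_add, map_add, hx, hy, map_add, map_add]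

/-- The induced map on the intersection. -/
def Pullback.γAdd : L.P →+ L'.P :=
  TensorProduct.liftAddHom
    (AddMonoidHom.mk' (fun b => AddMonoidHom.mk'
      (fun n => D.mapBR (IsScalarTower.toAlgHom k R R') b • L'.f₁ (p.gN n))
      fun a b => by rw [map_add, map_add, smul_add]) fun a b => by
        ext n
        show D.mapBR (IsScalarTower.toAlgHom k R R') (a + b) • L'.f₁ (p.gN n) = _
        rw [map_add, add_smul]
        rfl)
    fun r b n => by
      show D.mapBR (IsScalarTower.toAlgHom k R R') (r • b) • L'.f₁ (p.gN n) = D.mapBR (IsScalarTower.toAlgHom k R R') b • L'.f₁ (p.gN (r • n))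
      have hb : D.mapBR (IsScalarTower.toAlgHom k R R') (r • b) =
          D.mapBR (IsScalarTower.toAlgHom k R R') b *
            algebraMap (D.AR₁ R') (D.BR R') (D.mapAR₁ (IsScalarTower.toAlgHom k R R') r) :=
        ((congrArg (D.mapBR (IsScalarTower.toAlgHom k R R')) (Algebra.smul_def r b)).trans
          (map_mul _ _ _)).trans ((congrArg (· * _) (mapBR_res₁ r)).trans (mul_comm _ _))
      rw [hb, mul_smul, LinearMap.map_smulₛₗ p.gN, f₁_smul]
      rfl

theorem Pullback.γAdd_tmul (b : D.BR R) (n : L.N) :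
    p.γAdd (b ⊗ₜ n) = D.mapBR (IsScalarTower.toAlgHom k R R') b • L'.f₁ (p.gN n) := rfl

/-- The induced map on the intersection, semilinear over the base. -/
def Pullback.γ : L.P →ₛₗ[algebraMap R R'] L'.P where
  toFun := p.γAdd
  map_add' := map_add p.γAdd
  map_smul' := fun r z => by
    induction z using TensorProduct.induction_on with
    | zero => simp
    | tmul b n =>
      rw [TensorProduct.smul_tmul', γAdd_tmul, γAdd_tmul]
      have hb : D.mapBR (IsScalarTower.toAlgHom k R R') (r • b) =
          algebraMap R' (D.BR R') (algebraMap R R' r) *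
            D.mapBR (IsScalarTower.toAlgHom k R R') b :=
        ((congrArg (D.mapBR (IsScalarTower.toAlgHom k R R')) (Algebra.smul_def r b)).trans
          (map_mul _ _ _)).trans (congrArg (· * _) rfl)
      rw [hb, mul_smul]
      exact algebraMap_smul (D.BR R') (algebraMap R R' r) _
    | add a b ha hb => rw [smul_add, map_add, map_add, smul_add, ha, hb]

theorem Pullback.γ_tmul (b : D.BR R) (n : L.N) :
    p.γ (b ⊗ₜ n) = D.mapBR (IsScalarTower.toAlgHom k R R') b • L'.f₁ (p.gN n) := rfl

theorem Pullback.γ_f₁ (n : L.N) : p.γ (L.f₁ n) = L'.f₁ (p.gN n) := by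
  rw [f₁_apply, γ_tmul, map_one, one_smul]

theorem Pullback.γ_smul (b : D.BR R) (z : L.P) :
    p.γ (b • z) = D.mapBR (IsScalarTower.toAlgHom k R R') b • p.γ z := by
  induction z using TensorProduct.induction_on with
  | zero => simp
  | tmul c n => rw [TensorProduct.smul_tmul', γ_tmul, γ_tmul, smul_eq_mul, map_mul, mul_smul]
  | add a c ha hc => rw [smul_add, map_add, map_add, smul_add, ha, hc]

theorem Pullback.mapBR_y_pow (j : ℕ) :
    D.mapBR (IsScalarTower.toAlgHom k R R')
        (algebraMap (D.AR₁ R) (D.BR R) (D.yR R) ^ j) =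
      algebraMap (D.AR₁ R') (D.BR R') (D.yR R') ^ j := by
  rw [map_pow, mapBR_res₁]
  congr 2
  show (IsScalarTower.toAlgHom k R R') 1 ⊗ₜ[k] D.y = _
  rw [map_one]

theorem Pullback.γ_f₀ (m : L.M) : p.γ (L.f₀ m) = L'.f₀ (p.gM m) := by
  obtain ⟨j, n, h⟩ := L.exists_rel m
  refine (algebraMap_y_pow_ne (D := D) (R := R') j).smul_left_cancel.mp ?_
  rw [p.rel j m n h, ← p.γ_f₁, ← h, p.γ_smul, mapBR_y_pow]

theorem Pullback.δ_apply' (m : L.M) (n : L.N) :
    L'.δ (p.gM m, p.gN n) = p.γ (L.δ (m, n)) := by
  rw [LineData.δ_apply, LineData.δ_apply, map_sub, γ_f₀, γ_f₁]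

/-- The map `R' ⊗ (M × N) → M' × N'`. -/
def Pullback.gR : (L.M × L.N) →ₛₗ[algebraMap R R'] (L'.M × L'.N) where
  toFun z := (p.gMR z.1, p.gNR z.2)
  map_add' a b := Prod.ext (map_add _ _ _) (map_add _ _ _)
  map_smul' r a := Prod.ext (map_smulₛₗ _ _ _) (map_smulₛₗ _ _ _)

theorem Pullback.δ_semiLift (z : R' ⊗[R] (L.M × L.N)) :
    L'.δ (semiLift p.gR z) = semiLift p.γ (L.δ.lTensor R' z) := by
  induction z using TensorProduct.induction_on with
  | zero => simp
  | tmul r w =>
    rw [semiLift_tmul, LinearMap.lTensor_tmul, semiLift_tmul, map_smul]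
    exact congrArg (r • ·) (p.δ_apply' w.1 w.2)
  | add a b ha hb => rw [map_add, map_add, map_add, map_add, ha, hb]

theorem Pullback.semiLift_γ_surjective : Function.Surjective (semiLift p.γ) := by
  intro z
  obtain ⟨c, n, hn⟩ := D.exists_tmul_of_mem₁ z
  obtain ⟨w, rfl⟩ := (p.bijective_N).2 n
  have hu : IsUnit (algebraMap (D.AR₁ R) (D.BR R) (D.yR R) ^ c) := algebraMap_y_pow_ne c
  refine ⟨((hu.unit⁻¹ : (D.BR R)ˣ).val • (LinearMap.id : L.P →ₗ[R] L.P)).lTensor R'
    (L.f₁.lTensor R' w), (algebraMap_y_pow_ne (D := D) (R := R') c).smul_left_cancel.mp ?_⟩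
  rw [hn]
  clear hn
  induction w using TensorProduct.induction_on with
  | zero => simp
  | tmul r v =>
    rw [LinearMap.lTensor_tmul, LinearMap.lTensor_tmul, semiLift_tmul, semiLift_tmul,
      LinearMap.smul_apply, LinearMap.id_apply, smul_comm (M := D.BR R') (N := R'),
      ← mapBR_y_pow (D := D) (R := R) (R' := R') c, ← p.γ_smul, smul_smul, IsUnit.mul_val_inv, one_smul, γ_f₁,
      TensorProduct.tmul_smul]
    rfl
  | add a b ha hb =>
    simp only [map_add, smul_add, ha, hb, tmul_add]

theorem Pullback.semiLift_γ_injective : Function.Injective (semiLift p.γ) := by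
  rw [injective_iff_map_eq_zero]
  intro w hw
  have key : ∀ v : R' ⊗[R] L.P, ∃ (c : ℕ) (v₀ : R' ⊗[R] L.N),
      ((algebraMap (D.AR₁ R) (D.BR R) (D.yR R) ^ c) • (LinearMap.id : L.P →ₗ[R] L.P)).lTensor R' v =
        L.f₁.lTensor R' v₀ := by
    intro v
    induction v using TensorProduct.induction_on with
    | zero => exact ⟨0, 0, by simp⟩
    | tmul r z =>
      obtain ⟨c, n, hn⟩ := D.exists_tmul_of_mem₁ z
      exact ⟨c, r ⊗ₜ n, by simp [hn, f₁_apply]⟩
    | add a b ha hb =>
      obtain ⟨c, a₀, ha₀⟩ := ha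
      obtain ⟨e, b₀, hb₀⟩ := hb
      have hmul : ∀ (i : ℕ) (u : R' ⊗[R] L.N),
          ((algebraMap (D.AR₁ R) (D.BR R) (D.yR R) ^ i) • (LinearMap.id : L.P →ₗ[R] L.P)).lTensor R'
            (L.f₁.lTensor R' u) =
          L.f₁.lTensor R' ((D.yR R ^ i • (LinearMap.id : L.N →ₗ[R] L.N)).lTensor R' u) := by
        intro i u
        induction u using TensorProduct.induction_on with
        | zero => simp
        | tmul r n =>
          simp only [LinearMap.lTensor_tmul, LinearMap.smul_apply, LinearMap.id_apply, f₁_smul,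
            map_pow]
        | add a b ha hb => rw [map_add, map_add, map_add, map_add, ha, hb]
      refine ⟨e + c, (D.yR R ^ e • (LinearMap.id : L.N →ₗ[R] L.N)).lTensor R' a₀ +
        (D.yR R ^ c • (LinearMap.id : L.N →ₗ[R] L.N)).lTensor R' b₀, ?_⟩
      rw [map_add, map_add, ← hmul, ← hmul, ← ha₀, ← hb₀, ← LinearMap.comp_apply,
        ← LinearMap.lTensor_comp, ← LinearMap.comp_apply, ← LinearMap.lTensor_comp]
      congr 2
      · ext z
        simp [smul_smul, pow_add]
      · ext z
        simp [smul_smul, pow_add, mul_comm]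
  obtain ⟨c, w₀, hw₀⟩ := key w
  have hinj : Function.Injective
      (((algebraMap (D.AR₁ R) (D.BR R) (D.yR R) ^ c) • (LinearMap.id : L.P →ₗ[R] L.P)).lTensor R') := by
    have hu : IsUnit (algebraMap (D.AR₁ R) (D.BR R) (D.yR R) ^ c) := algebraMap_y_pow_ne c
    refine Function.LeftInverse.injective
      (g := ((hu.unit⁻¹ : (D.BR R)ˣ).val • (LinearMap.id : L.P →ₗ[R] L.P)).lTensor R') fun v => ?_
    rw [← LinearMap.comp_apply, ← LinearMap.lTensor_comp]
    convert LinearMap.id_apply (R := R) v using 2
    rw [← LinearMap.lTensor_id]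
    congr 1
    ext z
    simp [smul_smul, hu.val_inv_mul]
  refine hinj ?_
  rw [hw₀, map_zero]
  have h1 : ∀ u : R' ⊗[R] L.N, semiLift p.γ (L.f₁.lTensor R' u) = L'.f₁ (semiLift p.gNR u) := by
    intro u
    induction u using TensorProduct.induction_on with
    | zero => simp
    | tmul r n =>
      rw [LinearMap.lTensor_tmul, semiLift_tmul, semiLift_tmul, map_smul, γ_f₁]
      rfl
    | add a b ha hb => rw [map_add, map_add, map_add, map_add, ha, hb]
  have h2 : ∀ v, semiLift p.γ
      (((algebraMap (D.AR₁ R) (D.BR R) (D.yR R) ^ c) • (LinearMap.id : L.P →ₗ[R] L.P)).lTensor R' v) =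
      algebraMap (D.AR₁ R') (D.BR R') (D.yR R') ^ c • semiLift p.γ v := by
    intro v
    induction v using TensorProduct.induction_on with
    | zero => simp
    | tmul r z =>
      rw [LinearMap.lTensor_tmul, semiLift_tmul, semiLift_tmul, LinearMap.smul_apply,
        LinearMap.id_apply, γ_smul, mapBR_y_pow, smul_comm]
    | add a b ha hb => rw [map_add, map_add, map_add, smul_add, ha, hb]
  have h3 : L'.f₁ (semiLift p.gNR w₀) = 0 := by rw [← h1, ← hw₀, h2, hw, smul_zero]
  have h4 : w₀ = 0 := (p.bijective_N).1 ((L'.f₁_injective (h3.trans (map_zero _).symm)).trans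
    (map_zero _).symm)
  rw [h4, map_zero]

theorem Pullback.bijective_gR : Function.Bijective (semiLift p.gR) := by
  have key : ∀ z, semiLift p.gR z =
      (semiLift p.gMR ((TensorProduct.prodRight R R' R' L.M L.N) z).1,
        semiLift p.gNR ((TensorProduct.prodRight R R' R' L.M L.N) z).2) := by
    intro z
    induction z using TensorProduct.induction_on with
    | zero => simp; rfl
    | tmul r w => rfl
    | add a b ha hb => rw [map_add, map_add, ha, hb, Prod.fst_add, Prod.snd_add, map_add, map_add]; rfl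
  rw [show ⇑(semiLift p.gR) = Prod.map (semiLift p.gMR) (semiLift p.gNR) ∘
    (TensorProduct.prodRight R R' R' L.M L.N) from funext key]
  exact (p.bijective_M.prodMap p.bijective_N).comp (LinearEquiv.bijective _)

include p in
theorem Pullback.surjective_δ (h : Function.Surjective L.δ) :
    Function.Surjective L'.δ := by
  intro z
  obtain ⟨w, rfl⟩ := p.semiLift_γ_surjective z
  obtain ⟨v, rfl⟩ := LinearMap.lTensor_surjective R' h w
  exact ⟨semiLift p.gR v, p.δ_semiLift v⟩

/-- The induced map on global sections. -/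
def Pullback.gH0 : L.H0 →ₛₗ[algebraMap R R'] L'.H0 where
  toFun z := ⟨p.gR z, by
    show p.gR (z : L.M × L.N) ∈ LinearMap.ker L'.δ
    rw [LinearMap.mem_ker]
    refine (p.δ_apply' _ _).trans ?_
    rw [LinearMap.mem_ker.mp (show ((z : L.M × L.N).1, (z : L.M × L.N).2) ∈ LinearMap.ker L.δ from z.2),
      map_zero]⟩
  map_add' a b := Subtype.ext (map_add p.gR (a : L.M × L.N) b)
  map_smul' r a := Subtype.ext (map_smulₛₗ p.gR r (a : L.M × L.N))

theorem Pullback.bijective_H0 (h : Function.Surjective L.δ) :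
    Function.Bijective (semiLift p.gH0) := by
  obtain ⟨π, hπ⟩ := L.exists_proj h
  have hsub : ∀ z : R' ⊗[R] L.H0,
      ((semiLift p.gH0 z : L'.H0) : L'.M × L'.N) = semiLift p.gR (L.H0.subtype.lTensor R' z) := by
    intro z
    induction z using TensorProduct.induction_on with
    | zero => simp
    | tmul r w => rfl
    | add a b ha hb => rw [map_add, Submodule.coe_add, ha, hb, map_add, map_add]
  have hπ' : π ∘ₗ L.H0.subtype = LinearMap.id := LinearMap.ext hπ
  constructor
  · intro a b hab
    have h' := p.bijective_gR.1 ((hsub a).symm.trans ((congrArg Subtype.val hab).trans (hsub b)))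
    have h'' := congrArg (π.lTensor R') h'
    rwa [← LinearMap.comp_apply, ← LinearMap.comp_apply, ← LinearMap.lTensor_comp, hπ',
      LinearMap.lTensor_id] at h''
  · rintro ⟨z, hz⟩
    obtain ⟨v, rfl⟩ := p.bijective_gR.2 z
    have hv : L.δ.lTensor R' v = 0 := p.semiLift_γ_injective (by
      rw [← p.δ_semiLift, map_zero]
      exact LinearMap.mem_ker.mp hz)
    have hex : Function.Exact L.H0.subtype L.δ := L.δ.exact_subtype_ker_map
    obtain ⟨u, rfl⟩ := (lTensor_exact R' hex h v).mp hv
    exact ⟨u, Subtype.ext (hsub u)⟩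

/-- Base change for the global sections as a linear equivalence. -/
def Pullback.H0Equiv (h : Function.Surjective L.δ) : R' ⊗[R] L.H0 ≃ₗ[R'] L'.H0 :=
  LinearEquiv.ofBijective (semiLift p.gH0) (p.bijective_H0 h)

include p in
theorem Pullback.rankAtStalk_H0 (h : Function.Surjective L.δ) (q : PrimeSpectrum R') :
    Module.rankAtStalk L'.H0 q =
      Module.rankAtStalk L.H0 (PrimeSpectrum.comap (algebraMap R R') q) := by
  have := L.projective_H0 h
  have := L.finite_H0 h
  rw [← Module.rankAtStalk_eq_of_equiv (p.H0Equiv h), Module.rankAtStalk_baseChange]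

end Fermat.Agent.Jac.LineData
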