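import Fermat.Agent.Jac.Alg.LineData
import Mathlib.LinearAlgebra.FiniteDimensional.Basic
import Mathlib.LinearAlgebra.Isomorphisms
import Mathlib.RingTheory.Finiteness.Basic

/-!
# Functions with bounded pole order at `ε`

`Vpole D l` is the space of functions on `C ∖ ε` with pole order at most `l * d` at `ε`; it is finite
dimensional.  Over `R` it is `R ⊗ Vpole D l`.
-/

set_option autoImplicit false

universe u

noncomputable section

open TensorProduct Polynomial

namespace Fermat.Agent.Jac.CurveData

variable {k : Type u} [Field k] (D : CurveData.{u} k)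

theorem isUnit_i₀_x : IsUnit (D.i₀ D.x) := IsUnit.of_mul_eq_one _ D.xy

theorem isUnit_i₁_y : IsUnit (D.i₁ D.y) := IsUnit.of_mul_eq_one _ (by rw [mul_comm]; exact D.xy)

theorem x_ne_zero : D.x ≠ 0 := fun h => X_ne_zero (D.injective_x (by simp [h]))

theorem y_ne_zero : D.y ≠ 0 := fun h => X_ne_zero (D.injective_y (by simp [h]))

theorem i₁_injective : Function.Injective D.i₁ :=
  IsLocalization.injective (S := D.B) (M := Submonoid.powers D.y)
    (powers_le_nonZeroDivisors_of_noZeroDivisors D.y_ne_zero)

theorem i₀_injective : Function.Injective D.i₀ :=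
  IsLocalization.injective (S := D.B) (M := Submonoid.powers D.x)
    (powers_le_nonZeroDivisors_of_noZeroDivisors D.x_ne_zero)

/-- Functions on the first chart with pole order at most `l * d` at `ε`. -/
def Vpole (l : ℕ) : Submodule k D.A :=
  (LinearMap.range D.i₁.toLinearMap).comap
    ((LinearMap.mulLeft k (D.i₁ D.y ^ l)).comp D.i₀.toLinearMap)

theorem mem_Vpole {l : ℕ} {a : D.A} :
    a ∈ D.Vpole l ↔ ∃ b : D.A₁, D.i₁ b = D.i₁ D.y ^ l * D.i₀ a := by
  simp [Vpole]

instance finite_Vpole : ∀ l : ℕ, Module.Finite k (D.Vpole l)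
  | 0 => by
    refine Module.Finite.of_surjective
      ((Algebra.linearMap k D.A).codRestrict (D.Vpole 0) fun r => ?_) ?_
    · exact D.mem_Vpole.mpr ⟨algebraMap k D.A₁ r, by simp⟩
    · rintro ⟨a, ha⟩
      obtain ⟨b, hb⟩ := D.mem_Vpole.mp ha
      obtain ⟨r, rfl⟩ := D.global_const a b (by simpa using hb.symm)
      exact ⟨r, rfl⟩
  | l + 1 => by
    have := finite_Vpole l
    let β : D.Vpole (l + 1) →ₗ[k] D.A₁ ⧸ (Ideal.span {D.y}).restrictScalars k :=
      ((Ideal.span {D.y}).restrictScalars k).mkQ ∘ₗ
        (LinearEquiv.ofInjective D.i₁.toLinearMap D.i₁_injective).symm.toLinearMap ∘ₗ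
          (((LinearMap.mulLeft k (D.i₁ D.y ^ (l + 1))).comp D.i₀.toLinearMap).comp
            (D.Vpole (l + 1)).subtype).codRestrict _ fun a => a.2
    have : Module.Finite k (D.A₁ ⧸ (Ideal.span {D.y}).restrictScalars k) := by
      refine Module.Finite.of_surjective
        (((Ideal.span {D.y}).restrictScalars k).mkQ ∘ₗ
          Fintype.linearCombination k (fun i : Fin D.d => D.t ^ (i : ℕ))) fun z => ?_
      obtain ⟨w, rfl⟩ := Submodule.mkQ_surjective _ z
      obtain ⟨c, hc⟩ := D.basis_jets.2 (Ideal.Quotient.mk _ w)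
      refine ⟨c, ?_⟩
      simp only [LinearMap.comp_apply, Submodule.mkQ_apply, Submodule.Quotient.eq]
      rw [Submodule.restrictScalars_mem, Fintype.linearCombination_apply]
      simpa [Algebra.smul_def] using Ideal.Quotient.eq.mp hc
    have hsub : ∀ z : LinearMap.ker β, ((z : D.Vpole (l + 1)) : D.A) ∈ D.Vpole l := by
      rintro ⟨⟨a, ha⟩, hker⟩
      refine D.mem_Vpole.mpr ?_
      obtain ⟨b, hb⟩ := D.mem_Vpole.mp ha
      have hb' : (LinearEquiv.ofInjective D.i₁.toLinearMap D.i₁_injective).symm
          ⟨D.i₁ D.y ^ (l + 1) * D.i₀ a, ⟨b, hb⟩⟩ = b := by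
        rw [LinearEquiv.symm_apply_eq]; exact Subtype.ext hb.symm
      have hk : b ∈ Ideal.span {D.y} := by
        have h := hker
        rw [LinearMap.mem_ker] at h
        simp only [β, LinearMap.comp_apply, Submodule.mkQ_apply,
          Submodule.Quotient.mk_eq_zero, Submodule.restrictScalars_mem] at h
        exact hb' ▸ h
      obtain ⟨b', rfl⟩ := Ideal.mem_span_singleton'.mp hk
      refine ⟨b', D.isUnit_i₁_y.mul_right_cancel ?_⟩
      rw [← map_mul, hb, pow_succ]
      ring
    have : Module.Finite k (LinearMap.ker β) :=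
      Module.Finite.of_injective
        (((D.Vpole (l + 1)).subtype ∘ₗ (LinearMap.ker β).subtype).codRestrict (D.Vpole l) hsub)
        fun u v h => Subtype.ext (Subtype.ext (congrArg Subtype.val h :))
    have : Module.Finite k (D.Vpole (l + 1) ⧸ LinearMap.ker β) :=
      Module.Finite.equiv β.quotKerEquivRange.symm
    exact Module.Finite.of_submodule_quotient (LinearMap.ker β)

variable (R : Type u) [CommRing R] [Algebra k R]

theorem exists_bound_set (l : ℕ) : ∃ s : Finset D.A, ↑s ⊆ (D.Vpole l : Set D.A) ∧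
    ∀ (a : D.AR R) (b : D.AR₁ R),
      algebraMap (D.AR₁ R) (D.BR R) (D.yR R) ^ l * algebraMap (D.AR R) (D.BR R) a =
        algebraMap (D.AR₁ R) (D.BR R) b →
      a ∈ Submodule.span R ((fun v => (1 : R) ⊗ₜ[k] v) '' (↑s : Set D.A)) := by
  classical
  obtain ⟨s, hs⟩ := (Module.Finite.iff_fg.mp (D.finite_Vpole l))
  refine ⟨s, fun v hv => hs ▸ Submodule.subset_span hv, fun a b hab => ?_⟩
  let e := Module.Basis.ofVectorSpace k R
  have hcoeff : ∀ i, (TensorProduct.equivFinsuppOfBasisLeft e) a i ∈ D.Vpole l := by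
    intro i
    refine D.mem_Vpole.mpr ⟨TensorProduct.equivFinsuppOfBasisLeft e b i, ?_⟩
    have h0 : ∀ z : D.AR R, TensorProduct.equivFinsuppOfBasisLeft e
        (algebraMap (D.AR₁ R) (D.BR R) (D.yR R) ^ l * algebraMap (D.AR R) (D.BR R) z) i =
        D.i₁ D.y ^ l * D.i₀ (TensorProduct.equivFinsuppOfBasisLeft e z i) := by
      intro z
      induction z using TensorProduct.induction_on with
      | zero => simp
      | tmul r v =>
        rw [← map_pow, Algebra.TensorProduct.tmul_pow, one_pow, algebraMap_AR₁_tmul,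
          algebraMap_AR_tmul, Algebra.TensorProduct.tmul_mul_tmul, one_mul, map_pow,
          TensorProduct.equivFinsuppOfBasisLeft_apply_tmul_apply,
          TensorProduct.equivFinsuppOfBasisLeft_apply_tmul_apply, map_smul, mul_smul_comm]
      | add p q hp hq => simp only [map_add, mul_add, Finsupp.add_apply, hp, hq]
    have h1 : ∀ w : D.AR₁ R, TensorProduct.equivFinsuppOfBasisLeft e
        (algebraMap (D.AR₁ R) (D.BR R) w) i =
        D.i₁ (TensorProduct.equivFinsuppOfBasisLeft e w i) := by
      intro w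
      induction w using TensorProduct.induction_on with
      | zero => simp
      | tmul r v =>
        rw [algebraMap_AR₁_tmul, TensorProduct.equivFinsuppOfBasisLeft_apply_tmul_apply,
          TensorProduct.equivFinsuppOfBasisLeft_apply_tmul_apply, map_smul]
      | add p q hp hq => simp only [map_add, Finsupp.add_apply, hp, hq]
    rw [← h0, hab, h1]
  rw [← (TensorProduct.equivFinsuppOfBasisLeft e (N := D.A)).symm_apply_apply a,
    TensorProduct.equivFinsuppOfBasisLeft_symm_apply]
  rw [Finsupp.sum]
  refine Submodule.sum_mem _ fun i _ => ?_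
  have hmem := hcoeff i
  rw [← hs] at hmem
  generalize (TensorProduct.equivFinsuppOfBasisLeft e) a i = v at hmem
  induction hmem using Submodule.span_induction with
  | mem w hw =>
    have : e i ⊗ₜ[k] w = e i • ((1 : R) ⊗ₜ[k] w) := by rw [TensorProduct.smul_tmul', smul_eq_mul, mul_one]
    rw [this]
    exact Submodule.smul_mem _ _ (Submodule.subset_span ⟨w, hw, rfl⟩)
  | zero => simp
  | add p q _ _ hp hq => rw [tmul_add]; exact add_mem hp hq
  | smul c p _ hp =>
    rw [TensorProduct.tmul_smul]
    exact Submodule.smul_of_tower_mem _ c hp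

end Fermat.Agent.Jac.CurveData
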