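import Fermat.Agent.Jac.Alg.LineData

/-!
# Pullbacks and isomorphisms of line data

Both are stated elementwise: a semilinear map on each chart, spanning, respecting the relation
`Rel` (equality on the intersection).
-/

set_option autoImplicit false

universe u

noncomputable section

open TensorProduct

namespace Fermat.Agent.Jac

variable {k : Type u} [Field k] {D : CurveData.{u} k}
variable {R R' R'' : Type u} [CommRing R] [Algebra k R] [CommRing R'] [Algebra k R']
  [CommRing R''] [Algebra k R'']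

namespace CurveData

variable (D)

/-- Functoriality of the first chart ring. -/
def mapAR (φ : R →ₐ[k] R') : D.AR R →ₐ[k] D.AR R' :=
  Algebra.TensorProduct.map φ (AlgHom.id k D.A)

/-- Functoriality of the second chart ring. -/
def mapAR₁ (φ : R →ₐ[k] R') : D.AR₁ R →ₐ[k] D.AR₁ R' :=
  Algebra.TensorProduct.map φ (AlgHom.id k D.A₁)

/-- Functoriality of the ring of the intersection. -/
def mapBR (φ : R →ₐ[k] R') : D.BR R →ₐ[k] D.BR R' :=
  Algebra.TensorProduct.map φ (AlgHom.id k D.B)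

/-- Evaluation at `ε` on the second chart. -/
def evR : D.AR₁ R →ₐ[R] R :=
  Algebra.TensorProduct.lift (AlgHom.id R R) ((Algebra.ofId k R).comp D.ev)
    fun _ _ => Commute.all _ _

end CurveData

namespace LineData

/-- `L'` is the pullback of `L` along `φ`. -/
structure Pullback (φ : R →ₐ[k] R') (L : LineData D R) (L' : LineData D R') where
  gM : L.M →ₛₗ[(D.mapAR φ).toRingHom] L'.M
  gN : L.N →ₛₗ[(D.mapAR₁ φ).toRingHom] L'.N
  spanM : Submodule.span (D.AR R') (Set.range gM) = ⊤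
  spanN : Submodule.span (D.AR₁ R') (Set.range gN) = ⊤
  rel : ∀ (j : ℕ) (m : L.M) (n : L.N), L.Rel j m n → L'.Rel j (gM m) (gN n)

/-- An isomorphism of line data. -/
structure Iso (L L' : LineData D R) where
  eM : L.M ≃ₗ[D.AR R] L'.M
  eN : L.N ≃ₗ[D.AR₁ R] L'.N
  rel : ∀ (j : ℕ) (m : L.M) (n : L.N), L.Rel j m n → L'.Rel j (eM m) (eN n)

/-- The identity isomorphism. -/
def Iso.refl (L : LineData D R) : Iso L L :=
  ⟨LinearEquiv.refl _ _, LinearEquiv.refl _ _, fun _ _ _ h => h⟩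

/-- Composition of isomorphisms. -/
def Iso.trans {L L' L'' : LineData D R} (e : Iso L L') (e' : Iso L' L'') : Iso L L'' :=
  ⟨e.eM.trans e'.eM, e.eN.trans e'.eN, fun j m n h => e'.rel j _ _ (e.rel j m n h)⟩

theorem algebraMap_y_pow_ne (j : ℕ) :
    IsUnit (algebraMap (D.AR₁ R) (D.BR R) (D.yR R) ^ j) :=
  (IsUnit.of_mul_eq_one _ (by rw [mul_comm]; exact D.xR_mul_yR R)).pow j

theorem Rel.unique {L : LineData D R} {j : ℕ} {m : L.M} {n n' : L.N} (h : L.Rel j m n)
    (h' : L.Rel j m n') : n = n' :=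
  L.f₁_injective (h.symm.trans h')

theorem Rel.unique_left {L : LineData D R} {j : ℕ} {m m' : L.M} {n : L.N} (h : L.Rel j m n)
    (h' : L.Rel j m' n) : m = m' :=
  L.f₀_injective ((algebraMap_y_pow_ne j).smul_left_cancel.mp (h.trans h'.symm))

/-- The inverse isomorphism. -/
def Iso.symm {L L' : LineData D R} (e : Iso L L') : Iso L' L :=
  ⟨e.eM.symm, e.eN.symm, fun j m n h => by
    obtain ⟨i, n₀, hn₀⟩ := L.exists_rel (e.eM.symm m)
    have h' := e.rel i _ _ hn₀
    rw [LinearEquiv.apply_symm_apply] at h'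
    -- both relations describe `m`
    unfold Rel at h h' hn₀ ⊢
    have key : L'.f₁ (D.yR R ^ i • n) = L'.f₁ (D.yR R ^ j • e.eN n₀) := by
      rw [f₁_smul, f₁_smul, map_pow, map_pow, ← h, ← h', smul_comm]
    have h2 := congrArg e.eN.symm (L'.f₁_injective key)
    rw [map_smul, map_smul, LinearEquiv.symm_apply_apply] at h2
    have h3 := congrArg L.f₁ h2
    rw [f₁_smul, f₁_smul, map_pow, map_pow, ← hn₀, smul_comm] at h3
    exact ((algebraMap_y_pow_ne i).smul_left_cancel.mp h3).symm⟩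

theorem equivalence_iso :
    Equivalence fun L L' : LineData D R => Nonempty (Iso L L') :=
  ⟨fun L => ⟨Iso.refl L⟩, fun ⟨e⟩ => ⟨e.symm⟩, fun ⟨e⟩ ⟨e'⟩ => ⟨e.trans e'⟩⟩

/-- The line bundle is trivial along `ε`. -/
def Rigid (L : LineData D R) : Prop :=
  ∃ g : L.N →ₛₗ[(D.evR (R := R)).toRingHom] R, Function.Surjective g

theorem span_range_comp {S S' S'' : Type u} [CommRing S] [CommRing S'] [CommRing S'']
    {σ : S →+* S'} {τ : S' →+* S''} {ρ : S →+* S''} [RingHomCompTriple σ τ ρ]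
    {M M' M'' : Type u} [AddCommGroup M] [AddCommGroup M'] [AddCommGroup M''] [Module S M]
    [Module S' M'] [Module S'' M''] (f : M →ₛₗ[σ] M') (g : M' →ₛₗ[τ] M'')
    (hf : Submodule.span S' (Set.range f) = ⊤) (hg : Submodule.span S'' (Set.range g) = ⊤) :
    Submodule.span S'' (Set.range (g.comp f)) = ⊤ := by
  rw [eq_top_iff, ← hg, Submodule.span_le]
  rintro _ ⟨z, rfl⟩
  have hz : z ∈ Submodule.span S' (Set.range f) := hf ▸ Submodule.mem_top
  induction hz using Submodule.span_induction with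
  | mem w hw =>
    obtain ⟨v, rfl⟩ := hw
    exact Submodule.subset_span ⟨v, rfl⟩
  | zero => simp
  | add a b _ _ ha hb => rw [map_add]; exact add_mem ha hb
  | smul a b _ hb => rw [map_smulₛₗ]; exact Submodule.smul_mem _ _ hb

theorem mapAR_comp (φ : R →ₐ[k] R') (ψ : R' →ₐ[k] R'') :
    (D.mapAR ψ).toRingHom.comp (D.mapAR φ).toRingHom = (D.mapAR (ψ.comp φ)).toRingHom :=
  congrArg AlgHom.toRingHom
    (Algebra.TensorProduct.map_comp ψ φ (AlgHom.id k D.A) (AlgHom.id k D.A)).symm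

theorem mapAR₁_comp (φ : R →ₐ[k] R') (ψ : R' →ₐ[k] R'') :
    (D.mapAR₁ ψ).toRingHom.comp (D.mapAR₁ φ).toRingHom = (D.mapAR₁ (ψ.comp φ)).toRingHom :=
  congrArg AlgHom.toRingHom
    (Algebra.TensorProduct.map_comp ψ φ (AlgHom.id k D.A₁) (AlgHom.id k D.A₁)).symm

/-- Composition of pullbacks. -/
def Pullback.comp {φ : R →ₐ[k] R'} {ψ : R' →ₐ[k] R''} {L : LineData D R} {L' : LineData D R'}
    {L'' : LineData D R''} (p : Pullback φ L L') (q : Pullback ψ L' L'') :
    Pullback (ψ.comp φ) L L'' :=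
  haveI h : RingHomCompTriple (D.mapAR φ).toRingHom (D.mapAR ψ).toRingHom
      (D.mapAR (ψ.comp φ)).toRingHom := ⟨mapAR_comp φ ψ⟩
  haveI h' : RingHomCompTriple (D.mapAR₁ φ).toRingHom (D.mapAR₁ ψ).toRingHom
      (D.mapAR₁ (ψ.comp φ)).toRingHom := ⟨mapAR₁_comp φ ψ⟩
  { gM := q.gM.comp p.gM
    gN := q.gN.comp p.gN
    spanM := span_range_comp p.gM q.gM p.spanM q.spanM
    spanN := span_range_comp p.gN q.gN p.spanN q.spanN
    rel := fun j m n h => q.rel j _ _ (p.rel j m n h) }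

end LineData

end Fermat.Agent.Jac
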