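import Fermat.Agent.Jac.Alg.Pic

/-!
# Rigid classes and rigidification by line bundles from the base
-/

set_option autoImplicit false

universe u

noncomputable section

open TensorProduct

namespace Fermat.Agent.Jac

variable {k : Type u} [Field k] {D : CurveData.{u} k}
variable {R R' : Type u} [CommRing R] [Algebra k R] [CommRing R'] [Algebra k R']

namespace CurveData

theorem evR_tmul (r : R) (a : D.A₁) : D.evR (r ⊗ₜ a) = r * algebraMap k R (D.ev a) :=
  Algebra.TensorProduct.lift_tmul _ _ _ _ _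

theorem evR_surjective : Function.Surjective (D.evR (R := R)) := fun r =>
  ⟨r ⊗ₜ 1, by rw [evR_tmul, map_one, map_one, mul_one]⟩

theorem evR_mapAR₁ (φ : R →ₐ[k] R') (a : D.AR₁ R) :
    D.evR (D.mapAR₁ φ a) = φ (D.evR a) := by
  induction a using TensorProduct.induction_on with
  | zero => simp
  | tmul r a =>
    show D.evR (φ r ⊗ₜ[k] a) = _
    rw [evR_tmul, evR_tmul, map_mul, φ.commutes]
  | add x y hx hy => simp only [map_add, hx, hy]

end CurveData

namespace LineData

theorem unit_rigid : (unit : LineData D R).Rigid :=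
  ⟨{ toFun := D.evR (R := R), map_add' := map_add _, map_smul' := fun a b => map_mul _ a b },
    CurveData.evR_surjective⟩

theorem Rigid.iso {L L' : LineData D R} (h : L.Rigid) (e : Iso L L') : L'.Rigid := by
  obtain ⟨g, hg⟩ := h
  exact ⟨g.comp e.eN.symm.toLinearMap, hg.comp e.eN.symm.surjective⟩

theorem Rigid.tensor {L L' : LineData D R} (h : L.Rigid) (h' : L'.Rigid) :
    (L.tensor L').Rigid := by
  obtain ⟨g, hg⟩ := h
  obtain ⟨g', hg'⟩ := h'
  let σ : D.AR₁ R →+* R := (D.evR (R := R)).toRingHom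
  refine ⟨TensorProduct.lift (LinearMap.mk₂'ₛₗ σ σ (fun n n' => g n * g' n')
    (fun a b c => by rw [map_add, add_mul])
    (fun a b c => by rw [map_smulₛₗ, smul_eq_mul, smul_eq_mul, mul_assoc])
    (fun a b c => by rw [map_add, mul_add])
    (fun a b c => by rw [map_smulₛₗ, smul_eq_mul, smul_eq_mul, mul_left_comm])), fun r => ?_⟩
  obtain ⟨n, hn⟩ := hg r
  obtain ⟨n', hn'⟩ := hg' 1
  refine ⟨n ⊗ₜ n', ?_⟩
  show g n * g' n' = r
  rw [hn, hn', mul_one]

theorem Rigid.pullback {φ : R →ₐ[k] R'} {L : LineData D R} {L' : LineData D R'} (h : L.Rigid)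
    (p : Pullback φ L L') : L'.Rigid := by
  obtain ⟨g, hg⟩ := h
  let : Algebra (D.AR₁ R) (D.AR₁ R') := (D.mapAR₁ φ).toRingHom.toAlgebra
  let : Module (D.AR₁ R) L'.N := Module.compHom L'.N (D.mapAR₁ φ).toRingHom
  let : Module (D.AR₁ R') R' := Module.compHom R' (D.evR (R := R')).toRingHom
  let : Module (D.AR₁ R) R' := Module.compHom R' ((D.evR (R := R')).toRingHom.comp (D.mapAR₁ φ).toRingHom)
  have : IsScalarTower (D.AR₁ R) (D.AR₁ R') R' := ⟨fun s s' m => by
    show D.evR (D.mapAR₁ φ s * s') * m = D.evR (D.mapAR₁ φ s) * (D.evR s' * m)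
    rw [map_mul, mul_assoc]⟩
  have : IsScalarTower (D.AR₁ R) (D.AR₁ R') L'.N := ⟨fun s s' m => by
    show (D.mapAR₁ φ s * s') • m = D.mapAR₁ φ s • s' • m
    rw [mul_smul]⟩
  let a : L.N →ₗ[D.AR₁ R] L'.N :=
    { toFun := p.gN, map_add' := map_add p.gN, map_smul' := fun s m => map_smulₛₗ p.gN s m }
  let b : L.N →ₗ[D.AR₁ R] R' :=
    { toFun := fun n => φ (g n)
      map_add' := fun x y => by rw [map_add, map_add]
      map_smul' := fun s n => by
        rw [map_smulₛₗ, smul_eq_mul, map_mul]
        show φ (D.evR s) * _ = D.evR (D.mapAR₁ φ s) * _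
        rw [CurveData.evR_mapAR₁] }
  have hbij : Function.Bijective (a.liftBaseChange (D.AR₁ R')) := by
    refine Module.Invertible.bijective_of_surjective ?_
    rw [← LinearMap.range_eq_top, eq_top_iff, ← p.spanN, Submodule.span_le]
    rintro _ ⟨n, rfl⟩
    exact ⟨1 ⊗ₜ n, by simp [a]⟩
  let G : L'.N →ₗ[D.AR₁ R'] R' :=
    (b.liftBaseChange (D.AR₁ R')).comp (LinearEquiv.ofBijective _ hbij).symm.toLinearMap
  refine ⟨{ toFun := G, map_add' := map_add G, map_smul' := fun s n => map_smul G s n }, fun r => ?_⟩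
  obtain ⟨n, hn⟩ := hg 1
  refine ⟨(r ⊗ₜ (1 : D.A₁) : D.AR₁ R') • p.gN n, ?_⟩
  show G _ = r
  have h1 : (LinearEquiv.ofBijective _ hbij).symm (p.gN n) = (1 : D.AR₁ R') ⊗ₜ n := by
    rw [LinearEquiv.symm_apply_eq, LinearEquiv.ofBijective_apply, LinearMap.liftBaseChange_tmul,
      one_smul]
    rfl
  rw [map_smul]
  show D.evR (r ⊗ₜ[k] (1 : D.A₁)) * G (p.gN n) = r
  rw [show G (p.gN n) = (1 : R') by
    show (b.liftBaseChange (D.AR₁ R')) ((LinearEquiv.ofBijective _ hbij).symm (p.gN n)) = 1
    rw [h1, LinearMap.liftBaseChange_tmul, one_smul]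
    show φ (g n) = 1
    rw [hn, map_one]]
  rw [CurveData.evR_tmul, map_one, map_one, mul_one, mul_one]

theorem nonempty_glue_ofBase (Q : Type u) [AddCommGroup Q] [Module R Q] :
    ∃ g : (D.BR R ⊗[D.AR R] (D.AR R ⊗[R] Q)) ≃ₗ[D.BR R] (D.BR R ⊗[D.AR₁ R] (D.AR₁ R ⊗[R] Q)),
      ∀ v : Q, g (1 ⊗ₜ ((1 : D.AR R) ⊗ₜ v)) = 1 ⊗ₜ ((1 : D.AR₁ R) ⊗ₜ v) :=
  ⟨AlgebraTensorModule.cancelBaseChange R (D.AR R) (D.BR R) (D.BR R) Q ≪≫ₗ
    (AlgebraTensorModule.cancelBaseChange R (D.AR₁ R) (D.BR R) (D.BR R) Q).symm, fun v => by simp⟩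

/-- The line bundle coming from an invertible module on the base. -/
@[reducible] def ofBase (D : CurveData.{u} k) (R : Type u) [CommRing R] [Algebra k R] (Q : Type u)
    [AddCommGroup Q] [Module R Q] [Module.Invertible R Q] : LineData D R where
  M := D.AR R ⊗[R] Q
  N := D.AR₁ R ⊗[R] Q
  glue := (nonempty_glue_ofBase Q).choose

theorem ofBase_rel (Q : Type u) [AddCommGroup Q] [Module R Q] [Module.Invertible R Q] (v : Q) :
    (ofBase D R Q).Rel 0 ((1 : D.AR R) ⊗ₜ v) ((1 : D.AR₁ R) ⊗ₜ v) := by
  show _ • (ofBase D R Q).f₀ _ = (ofBase D R Q).f₁ _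
  rw [pow_zero, one_smul, f₀_apply, f₁_apply]
  exact (nonempty_glue_ofBase (D := D) (R := R) Q).choose_spec v

theorem nonempty_ofBase_pullback_unit (Q : Type u) [AddCommGroup Q] [Module R Q]
    [Module.Invertible R Q] (φ : R →ₐ[k] R') (q : Q →ₛₗ[φ.toRingHom] R')
    (hq : Submodule.span R' (Set.range q) = ⊤) :
    Nonempty (Pullback φ (ofBase D R Q) (LineData.unit : LineData D R')) := by
  let gM : D.AR R ⊗[R] Q →+ D.AR R' := TensorProduct.liftAddHom
    (AddMonoidHom.mk' (fun a => AddMonoidHom.mk' (fun v => q v • D.mapAR φ a)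
      fun x y => by rw [map_add, add_smul]) fun x y => by
        ext v
        show q v • D.mapAR φ (x + y) = _
        rw [map_add, smul_add]
        rfl)
    fun r a v => by
      show q v • D.mapAR φ (r • a) = q (r • v) • D.mapAR φ a
      have h : D.mapAR φ (r • a) = φ r • D.mapAR φ a := by
        rw [Algebra.smul_def, map_mul, Algebra.smul_def]
        congr 1
      rw [h, map_smulₛₗ, smul_smul, smul_eq_mul, mul_comm]
      rfl
  let gN : D.AR₁ R ⊗[R] Q →+ D.AR₁ R' := TensorProduct.liftAddHom
    (AddMonoidHom.mk' (fun a => AddMonoidHom.mk' (fun v => q v • D.mapAR₁ φ a)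
      fun x y => by rw [map_add, add_smul]) fun x y => by
        ext v
        show q v • D.mapAR₁ φ (x + y) = _
        rw [map_add, smul_add]
        rfl)
    fun r a v => by
      show q v • D.mapAR₁ φ (r • a) = q (r • v) • D.mapAR₁ φ a
      have h : D.mapAR₁ φ (r • a) = φ r • D.mapAR₁ φ a := by
        rw [Algebra.smul_def, map_mul, Algebra.smul_def]
        congr 1
      rw [h, map_smulₛₗ, smul_smul, smul_eq_mul, mul_comm]
      rfl
  have hM : ∀ a v, gM (a ⊗ₜ v) = q v • D.mapAR φ a := fun a v => rfl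
  have hN : ∀ a v, gN (a ⊗ₜ v) = q v • D.mapAR₁ φ a := fun a v => rfl
  let gM' : (ofBase D R Q).M →ₛₗ[(D.mapAR φ).toRingHom] (LineData.unit : LineData D R').M :=
    { toFun := gM
      map_add' := map_add gM
      map_smul' := fun c z => by
        induction z using TensorProduct.induction_on with
        | zero => simp
        | tmul a v =>
          rw [TensorProduct.smul_tmul', hM, hM, smul_eq_mul, map_mul, smul_eq_mul,
            mul_smul_comm]
          rfl
        | add x y hx hy => rw [smul_add, map_add, map_add, smul_add, hx, hy] }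
  let gN' : (ofBase D R Q).N →ₛₗ[(D.mapAR₁ φ).toRingHom] (LineData.unit : LineData D R').N :=
    { toFun := gN
      map_add' := map_add gN
      map_smul' := fun c z => by
        induction z using TensorProduct.induction_on with
        | zero => simp
        | tmul a v =>
          rw [TensorProduct.smul_tmul', hN, hN, smul_eq_mul, map_mul, smul_eq_mul,
            mul_smul_comm]
          rfl
        | add x y hx hy => rw [smul_add, map_add, map_add, smul_add, hx, hy] }
  refine ⟨⟨gM', gN', ?_, ?_, ?_⟩⟩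
  · have key : ∀ w ∈ Submodule.span R' (Set.range q),
        w • (1 : D.AR R') ∈ Submodule.span (D.AR R') (Set.range gM') := fun w hw => by
      induction hw using Submodule.span_induction with
      | mem x hx =>
        obtain ⟨v, rfl⟩ := hx
        exact Submodule.subset_span ⟨(1 : D.AR R) ⊗ₜ v, (hM 1 v).trans (by rw [map_one])⟩
      | zero => rw [zero_smul]; exact zero_mem _
      | add x y _ _ hx hy => rw [add_smul]; exact add_mem hx hy
      | smul c x _ hx =>
        rw [smul_eq_mul, mul_smul]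
        exact Submodule.smul_of_tower_mem _ c hx
    rw [eq_top_iff]
    rintro z -
    have h1 := key 1 (hq ▸ Submodule.mem_top)
    rw [one_smul] at h1
    simpa using Submodule.smul_mem _ z h1
  · have key : ∀ w ∈ Submodule.span R' (Set.range q),
        w • (1 : D.AR₁ R') ∈ Submodule.span (D.AR₁ R') (Set.range gN') := fun w hw => by
      induction hw using Submodule.span_induction with
      | mem x hx =>
        obtain ⟨v, rfl⟩ := hx
        exact Submodule.subset_span ⟨(1 : D.AR₁ R) ⊗ₜ v, (hN 1 v).trans (by rw [map_one])⟩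
      | zero => rw [zero_smul]; exact zero_mem _
      | add x y _ _ hx hy => rw [add_smul]; exact add_mem hx hy
      | smul c x _ hx =>
        rw [smul_eq_mul, mul_smul]
        exact Submodule.smul_of_tower_mem _ c hx
    rw [eq_top_iff]
    rintro z -
    have h1 := key 1 (hq ▸ Submodule.mem_top)
    rw [one_smul] at h1
    simpa using Submodule.smul_mem _ z h1
  · refine rel_of_generates φ gM' gN' (Set.range fun v : Q => (1 : D.AR R) ⊗ₜ[R] v) ?_ ?_
    · rw [eq_top_iff]
      rintro z -
      induction z using TensorProduct.induction_on with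
      | zero => exact zero_mem _
      | tmul a v =>
        rw [show a ⊗ₜ[R] v = a • ((1 : D.AR R) ⊗ₜ[R] v) by
          rw [TensorProduct.smul_tmul', smul_eq_mul, mul_one]]
        exact Submodule.smul_mem _ _ (Submodule.subset_span ⟨v, rfl⟩)
      | add x y hx hy => exact add_mem hx hy
    · rintro _ ⟨v, rfl⟩
      refine ⟨0, (1 : D.AR₁ R) ⊗ₜ v, ofBase_rel Q v, ?_⟩
      show (LineData.unit : LineData D R').Rel 0 (gM (1 ⊗ₜ v)) (gN (1 ⊗ₜ v))
      rw [hM, hN, map_one, map_one, unit_rel_iff, pow_zero, mul_one,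
        ← IsScalarTower.toAlgHom_apply R' (D.AR R') (D.BR R'), map_smul, map_one,
        ← IsScalarTower.toAlgHom_apply R' (D.AR₁ R') (D.BR R'), map_smul, map_one]

theorem exists_fibre {S T : Type u} [CommRing S] [CommRing T] (σ : S →+* T)
    (hσ : Function.Surjective σ) (N : Type u) [AddCommGroup N] [Module S N] [Module.Invertible S N] :
    ∃ (F : Type u) (_ : AddCommGroup F) (_ : Module T F) (_ : Module.Invertible T F)
      (e : N →ₛₗ[σ] F), Function.Surjective e := by
  let : Algebra S T := σ.toAlgebra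
  refine ⟨T ⊗[S] N, inferInstance, inferInstance, inferInstance,
    { toFun := fun n => (1 : T) ⊗ₜ n
      map_add' := fun a b => TensorProduct.tmul_add _ a b
      map_smul' := fun a n => by
        rw [TensorProduct.tmul_smul]
        exact (algebraMap_smul T a ((1 : T) ⊗ₜ[S] n)).symm }, fun z => ?_⟩
  induction z using TensorProduct.induction_on with
  | zero => exact ⟨0, TensorProduct.tmul_zero _ _⟩
  | tmul r n =>
    obtain ⟨a, ha⟩ := hσ r
    refine ⟨a • n, ?_⟩
    show (1 : T) ⊗ₜ[S] (a • n) = r ⊗ₜ n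
    rw [TensorProduct.tmul_smul, TensorProduct.smul_tmul', Algebra.smul_def, mul_one]
    exact congrArg (· ⊗ₜ n) ha
  | add x y hx hy =>
    obtain ⟨a, rfl⟩ := hx
    obtain ⟨b, rfl⟩ := hy
    exact ⟨a + b, TensorProduct.tmul_add _ a b⟩

/-- Every line bundle becomes rigid after a twist by one from the base, trivial over fields. -/
theorem exists_rigid_twist (L : LineData D R) :
    ∃ Q : LineData D R, (L.tensor Q).Rigid ∧ ∀ (K : Type u) [Field K] [Algebra k K] (φ : R →ₐ[k] K),
      LinePic.map φ (LinePic.mk Q) = 1 := by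
  let σ : D.AR₁ R →+* R := (D.evR (R := R)).toRingHom
  obtain ⟨F, _, _, _, e, he⟩ := exists_fibre σ CurveData.evR_surjective L.N
  let Q := ofBase D R (Module.Dual R F)
  refine ⟨Q, ?_, fun K _ _ φ => ?_⟩
  · have he' : ∀ (a : D.AR₁ R) (n : L.N), e (a • n) = σ a • e n := map_smulₛₗ e
    let g₀ : D.AR₁ R ⊗[R] Module.Dual R F →+ L.N →+ R := TensorProduct.liftAddHom
      (AddMonoidHom.mk' (fun a => AddMonoidHom.mk' (fun v => AddMonoidHom.mk' (fun n => σ a * v (e n))
        fun x y => by rw [map_add, map_add, mul_add]) fun x y => by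
          ext n; exact mul_add _ _ _) fun x y => by
          ext v n
          show σ (x + y) * _ = _
          rw [map_add, add_mul]
          rfl)
      fun r a v => by
        ext n
        show σ (r • a) * v (e n) = σ a * (r • v) (e n)
        rw [show σ (r • a) = r * σ a from map_smul (D.evR (R := R)) r a,
          LinearMap.smul_apply, smul_eq_mul]
        ring
    have hg₀ : ∀ (c : D.AR₁ R) w n, g₀ (c • w) n = σ c * g₀ w n := by
      intro c w n
      induction w using TensorProduct.induction_on with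
      | zero => simp
      | tmul a v =>
        rw [TensorProduct.smul_tmul', smul_eq_mul]
        show σ (c * a) * v (e n) = σ c * (σ a * v (e n))
        rw [map_mul, mul_assoc]
      | add x y hx hy =>
        rw [smul_add, map_add, map_add, AddMonoidHom.add_apply, AddMonoidHom.add_apply, hx, hy,
          mul_add]
    have hg₁ : ∀ (c : D.AR₁ R) w n, g₀ w (c • n) = σ c * g₀ w n := by
      intro c w n
      induction w using TensorProduct.induction_on with
      | zero => simp
      | tmul a v =>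
        show σ a * v (e (c • n)) = σ c * (σ a * v (e n))
        rw [he', map_smul, smul_eq_mul]
        ring
      | add x y hx hy => rw [map_add, AddMonoidHom.add_apply, AddMonoidHom.add_apply, hx, hy, mul_add]
    let g : (L.tensor Q).N →ₛₗ[σ] R := TensorProduct.lift (LinearMap.mk₂'ₛₗ σ σ (fun n w => g₀ w n)
      (fun a b w => map_add (g₀ w) a b) (fun c n w => hg₁ c w n)
      (fun n a b => by rw [map_add, AddMonoidHom.add_apply])
      (fun c n w => hg₀ c w n))
    refine ⟨g, fun r => ?_⟩
    obtain ⟨z, hz⟩ := (Module.Invertible.linearEquiv R F).surjective r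
    have hr : ∀ z : Module.Dual R F ⊗[R] F, ∃ w, g w = Module.Invertible.linearEquiv R F z := by
      intro z
      induction z using TensorProduct.induction_on with
      | zero => exact ⟨0, by rw [map_zero, map_zero]⟩
      | tmul v f =>
        obtain ⟨n, rfl⟩ := he f
        refine ⟨n ⊗ₜ ((1 : D.AR₁ R) ⊗ₜ v), ?_⟩
        show σ 1 * v (e n) = v (e n)
        rw [map_one, one_mul]
      | add x y hx hy =>
        obtain ⟨a, ha⟩ := hx
        obtain ⟨b, hb⟩ := hy
        exact ⟨a + b, by rw [map_add, map_add, ha, hb]⟩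
    exact hz ▸ hr z
  · let : Algebra R K := φ.toRingHom.toAlgebra
    obtain ⟨b⟩ := (Module.Invertible.free_iff_linearEquiv (R := K)
      (M := K ⊗[R] Module.Dual R F)).mp inferInstance
    let q : Module.Dual R F →ₛₗ[φ.toRingHom] K :=
      { toFun := fun v => b ((1 : K) ⊗ₜ v)
        map_add' := fun x y => by rw [TensorProduct.tmul_add, map_add]
        map_smul' := fun r v => by
          rw [TensorProduct.tmul_smul, ← algebraMap_smul K r, map_smul]
          rfl }
    have hq : Submodule.span K (Set.range q) = ⊤ := by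
      rw [eq_top_iff]
      rintro z -
      obtain ⟨w, rfl⟩ := b.surjective z
      induction w using TensorProduct.induction_on with
      | zero => rw [map_zero]; exact zero_mem _
      | tmul c v =>
        rw [show c ⊗ₜ[R] v = c • ((1 : K) ⊗ₜ[R] v) by
          rw [TensorProduct.smul_tmul', smul_eq_mul, mul_one], map_smul]
        exact Submodule.smul_mem _ _ (Submodule.subset_span ⟨v, rfl⟩)
      | add x y hx hy => rw [map_add]; exact add_mem hx hy
    obtain ⟨p⟩ := nonempty_ofBase_pullback_unit (D := D) (Module.Dual R F) φ q hq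
    exact LinePic.map_mk p

end LineData

namespace LinePic

/-- Rigid classes form a subgroup. -/
def rigid (D : CurveData.{u} k) (R : Type u) [CommRing R] [Algebra k R] :
    Submonoid (LinePic D R) where
  carrier := {x | ∃ L, mk L = x ∧ L.Rigid}
  one_mem' := ⟨LineData.unit, rfl, LineData.unit_rigid⟩
  mul_mem' := by
    rintro _ _ ⟨a, rfl, ha⟩ ⟨b, rfl, hb⟩
    exact ⟨a.tensor b, rfl, ha.tensor hb⟩

theorem mk_mem_rigid_iff {L : LineData D R} : mk L ∈ rigid D R ↔ L.Rigid :=
  ⟨fun ⟨L', h, hL⟩ => hL.iso (mk_eq_mk.mp h).some, fun h => ⟨L, rfl, h⟩⟩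

theorem map_mem_rigid (φ : R →ₐ[k] R') {x : LinePic D R} (h : x ∈ rigid D R) :
    map φ x ∈ rigid D R' := by
  obtain ⟨L, rfl, hL⟩ := h
  obtain ⟨L', ⟨p⟩⟩ := LineData.exists_pullback φ L
  exact ⟨L', (map_mk p).symm, hL.pullback p⟩

theorem rigid_of_field {K : Type u} [Field K] [Algebra k K] (x : LinePic D K) :
    x ∈ rigid D K := by
  obtain ⟨L, rfl⟩ := mk_surjective x
  obtain ⟨Q, hQ, h1⟩ := L.exists_rigid_twist
  have h := h1 K (AlgHom.id k K)
  rw [map_id] at h
  have h' : mk (L.tensor Q) ∈ rigid D K := ⟨_, rfl, hQ⟩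
  rwa [← mk_mul, h, mul_one] at h'

end LinePic

end Fermat.Agent.Jac
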