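import Fermat.Agent.Jac.Alg.LiftModule
import Fermat.Agent.Jac.Alg.Rigid
import Mathlib.RingTheory.Kaehler.Basic
import Mathlib.LinearAlgebra.TensorProduct.RightExactness

/-!
# Rigid line bundles lift along square zero surjections
-/

set_option autoImplicit false

universe u

noncomputable section

open TensorProduct

namespace Fermat.Agent.Jac

/-- A surjective map of invertible modules along a surjection is a reduction. -/
theorem isReduction_of_surjective {S S' : Type u} [CommRing S] [CommRing S'] {π : S →+* S'}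
    (hπ : Function.Surjective π) {M M' : Type u} [AddCommGroup M] [AddCommGroup M'] [Module S M]
    [Module S' M'] [Module.Invertible S M] [Module.Invertible S' M'] (g : M →ₛₗ[π] M')
    (hg : Function.Surjective g) : IsReduction π g := by
  refine ⟨hg, fun x hx => ?_⟩
  let : Algebra S S' := π.toAlgebra
  let : Module S M' := Module.compHom M' π
  have : IsScalarTower S S' M' := ⟨fun s s' m => by
    show (π s * s') • m = π s • s' • m
    rw [mul_smul]⟩
  let a : M →ₗ[S] M' :=
    { toFun := g, map_add' := map_add g, map_smul' := fun s m => map_smulₛₗ g s m }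
  have hb : Function.Bijective (a.liftBaseChange S') :=
    Module.Invertible.bijective_of_surjective fun z => by
      obtain ⟨w, rfl⟩ := hg z
      exact ⟨1 ⊗ₜ w, by simp [a]⟩
  have h1 : (1 : S') ⊗ₜ[S] x = 0 := hb.1 (by simpa [a] using hx)
  let q : (S ⧸ RingHom.ker π) →ₗ[S] S' :=
    Submodule.liftQ _ (Algebra.linearMap S S') (fun r hr => hr)
  have hq : Function.Bijective q := by
    refine ⟨fun u v h => ?_, fun z => ?_⟩
    · obtain ⟨u, rfl⟩ := Ideal.Quotient.mk_surjective u
      obtain ⟨v, rfl⟩ := Ideal.Quotient.mk_surjective v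
      exact Ideal.Quotient.eq.mpr (RingHom.sub_mem_ker_iff π |>.mpr h)
    · obtain ⟨r, rfl⟩ := hπ z
      exact ⟨Ideal.Quotient.mk _ r, rfl⟩
  let e := TensorProduct.congr (LinearEquiv.ofBijective q hq) (LinearEquiv.refl S M)
  have h2 : Ideal.Quotient.mk (RingHom.ker π) 1 ⊗ₜ[S] x = 0 := by
    apply e.injective
    rw [map_zero, TensorProduct.congr_tmul]
    show π 1 ⊗ₜ[S] x = 0
    rw [map_one]
    exact h1
  have h3 := congrArg (TensorProduct.quotTensorEquivQuotSMul M (RingHom.ker π)) h2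
  rw [TensorProduct.quotTensorEquivQuotSMul_mk_tmul, one_smul, map_zero] at h3
  exact (Submodule.Quotient.mk_eq_zero _).mp h3

/-- Functoriality of base change of modules along a commutative square of rings. -/
theorem exists_semilinear_baseChange {S S' T T' : Type u} [CommRing S] [CommRing S'] [CommRing T]
    [CommRing T'] [Algebra S T] [Algebra S' T'] {π : S →+* S'} {ρ : T →+* T'}
    (hc : ∀ a, ρ (algebraMap S T a) = algebraMap S' T' (π a)) (hρ : Function.Surjective ρ)
    {M M' : Type u} [AddCommGroup M] [AddCommGroup M'] [Module S M] [Module S' M']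
    (g : M →ₛₗ[π] M') (hg : Function.Surjective g) :
    ∃ β : T ⊗[S] M →ₛₗ[ρ] T' ⊗[S'] M', Function.Surjective β ∧
      ∀ m, β (1 ⊗ₜ m) = 1 ⊗ₜ g m := by
  let f : T ⊗[S] M →+ T' ⊗[S'] M' := TensorProduct.liftAddHom
    (AddMonoidHom.mk' (fun b => AddMonoidHom.mk' (fun m => ρ b ⊗ₜ[S'] g m)
      fun x y => by rw [map_add, TensorProduct.tmul_add]) fun x y => by
        ext m
        show ρ (x + y) ⊗ₜ[S'] g m = _
        rw [map_add, TensorProduct.add_tmul]
        rfl)
    fun r b m => by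
      show ρ (r • b) ⊗ₜ[S'] g m = ρ b ⊗ₜ[S'] g (r • m)
      rw [Algebra.smul_def, map_mul, hc, ← Algebra.smul_def, map_smulₛₗ, TensorProduct.smul_tmul]
  refine ⟨{ toFun := f, map_add' := map_add f, map_smul' := fun c z => ?_ }, fun z => ?_,
    fun m => ?_⟩
  · induction z using TensorProduct.induction_on with
    | zero => simp
    | tmul b m =>
      rw [TensorProduct.smul_tmul']
      show ρ (c * b) ⊗ₜ[S'] g m = ρ c • (ρ b ⊗ₜ[S'] g m)
      rw [TensorProduct.smul_tmul', map_mul]
      rfl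
    | add x y hx hy => rw [smul_add, map_add, map_add, smul_add, hx, hy]
  · induction z using TensorProduct.induction_on with
    | zero => exact ⟨0, map_zero f⟩
    | tmul b' m' =>
      obtain ⟨b, rfl⟩ := hρ b'
      obtain ⟨m, rfl⟩ := hg m'
      exact ⟨b ⊗ₜ m, rfl⟩
    | add x y hx hy =>
      obtain ⟨a, rfl⟩ := hx
      obtain ⟨b, rfl⟩ := hy
      exact ⟨a + b, map_add f a b⟩
  · show ρ 1 ⊗ₜ[S'] g m = _
    rw [map_one]

variable {k : Type u} [Field k] {D : CurveData.{u} k}
variable {R R' : Type u} [CommRing R] [Algebra k R] [CommRing R'] [Algebra k R']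

theorem surjective_tmap {Z : Type u} [CommRing Z] [Algebra k Z] {π : R →ₐ[k] R'}
    (hπ : Function.Surjective π) :
    Function.Surjective (Algebra.TensorProduct.map π (AlgHom.id k Z)) := fun z => by
  induction z using TensorProduct.induction_on with
  | zero => exact ⟨0, map_zero _⟩
  | tmul a b =>
    obtain ⟨a', rfl⟩ := hπ a
    exact ⟨a' ⊗ₜ b, rfl⟩
  | add x y hx hy =>
    obtain ⟨a, rfl⟩ := hx
    obtain ⟨b, rfl⟩ := hy
    exact ⟨a + b, map_add _ _ _⟩

theorem sq_ker_tmap {Z : Type u} [CommRing Z] [Algebra k Z] {π : R →ₐ[k] R'}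
    (hπ : Function.Surjective π) (hsq : RingHom.ker π ^ 2 = ⊥) :
    RingHom.ker (Algebra.TensorProduct.map π (AlgHom.id k Z)).toRingHom ^ 2 = ⊥ := by
  rw [show RingHom.ker (Algebra.TensorProduct.map π (AlgHom.id k Z)).toRingHom =
      (RingHom.ker π).map (Algebra.TensorProduct.includeLeft : R →ₐ[k] R ⊗[k] Z) from
    Algebra.TensorProduct.rTensor_ker π hπ]
  rw [← Ideal.map_pow, hsq, Ideal.map_bot]

namespace LineData

/-- Line bundles lift along square zero surjections. -/
theorem exists_lift_pullback {π : R →ₐ[k] R'} (hπ : Function.Surjective π)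
    (hsq : RingHom.ker π ^ 2 = ⊥) (L' : LineData D R') :
    ∃ (L : LineData D R) (p : Pullback π L L'), Function.Surjective p.gN := by
  obtain ⟨M, _, modM, _, gM, hM⟩ := exists_lift_invertible (π := (D.mapAR π).toRingHom)
    (surjective_tmap hπ) (sq_ker_tmap hπ hsq) L'.M
  obtain ⟨N, _, modN, _, gN, hN⟩ := exists_lift_invertible (π := (D.mapAR₁ π).toRingHom)
    (surjective_tmap hπ) (sq_ker_tmap hπ hsq) L'.N
  let : Module R M := Module.compHom M (algebraMap R (D.AR R))
  let : Module R N := Module.compHom N (algebraMap R (D.AR₁ R))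
  have : IsScalarTower R (D.AR R) M := IsScalarTower.of_algebraMap_smul fun r m => rfl
  have : IsScalarTower R (D.AR₁ R) N := IsScalarTower.of_algebraMap_smul fun r m => rfl
  have hρ : Function.Surjective (D.mapBR π).toRingHom := surjective_tmap hπ
  obtain ⟨β₀, h₀, h₀'⟩ := exists_semilinear_baseChange (T := D.BR R) (T' := D.BR R')
    (ρ := (D.mapBR π).toRingHom) (CurveData.mapBR_algebraMap₀ π) hρ gM hM.surj
  obtain ⟨β₁, h₁, h₁'⟩ := exists_semilinear_baseChange (T := D.BR R) (T' := D.BR R')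
    (ρ := (D.mapBR π).toRingHom) (CurveData.mapBR_algebraMap₁ π) hρ gN hN.surj
  obtain ⟨f, hf⟩ := IsReduction.exists_lift_equiv (sq_ker_tmap hπ hsq)
    (isReduction_of_surjective hρ β₀ h₀) (isReduction_of_surjective hρ β₁ h₁) L'.glue
  let L : LineData D R := { M := M, N := N, glue := f }
  refine ⟨L, ⟨gM, gN, ?_, ?_, fun j m n h => ?_⟩, hN.surj⟩
  · rw [hM.surj.range_eq, Submodule.span_univ]
  · rw [hN.surj.range_eq, Submodule.span_univ]
  · have h' := congrArg β₁ h
    show _ • L'.f₀ _ = L'.f₁ _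
    rw [map_smulₛₗ, map_pow] at h'
    change D.mapBR π (algebraMap (D.AR₁ R) (D.BR R) (D.yR R)) ^ j • β₁ (f ((1 : D.BR R) ⊗ₜ[D.AR R] m))
      = β₁ ((1 : D.BR R) ⊗ₜ[D.AR₁ R] n) at h'
    rw [show β₁ (f ((1 : D.BR R) ⊗ₜ[D.AR R] m)) = L'.glue ((1 : D.BR R') ⊗ₜ[D.AR R'] gM m) from
      (hf _).trans (congrArg L'.glue (h₀' m)),
      show β₁ ((1 : D.BR R) ⊗ₜ[D.AR₁ R] n) = (1 : D.BR R') ⊗ₜ[D.AR₁ R'] gN n from h₁' n,
      CurveData.mapBR_algebraMap₁, CurveData.mapAR₁_yR] at h'
    exact h'

/-- A lift of a rigid line bundle along a nilpotent surjection is rigid. -/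
theorem Rigid.of_lift {π : R →ₐ[k] R'} (hπ : Function.Surjective π)
    (hsq : RingHom.ker π ^ 2 = ⊥) {L : LineData D R} {L' : LineData D R'} (p : Pullback π L L')
    (hp : Function.Surjective p.gN) (h : L'.Rigid) : L.Rigid := by
  obtain ⟨g', hg'⟩ := h
  let σ : D.AR₁ R →+* R := (D.evR (R := R)).toRingHom
  let : Module (D.AR₁ R) R := Module.compHom R σ
  let : Module (D.AR₁ R) R' := Module.compHom R' (π.toRingHom.comp σ)
  let q : R →ₗ[D.AR₁ R] R' :=
    { toFun := π, map_add' := map_add π, map_smul' := fun a r => map_mul π _ r }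
  let h' : L.N →ₗ[D.AR₁ R] R' :=
    { toFun := fun n => g' (p.gN n)
      map_add' := fun a b => by rw [map_add, map_add]
      map_smul' := fun a n => by
        rw [map_smulₛₗ, map_smulₛₗ]
        show D.evR (D.mapAR₁ π a) * _ = π (D.evR a) * _
        rw [CurveData.evR_mapAR₁] }
  obtain ⟨g, hg⟩ := Module.projective_lifting_property q h' hπ
  refine ⟨{ toFun := g, map_add' := map_add g, map_smul' := fun a n => map_smul g a n }, fun r => ?_⟩
  obtain ⟨n', hn'⟩ := hg' 1
  obtain ⟨n, rfl⟩ := hp n'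
  have h1 : π (g n) = 1 := (LinearMap.congr_fun hg n).trans hn'
  have hu : IsUnit (g n) := by
    refine IsNilpotent.isUnit_quotient_mk_iff (I := RingHom.ker π) ⟨2, hsq⟩ |>.mp ?_
    rw [show Ideal.Quotient.mk (RingHom.ker π) (g n) = 1 from by
      rw [← map_one (Ideal.Quotient.mk (RingHom.ker π)), Ideal.Quotient.eq, RingHom.sub_mem_ker_iff,
        h1, map_one]]
    exact isUnit_one
  obtain ⟨w, hw⟩ := hu.exists_left_inv
  refine ⟨(r * w) ⊗ₜ[k] (1 : D.A₁) • n, ?_⟩
  show g (((r * w) ⊗ₜ[k] (1 : D.A₁) : D.AR₁ R) • n) = r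
  rw [map_smul]
  show D.evR ((r * w) ⊗ₜ[k] (1 : D.A₁)) * g n = r
  rw [CurveData.evR_tmul, map_one, map_one, mul_one, mul_assoc, hw, mul_one]

end LineData

namespace LinePic

theorem exists_lift_rigid {π : R →ₐ[k] R'} (hπ : Function.Surjective π)
    (hsq : RingHom.ker π ^ 2 = ⊥) {x' : LinePic D R'} (h : x' ∈ rigid D R') :
    ∃ x ∈ rigid D R, map π x = x' := by
  obtain ⟨L', rfl, hL'⟩ := h
  obtain ⟨L, p, hp⟩ := LineData.exists_lift_pullback hπ hsq L'
  exact ⟨mk L, ⟨L, rfl, hL'.of_lift hπ hsq p hp⟩, map_mk p⟩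

end LinePic

end Fermat.Agent.Jac
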