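import Mathlib.RingTheory.PicardGroup
import Mathlib.RingTheory.Idempotents
import Mathlib.RingTheory.OrzechProperty
import Mathlib.LinearAlgebra.Matrix.ToLin
import Mathlib.RingTheory.Ideal.Maps

/-!
# Lifting invertible modules along a surjection with square zero kernel
-/

set_option autoImplicit false

universe u

noncomputable section

open TensorProduct

namespace Fermat.Agent.Jac

variable {S S' : Type u} [CommRing S] [CommRing S'] {π : S →+* S'}

/-- `M → M'` is reduction modulo the kernel of `π`. -/
structure IsReduction (π : S →+* S') {M M' : Type u} [AddCommMonoid M] [AddCommMonoid M'] [Module S M]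
    [Module S' M'] (g : M →ₛₗ[π] M') : Prop where
  surj : Function.Surjective g
  ker_le : ∀ x, g x = 0 → x ∈ RingHom.ker π • (⊤ : Submodule S M)

theorem exists_lift_projective (hπ : Function.Surjective π) (hsq : RingHom.ker π ^ 2 = ⊥)
    (M' : Type u) [AddCommGroup M'] [Module S' M'] [Module.Finite S' M'] [Module.Projective S' M'] :
    ∃ (M : Type u) (_ : AddCommGroup M) (_ : Module S M) (_ : Module.Finite S M)
      (_ : Module.Projective S M) (g : M →ₛₗ[π] M'), IsReduction π g := by
  classical
  obtain ⟨n, q, hq⟩ := Module.Finite.exists_fin' S' M'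
  obtain ⟨σ, hσ⟩ := Module.projective_lifting_property q LinearMap.id hq
  have hσ' : ∀ x, q (σ x) = x := fun x => LinearMap.congr_fun hσ x
  let e' : Matrix (Fin n) (Fin n) S' := LinearMap.toMatrix' (σ ∘ₗ q)
  have he' : IsIdempotentElem e' := by
    show e' * e' = e'
    rw [← LinearMap.toMatrix'_comp]
    congr 1
    ext v
    simp [hσ']
  let Φ : Matrix (Fin n) (Fin n) S →+* Matrix (Fin n) (Fin n) S' := π.mapMatrix
  have hΦ : ∀ x ∈ RingHom.ker Φ, IsNilpotent x := fun x hx => by
    refine ⟨2, ?_⟩
    have hx' : ∀ i j, x i j ∈ RingHom.ker π := fun i j => by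
      have := congrArg (fun m : Matrix (Fin n) (Fin n) S' => m i j) (RingHom.mem_ker.mp hx)
      exact this
    ext i j
    rw [pow_two, Matrix.mul_apply, Matrix.zero_apply]
    refine Finset.sum_eq_zero fun l _ => ?_
    have := Ideal.mul_mem_mul (hx' i l) (hx' l j)
    rwa [← pow_two, hsq, Ideal.mem_bot] at this
  obtain ⟨e, he, hee⟩ := exists_isIdempotentElem_eq_of_ker_isNilpotent Φ hΦ e'
    ⟨e'.map (Function.surjInv hπ), by
      ext i j
      exact Function.surjInv_eq hπ _⟩ he'
  let E : (Fin n → S) →ₗ[S] (Fin n → S) := Matrix.toLin' e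
  have hE : ∀ v, E (E v) = E v := fun v => by
    show Matrix.toLin' e (Matrix.toLin' e v) = _
    rw [← LinearMap.comp_apply, ← Matrix.toLin'_mul, he.eq]
  have hπE : ∀ v : Fin n → S, π ∘ E v = σ (q (π ∘ v)) := fun v => by
    have h1 : σ (q (π ∘ v)) = e'.mulVec (π ∘ v) :=
      (LinearMap.congr_fun (Matrix.toLin'_toMatrix' (σ ∘ₗ q)) _).symm
    rw [h1]
    funext i
    show π (e.mulVec v i) = _
    rw [RingHom.map_mulVec, ← hee]
    rfl
  let M := LinearMap.range E
  let p : (Fin n → S) →ₗ[S] M := E.rangeRestrict
  have hp : ∀ x : M, p (x : Fin n → S) = x := by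
    rintro ⟨_, v, rfl⟩
    exact Subtype.ext (hE v)
  have : Module.Projective S M :=
    Module.Projective.of_split M.subtype p (LinearMap.ext hp)
  let g : M →ₛₗ[π] M' :=
    { toFun := fun x => q (π ∘ (x : Fin n → S))
      map_add' := fun x y => by
        rw [← map_add]
        congr 1
        funext i
        simp
      map_smul' := fun r x => by
        rw [← map_smul]
        congr 1
        funext i
        simp }
  refine ⟨M, inferInstance, inferInstance, inferInstance, inferInstance, g, fun m' => ?_, fun x hx => ?_⟩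
  · let v : Fin n → S := fun i => Function.surjInv hπ (σ m' i)
    have hv : π ∘ v = σ m' := funext fun i => Function.surjInv_eq hπ _
    refine ⟨p v, ?_⟩
    show q (π ∘ E v) = m'
    rw [hπE, hσ', hv, hσ']
  · have h0 : π ∘ (x : Fin n → S) = 0 := by
      have h1 : E (x : Fin n → S) = x := congrArg Subtype.val (hp x)
      have h2 := hπE (x : Fin n → S)
      rw [h1, show q (π ∘ (x : Fin n → S)) = 0 from hx, map_zero] at h2
      exact h2
    have hx2 : (x : Fin n → S) ∈ RingHom.ker π • (⊤ : Submodule S (Fin n → S)) := by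
      rw [pi_eq_sum_univ' (x : Fin n → S)]
      refine Submodule.sum_mem _ fun i _ => Submodule.smul_mem_smul ?_ Submodule.mem_top
      exact congrFun h0 i
    have h3 := Submodule.mem_map_of_mem (f := p) hx2
    rw [Submodule.map_smul'', hp] at h3
    exact Submodule.smul_mono le_rfl le_top h3

/-- Surjectivity can be tested after reduction. -/
theorem IsReduction.surjective_of_comp (hsq : RingHom.ker π ^ 2 = ⊥) {P Q Q' : Type u}
    [AddCommGroup P] [AddCommGroup Q] [AddCommGroup Q'] [Module S P] [Module S Q] [Module S' Q']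
    {g : Q →ₛₗ[π] Q'} (hg : IsReduction π g) (f : P →ₗ[S] Q)
    (hf : Function.Surjective fun x => g (f x)) : Function.Surjective f := by
  have h1 : (⊤ : Submodule S Q) ≤ LinearMap.range f ⊔ RingHom.ker π • (⊤ : Submodule S Q) := by
    intro y _
    obtain ⟨x, hx⟩ := hf (g y)
    refine Submodule.mem_sup.mpr ⟨f x, ⟨x, rfl⟩, y - f x, hg.ker_le _ ?_, by abel⟩
    rw [map_sub]
    exact sub_eq_zero.mpr hx.symm
  rw [← LinearMap.range_eq_top, eq_top_iff]
  refine h1.trans (sup_le le_rfl (Submodule.smul_le.mpr fun r hr y _ => ?_))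
  obtain ⟨a, ha, b, hb, hab⟩ := Submodule.mem_sup.mp (h1 (Submodule.mem_top (x := y)))
  rw [← hab, smul_add]
  refine add_mem (Submodule.smul_mem _ _ ha) ?_
  have hb' : r • b ∈ (RingHom.ker π * RingHom.ker π) • (⊤ : Submodule S Q) := by
    rw [mul_smul]
    exact Submodule.smul_mem_smul hr hb
  rw [← pow_two, hsq, Submodule.bot_smul, Submodule.mem_bot] at hb'
  rw [hb']
  exact zero_mem _

/-- Maps to the reduction lift, given projectivity of the source. -/
theorem IsReduction.exists_lift {P Q Q' : Type u} [AddCommMonoid P] [AddCommMonoid Q] [AddCommMonoid Q']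
    [Module S P] [Module S Q] [Module S' Q'] [Module.Projective S P] {g : Q →ₛₗ[π] Q'}
    (hg : IsReduction π g) (h : P →ₛₗ[π] Q') : ∃ f : P →ₗ[S] Q, ∀ x, g (f x) = h x := by
  let : Module S Q' := Module.compHom Q' π
  let g₀ : Q →ₗ[S] Q' := { toFun := g, map_add' := map_add g, map_smul' := fun s m => map_smulₛₗ g s m }
  let h₀ : P →ₗ[S] Q' := { toFun := h, map_add' := map_add h, map_smul' := fun s m => map_smulₛₗ h s m }
  obtain ⟨f, hf⟩ := Module.projective_lifting_property g₀ h₀ hg.surj
  exact ⟨f, fun x => LinearMap.congr_fun hf x⟩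

theorem isReduction_self (hπ : Function.Surjective π) :
    IsReduction π ({ toFun := π, map_add' := map_add π, map_smul' := map_mul π } : S →ₛₗ[π] S') :=
  ⟨hπ, fun x hx => by
    rw [Ideal.smul_eq_mul, Ideal.mul_top]
    exact hx⟩

/-- An invertible module lifts to an invertible module. -/
theorem exists_lift_invertible (hπ : Function.Surjective π) (hsq : RingHom.ker π ^ 2 = ⊥)
    (M' : Type u) [AddCommGroup M'] [Module S' M'] [Module.Invertible S' M'] :
    ∃ (M : Type u) (_ : AddCommGroup M) (_ : Module S M) (_ : Module.Invertible S M)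
      (g : M →ₛₗ[π] M'), IsReduction π g := by
  obtain ⟨M, _, _, _, _, g, hg⟩ := exists_lift_projective hπ hsq M'
  obtain ⟨N, _, _, _, _, h, hh⟩ := exists_lift_projective hπ hsq (Module.Dual S' M')
  let e := Module.Invertible.linearEquiv S' M'
  let t₀ : N ⊗[S] M →ₛₗ[π] Module.Dual S' M' ⊗[S'] M' :=
    TensorProduct.lift (LinearMap.mk₂'ₛₗ π π (fun a b => h a ⊗ₜ[S'] g b)
      (fun a b c => by rw [map_add, TensorProduct.add_tmul])
      (fun a b c => by rw [map_smulₛₗ, TensorProduct.smul_tmul'])
      (fun a b c => by rw [map_add, TensorProduct.tmul_add])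
      (fun a b c => by rw [map_smulₛₗ, TensorProduct.tmul_smul]))
  have ht₀ : IsReduction π t₀ := by
    have hsurj : Function.Surjective t₀ := by
      intro z
      induction z using TensorProduct.induction_on with
      | zero => exact ⟨0, map_zero _⟩
      | tmul a b =>
        obtain ⟨a', rfl⟩ := hh.surj a
        obtain ⟨b', rfl⟩ := hg.surj b
        exact ⟨a' ⊗ₜ b', rfl⟩
      | add x y hx hy =>
        obtain ⟨x', rfl⟩ := hx
        obtain ⟨y', rfl⟩ := hy
        exact ⟨x' + y', map_add _ _ _⟩
    refine ⟨hsurj, fun z hz => ?_⟩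
    -- inverse modulo the kernel
    let I := RingHom.ker π • (⊤ : Submodule S (N ⊗[S] M))
    have wd : ∀ a a' b b', h a = h a' → g b = g b' → Submodule.Quotient.mk (p := I) (a ⊗ₜ[S] b) =
        Submodule.Quotient.mk (a' ⊗ₜ[S] b') := by
      intro a a' b b' ha hb
      have e1 : a ⊗ₜ[S] b - a' ⊗ₜ[S] b' = (a - a') ⊗ₜ[S] b + a' ⊗ₜ[S] (b - b') := by
        rw [TensorProduct.sub_tmul, TensorProduct.tmul_sub]; abel
      rw [Submodule.Quotient.eq, e1]
      have ha' := hh.ker_le (a - a') (by rw [map_sub, ha, sub_self])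
      have hb' := hg.ker_le (b - b') (by rw [map_sub, hb, sub_self])
      refine add_mem ?_ ?_
      · refine Submodule.smul_induction_on ha' (fun r hr x _ => ?_) fun x y hx hy => ?_
        · rw [← TensorProduct.smul_tmul']
          exact Submodule.smul_mem_smul hr Submodule.mem_top
        · rw [TensorProduct.add_tmul]; exact add_mem hx hy
      · refine Submodule.smul_induction_on hb' (fun r hr x _ => ?_) fun x y hx hy => ?_
        · rw [TensorProduct.tmul_smul]
          exact Submodule.smul_mem_smul hr Submodule.mem_top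
        · rw [TensorProduct.tmul_add]; exact add_mem hx hy
    let s : Module.Dual S' M' → N := Function.surjInv hh.surj
    let s' : M' → M := Function.surjInv hg.surj
    let back : Module.Dual S' M' ⊗[S'] M' →+ (N ⊗[S] M) ⧸ I := TensorProduct.liftAddHom
      (AddMonoidHom.mk' (fun a => AddMonoidHom.mk'
        (fun b => Submodule.Quotient.mk (s a ⊗ₜ[S] s' b))
        fun x y => by
          rw [wd (s a) (s a) (s' (x + y)) (s' x + s' y) rfl
            (by rw [map_add, Function.surjInv_eq hg.surj, Function.surjInv_eq hg.surj,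
              Function.surjInv_eq hg.surj]), TensorProduct.tmul_add, Submodule.Quotient.mk_add])
        fun x y => by
          ext b
          show Submodule.Quotient.mk (p := I) _ =
            Submodule.Quotient.mk (p := I) _ + Submodule.Quotient.mk (p := I) _
          rw [wd (s (x + y)) (s x + s y) (s' b) (s' b)
            (by rw [map_add, Function.surjInv_eq hh.surj, Function.surjInv_eq hh.surj,
              Function.surjInv_eq hh.surj]) rfl, TensorProduct.add_tmul, Submodule.Quotient.mk_add])
      fun r a b => by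
        obtain ⟨r', rfl⟩ := hπ r
        show Submodule.Quotient.mk (s (π r' • a) ⊗ₜ[S] s' b) =
          Submodule.Quotient.mk (s a ⊗ₜ[S] s' (π r' • b))
        rw [wd (s (π r' • a)) (r' • s a) (s' b) (s' b)
            (by rw [map_smulₛₗ, Function.surjInv_eq hh.surj, Function.surjInv_eq hh.surj]) rfl,
          wd (s a) (s a) (s' (π r' • b)) (r' • s' b) rfl
            (by rw [map_smulₛₗ, Function.surjInv_eq hg.surj, Function.surjInv_eq hg.surj]),
          TensorProduct.smul_tmul]
    have hback : ∀ w, back (t₀ w) = Submodule.Quotient.mk w := by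
      intro w
      induction w using TensorProduct.induction_on with
      | zero => rw [map_zero, map_zero]; rfl
      | tmul a b => exact wd _ _ _ _ (Function.surjInv_eq hh.surj _) (Function.surjInv_eq hg.surj _)
      | add x y hx hy => rw [map_add, map_add, hx, hy, Submodule.Quotient.mk_add]
    have h0 := hback z
    rw [hz, map_zero] at h0
    exact (Submodule.Quotient.mk_eq_zero _).mp h0.symm
  let one : S →ₛₗ[π] S' := { toFun := π, map_add' := map_add π, map_smul' := map_mul π }
  let eπ : N ⊗[S] M →ₛₗ[π] S' :=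
    { toFun := fun z => e (t₀ z)
      map_add' := fun a b => by rw [map_add, map_add]
      map_smul' := fun r a => by rw [map_smulₛₗ, map_smul] }
  let eπ' : S →ₛₗ[π] Module.Dual S' M' ⊗[S'] M' :=
    { toFun := fun r => e.symm (π r)
      map_add' := fun a b => by rw [map_add, map_add]
      map_smul' := fun r a => by rw [smul_eq_mul, map_mul, ← smul_eq_mul, map_smul] }
  obtain ⟨a, ha⟩ := (isReduction_self hπ).exists_lift eπ
  obtain ⟨b, hb⟩ := ht₀.exists_lift eπ'
  have ha' : Function.Surjective a := (isReduction_self hπ).surjective_of_comp hsq a fun y => by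
    obtain ⟨w, hw⟩ := ht₀.surj (e.symm y)
    exact ⟨w, (ha w).trans (by show e (t₀ w) = y; rw [hw, LinearEquiv.apply_symm_apply])⟩
  have hcomp : Function.Surjective fun x => t₀ (b x) := fun y => by
    obtain ⟨w, hw⟩ := hπ (e y)
    exact ⟨w, (hb w).trans (by show e.symm (π w) = y; rw [hw, LinearEquiv.symm_apply_apply])⟩
  have hb' : Function.Surjective b :=
    IsReduction.surjective_of_comp (Q := N ⊗[S] M) (Q' := Module.Dual S' M' ⊗[S'] M')
      hsq (g := t₀) ht₀ b hcomp
  have hba : Function.Bijective (b ∘ₗ a) :=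
    OrzechProperty.bijective_of_surjective_endomorphism _ (hb'.comp ha')
  have habij : Function.Bijective a := ⟨Function.Injective.of_comp hba.1, ha'⟩
  exact ⟨M, inferInstance, inferInstance,
    Module.Invertible.left (TensorProduct.comm S M N ≪≫ₗ LinearEquiv.ofBijective a habij), g, hg⟩

/-- An isomorphism between reductions lifts. -/
theorem IsReduction.exists_lift_equiv (hsq : RingHom.ker π ^ 2 = ⊥) {P P' Q Q' : Type u}
    [AddCommGroup P] [AddCommGroup P'] [AddCommGroup Q] [AddCommGroup Q'] [Module S P]
    [Module S' P'] [Module S Q] [Module S' Q'] [Module.Invertible S P] [Module.Invertible S Q]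
    {g : P →ₛₗ[π] P'} {h : Q →ₛₗ[π] Q'} (hg : IsReduction π g) (hh : IsReduction π h)
    (e : P' ≃ₗ[S'] Q') : ∃ f : P ≃ₗ[S] Q, ∀ x, h (f x) = e (g x) := by
  obtain ⟨f, hf⟩ := hh.exists_lift
    ({ toFun := fun x => e (g x)
       map_add' := fun a b => by rw [map_add, map_add]
       map_smul' := fun r a => by rw [map_smulₛₗ, map_smul] } : P →ₛₗ[π] Q')
  have hf' : Function.Surjective f := hh.surjective_of_comp hsq f fun y => by
    obtain ⟨x, hx⟩ := hg.surj (e.symm y)
    exact ⟨x, (hf x).trans (by show e (g x) = y; rw [hx, LinearEquiv.apply_symm_apply])⟩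
  exact ⟨LinearEquiv.ofBijective f (Module.Invertible.bijective_of_surjective hf'), hf⟩

end Fermat.Agent.Jac
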