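import Fermat.Agent.Jac.Alg.Rings
import Mathlib.RingTheory.PicardGroup
import Mathlib.RingTheory.TensorProduct.Free
import Mathlib.RingTheory.Flat.Stability
import Mathlib.LinearAlgebra.Projection

/-!
# Line bundles on a two-chart curve over an affine base

A line bundle is given by invertible modules on the two charts and an identification on the
intersection.  `δ` is its Cech differential, `H0` and `H1` its cohomology.
-/

set_option autoImplicit false

universe u

noncomputable section

open TensorProduct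

namespace Fermat.Agent.Jac

variable {k : Type u} [Field k] (D : CurveData.{u} k) (R : Type u) [CommRing R] [Algebra k R]

namespace CurveData

variable {R}

theorem exists_tmul_of_mem {M : Type u} [AddCommGroup M] [Module (D.AR R) M]
    (z : D.BR R ⊗[D.AR R] M) : ∃ (n : ℕ) (m : M),
      algebraMap (D.AR R) (D.BR R) (D.xR R) ^ n • z = 1 ⊗ₜ m := by
  induction z using TensorProduct.induction_on with
  | zero => exact ⟨0, 0, by simp⟩
  | tmul b m =>
    obtain ⟨n, a, ha⟩ := IsLocalization.Away.surj (D.xR R) b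
    refine ⟨n, a • m, ?_⟩
    rw [TensorProduct.smul_tmul', smul_eq_mul, mul_comm, ha, Algebra.algebraMap_eq_smul_one,
      TensorProduct.smul_tmul]
  | add z w hz hw =>
    obtain ⟨m, a, ha⟩ := hz
    obtain ⟨n, b, hb⟩ := hw
    refine ⟨m + n, D.xR R ^ n • a + D.xR R ^ m • b, ?_⟩
    rw [tmul_add, TensorProduct.tmul_smul, TensorProduct.tmul_smul, ← ha, ← hb,
      ← algebraMap_smul (D.BR R) (D.xR R ^ n), ← algebraMap_smul (D.BR R) (D.xR R ^ m),
      map_pow, map_pow, smul_add, smul_smul, smul_smul, ← pow_add, ← pow_add, add_comm n m]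

theorem exists_tmul_of_mem₁ {N : Type u} [AddCommGroup N] [Module (D.AR₁ R) N]
    (z : D.BR R ⊗[D.AR₁ R] N) : ∃ (n : ℕ) (m : N),
      algebraMap (D.AR₁ R) (D.BR R) (D.yR R) ^ n • z = 1 ⊗ₜ m := by
  induction z using TensorProduct.induction_on with
  | zero => exact ⟨0, 0, by simp⟩
  | tmul b m =>
    obtain ⟨n, a, ha⟩ := IsLocalization.Away.surj (D.yR R) b
    refine ⟨n, a • m, ?_⟩
    rw [TensorProduct.smul_tmul', smul_eq_mul, mul_comm, ha, Algebra.algebraMap_eq_smul_one,
      TensorProduct.smul_tmul]
  | add z w hz hw =>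
    obtain ⟨m, a, ha⟩ := hz
    obtain ⟨n, b, hb⟩ := hw
    refine ⟨m + n, D.yR R ^ n • a + D.yR R ^ m • b, ?_⟩
    rw [tmul_add, TensorProduct.tmul_smul, TensorProduct.tmul_smul, ← ha, ← hb,
      ← algebraMap_smul (D.BR R) (D.yR R ^ n), ← algebraMap_smul (D.BR R) (D.yR R ^ m),
      map_pow, map_pow, smul_add, smul_smul, smul_smul, ← pow_add, ← pow_add, add_comm n m]

theorem injective_algebraMap : Function.Injective (algebraMap (D.AR R) (D.BR R)) := by
  intro a b hab
  obtain ⟨⟨_, n, rfl⟩, hn⟩ :=
    (IsLocalization.eq_iff_exists (Submonoid.powers (D.xR R)) (D.BR R)).mp hab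
  induction n with
  | zero => simpa using hn
  | succ n ih =>
    exact ih (D.injective_xR R (by
      show D.xR R * (D.xR R ^ n * a) = D.xR R * (D.xR R ^ n * b)
      rw [← mul_assoc, ← mul_assoc, ← pow_succ']
      exact hn))

theorem injective_algebraMap₁ : Function.Injective (algebraMap (D.AR₁ R) (D.BR R)) := by
  intro a b hab
  obtain ⟨⟨_, n, rfl⟩, hn⟩ :=
    (IsLocalization.eq_iff_exists (Submonoid.powers (D.yR R)) (D.BR R)).mp hab
  induction n with
  | zero => simpa using hn
  | succ n ih =>
    exact ih (D.injective_yR R (by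
      show D.yR R * (D.yR R ^ n * a) = D.yR R * (D.yR R ^ n * b)
      rw [← mul_assoc, ← mul_assoc, ← pow_succ']
      exact hn))

end CurveData

/-- A line bundle on the curve times `Spec R`. -/
structure LineData where
  M : Type u
  N : Type u
  [acgM : AddCommGroup M]
  [acgN : AddCommGroup N]
  [modM : Module (D.AR R) M]
  [modN : Module (D.AR₁ R) N]
  [modRM : Module R M]
  [modRN : Module R N]
  [towerM : IsScalarTower R (D.AR R) M]
  [towerN : IsScalarTower R (D.AR₁ R) N]
  [invM : Module.Invertible (D.AR R) M]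
  [invN : Module.Invertible (D.AR₁ R) N]
  glue : (D.BR R ⊗[D.AR R] M) ≃ₗ[D.BR R] (D.BR R ⊗[D.AR₁ R] N)

attribute [instance] LineData.acgM LineData.acgN LineData.modM LineData.modN LineData.modRM
  LineData.modRN LineData.towerM LineData.towerN LineData.invM LineData.invN

namespace LineData

variable {D R} (L : LineData D R)

/-- Sections on the intersection. -/
abbrev P : Type u := D.BR R ⊗[D.AR₁ R] L.N

/-- The restriction from the first chart. -/
def f₀ : L.M →ₗ[R] L.P :=
  (L.glue.toLinearMap.restrictScalars R) ∘ₗ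
    ((TensorProduct.mk (D.AR R) (D.BR R) L.M 1).restrictScalars R)

/-- The restriction from the second chart. -/
def f₁ : L.N →ₗ[R] L.P :=
  (TensorProduct.mk (D.AR₁ R) (D.BR R) L.N 1).restrictScalars R

theorem f₀_apply (m : L.M) : L.f₀ m = L.glue (1 ⊗ₜ m) := rfl

theorem f₁_apply (n : L.N) : L.f₁ n = 1 ⊗ₜ n := rfl

theorem f₀_smul (a : D.AR R) (m : L.M) :
    L.f₀ (a • m) = algebraMap (D.AR R) (D.BR R) a • L.f₀ m := by
  rw [f₀_apply, f₀_apply, TensorProduct.tmul_smul, ← algebraMap_smul (D.BR R) a, map_smul]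

theorem f₁_smul (a : D.AR₁ R) (n : L.N) :
    L.f₁ (a • n) = algebraMap (D.AR₁ R) (D.BR R) a • L.f₁ n := by
  rw [f₁_apply, f₁_apply, TensorProduct.tmul_smul, ← algebraMap_smul (D.BR R) a]

theorem f₁_injective : Function.Injective L.f₁ := by
  have h := Module.Flat.rTensor_preserves_injective_linearMap (M := L.N)
    (Algebra.linearMap (D.AR₁ R) (D.BR R)) D.injective_algebraMap₁
  intro a b hab
  apply (TensorProduct.lid (D.AR₁ R) L.N).symm.injective
  apply h
  simpa [f₁_apply] using hab

theorem f₀_injective : Function.Injective L.f₀ := by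
  have h := Module.Flat.rTensor_preserves_injective_linearMap (M := L.M)
    (Algebra.linearMap (D.AR R) (D.BR R)) D.injective_algebraMap
  intro a b hab
  apply (TensorProduct.lid (D.AR R) L.M).symm.injective
  apply h
  simpa using L.glue.injective hab

/-- The Cech differential. -/
def δ : (L.M × L.N) →ₗ[R] L.P := L.f₀.coprod (-L.f₁)

theorem δ_apply (m : L.M) (n : L.N) : L.δ (m, n) = L.f₀ m - L.f₁ n := by
  simp [δ, sub_eq_add_neg]

/-- Global sections. -/
def H0 : Submodule R (L.M × L.N) := LinearMap.ker L.δ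

theorem mem_H0 {m : L.M} {n : L.N} : (m, n) ∈ L.H0 ↔ L.f₀ m = L.f₁ n := by
  rw [H0, LinearMap.mem_ker, δ_apply, sub_eq_zero]

/-- First cohomology. -/
abbrev H1 : Type u := L.P ⧸ LinearMap.range L.δ

theorem projective_restrict (S : Type u) [CommRing S] [Algebra R S] [Module.Free R S] (M : Type u)
    [AddCommGroup M] [Module S M] [Module R M] [IsScalarTower R S M] [Module.Projective S M] :
    Module.Projective R M := by
  classical
  obtain ⟨s, hs⟩ := Module.projective_def'.mp (inferInstance : Module.Projective S M)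
  exact Module.Projective.of_split (s.restrictScalars R)
    ((Finsupp.linearCombination S _root_.id).restrictScalars R)
    (LinearMap.ext fun m => LinearMap.congr_fun hs m)

instance projM : Module.Projective R L.M := projective_restrict (D.AR R) L.M

instance projN : Module.Projective R L.N := projective_restrict (D.AR₁ R) L.N

/-- `m` on the first chart corresponds to `y ^ (-j) • n` on the second chart. -/
def Rel (j : ℕ) (m : L.M) (n : L.N) : Prop :=
  algebraMap (D.AR₁ R) (D.BR R) (D.yR R) ^ j • L.f₀ m = L.f₁ n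

theorem exists_rel (m : L.M) : ∃ (j : ℕ) (n : L.N), L.Rel j m n :=
  D.exists_tmul_of_mem₁ (L.f₀ m)

/-- The trivial line bundle. -/
@[reducible] def unit : LineData D R where
  M := D.AR R
  N := D.AR₁ R
  glue := (TensorProduct.AlgebraTensorModule.rid (D.AR R) (D.BR R) (D.BR R)).trans
    (TensorProduct.AlgebraTensorModule.rid (D.AR₁ R) (D.BR R) (D.BR R)).symm

/-- The twist by `m • d • ε`. -/
def twist (m : ℕ) : LineData D R where
  M := L.M
  N := L.N
  glue := L.glue.trans <| LinearEquiv.smulOfUnit
    ((IsUnit.of_mul_eq_one _ (by rw [mul_comm]; exact D.xR_mul_yR R) :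
      IsUnit (algebraMap (D.AR₁ R) (D.BR R) (D.yR R))).pow m).unit

theorem twist_f₀ (m : ℕ) (a : L.M) :
    (L.twist m).f₀ a = algebraMap (D.AR₁ R) (D.BR R) (D.yR R) ^ m • L.f₀ a := rfl

theorem twist_f₁ (m : ℕ) (a : L.N) : (L.twist m).f₁ a = L.f₁ a := rfl

end LineData

end Fermat.Agent.Jac
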