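import Fermat.Agent.Jac.Alg.Hom

/-!
# Naturality of the chart rings, and a criterion for compatibility with `Rel`
-/

set_option autoImplicit false

universe u

noncomputable section

open TensorProduct

namespace Fermat.Agent.Jac

variable {k : Type u} [Field k] {D : CurveData.{u} k}
variable {R R' : Type u} [CommRing R] [Algebra k R] [CommRing R'] [Algebra k R']

namespace CurveData

theorem mapBR_algebraMap₀ (φ : R →ₐ[k] R') (a : D.AR R) :
    D.mapBR φ (algebraMap (D.AR R) (D.BR R) a) =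
      algebraMap (D.AR R') (D.BR R') (D.mapAR φ a) := by
  induction a using TensorProduct.induction_on with
  | zero => simp
  | tmul r a => rfl
  | add x y hx hy => rw [map_add, map_add, hx, hy, map_add, map_add]

theorem mapBR_algebraMap₁ (φ : R →ₐ[k] R') (a : D.AR₁ R) :
    D.mapBR φ (algebraMap (D.AR₁ R) (D.BR R) a) =
      algebraMap (D.AR₁ R') (D.BR R') (D.mapAR₁ φ a) := by
  induction a using TensorProduct.induction_on with
  | zero => simp
  | tmul r a => rfl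
  | add x y hx hy => rw [map_add, map_add, hx, hy, map_add, map_add]

theorem mapAR_xR (φ : R →ₐ[k] R') : D.mapAR φ (D.xR R) = D.xR R' := by
  show φ 1 ⊗ₜ[k] D.x = _
  rw [map_one]

theorem mapAR₁_yR (φ : R →ₐ[k] R') : D.mapAR₁ φ (D.yR R) = D.yR R' := by
  show φ 1 ⊗ₜ[k] D.y = _
  rw [map_one]

theorem exists_rel_scalar (a : D.AR R) : ∃ (l : ℕ) (b : D.AR₁ R),
    algebraMap (D.AR R) (D.BR R) a * algebraMap (D.AR₁ R) (D.BR R) (D.yR R) ^ l =
      algebraMap (D.AR₁ R) (D.BR R) b :=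
  IsLocalization.Away.surj (D.yR R) _

theorem mapBR_rel_scalar (φ : R →ₐ[k] R') {a : D.AR R} {l : ℕ} {b : D.AR₁ R}
    (h : algebraMap (D.AR R) (D.BR R) a * algebraMap (D.AR₁ R) (D.BR R) (D.yR R) ^ l =
      algebraMap (D.AR₁ R) (D.BR R) b) :
    algebraMap (D.AR R') (D.BR R') (D.mapAR φ a) *
        algebraMap (D.AR₁ R') (D.BR R') (D.yR R') ^ l =
      algebraMap (D.AR₁ R') (D.BR R') (D.mapAR₁ φ b) := by
  have h' := congrArg (D.mapBR φ) h
  rwa [map_mul, map_pow, mapBR_algebraMap₀, mapBR_algebraMap₁, mapBR_algebraMap₁,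
    mapAR₁_yR] at h'

end CurveData

namespace LineData

theorem Rel.shift {L : LineData D R} {j : ℕ} {m : L.M} {n : L.N} (h : L.Rel j m n) (e : ℕ) :
    L.Rel (e + j) m (D.yR R ^ e • n) := by
  show _ = L.f₁ _
  rw [f₁_smul, map_pow, pow_add, mul_smul]
  exact congrArg _ h

theorem Rel.add {L : LineData D R} {i j : ℕ} {m m' : L.M} {n n' : L.N} (h : L.Rel i m n)
    (h' : L.Rel j m' n') :
    L.Rel (i + j) (m + m') (D.yR R ^ j • n + D.yR R ^ i • n') := by
  have h₁ := h.shift j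
  have h₂ := h'.shift i
  rw [Nat.add_comm j i] at h₁
  unfold Rel at h₁ h₂ ⊢
  rw [map_add, smul_add, h₁, h₂, map_add]

theorem Rel.smul {L : LineData D R} {j l : ℕ} {a : D.AR R} {b : D.AR₁ R} {m : L.M} {n : L.N}
    (ha : algebraMap (D.AR R) (D.BR R) a * algebraMap (D.AR₁ R) (D.BR R) (D.yR R) ^ l =
      algebraMap (D.AR₁ R) (D.BR R) b) (h : L.Rel j m n) :
    L.Rel (l + j) (a • m) (b • n) := by
  unfold Rel at h ⊢
  rw [f₀_smul, f₁_smul, ← h, ← ha, smul_smul, smul_smul, pow_add]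
  congr 1
  ring

theorem Rel.zero (L : LineData D R) (j : ℕ) : L.Rel j 0 0 := by
  show _ = L.f₁ 0
  rw [map_zero, map_zero, smul_zero]

/-- Compatibility with `Rel` follows from one relation per generator. -/
theorem rel_of_generates {L : LineData D R} {L' : LineData D R'} (φ : R →ₐ[k] R')
    (gM : L.M →ₛₗ[(D.mapAR φ).toRingHom] L'.M) (gN : L.N →ₛₗ[(D.mapAR₁ φ).toRingHom] L'.N)
    (S : Set L.M) (hS : Submodule.span (D.AR R) S = ⊤)
    (h : ∀ m ∈ S, ∃ (j : ℕ) (n : L.N), L.Rel j m n ∧ L'.Rel j (gM m) (gN n))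
    (j : ℕ) (m : L.M) (n : L.N) (hmn : L.Rel j m n) : L'.Rel j (gM m) (gN n) := by
  obtain ⟨i, n₀, h₀, h₀'⟩ : ∃ (i : ℕ) (n₀ : L.N), L.Rel i m n₀ ∧ L'.Rel i (gM m) (gN n₀) := by
    have hm : m ∈ Submodule.span (D.AR R) S := hS ▸ Submodule.mem_top
    clear hmn
    induction hm using Submodule.span_induction with
    | mem x hx => exact h x hx
    | zero => exact ⟨0, 0, Rel.zero L 0, by rw [map_zero, map_zero]; exact Rel.zero L' 0⟩
    | add x y _ _ hx hy =>
      obtain ⟨i, a, ha, ha'⟩ := hx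
      obtain ⟨i', b, hb, hb'⟩ := hy
      refine ⟨_, _, ha.add hb, ?_⟩
      rw [map_add, map_add, map_smulₛₗ, map_smulₛₗ, map_pow, map_pow]
      show L'.Rel _ _ (D.mapAR₁ φ (D.yR R) ^ i' • _ + D.mapAR₁ φ (D.yR R) ^ i • _)
      rw [CurveData.mapAR₁_yR]
      exact ha'.add hb'
    | smul c x _ hx =>
      obtain ⟨i, a, ha, ha'⟩ := hx
      obtain ⟨l, b, hb⟩ := D.exists_rel_scalar c
      refine ⟨_, _, ha.smul hb, ?_⟩
      rw [map_smulₛₗ, map_smulₛₗ]
      exact ha'.smul (CurveData.mapBR_rel_scalar φ hb)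
  have e : D.yR R ^ j • n₀ = D.yR R ^ i • n := by
    refine (h₀.shift j).unique ?_
    rw [Nat.add_comm j i]
    exact hmn.shift i
  have e' := congrArg gN e
  rw [map_smulₛₗ, map_smulₛₗ, map_pow, map_pow] at e'
  change D.mapAR₁ φ (D.yR R) ^ j • gN n₀ = D.mapAR₁ φ (D.yR R) ^ i • gN n at e'
  rw [CurveData.mapAR₁_yR] at e'
  have h₂ := h₀'.shift j
  rw [e'] at h₂
  unfold Rel at h₂ ⊢
  rw [f₁_smul, map_pow, add_comm j i, pow_add, mul_smul] at h₂
  exact (algebraMap_y_pow_ne i).smul_left_cancel.mp h₂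

end LineData

end Fermat.Agent.Jac
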