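import Fermat.Agent.Jac.Alg.Pullbacks

/-!
# The group of isomorphism classes of line data, functorial in the base
-/

set_option autoImplicit false

universe u

noncomputable section

open TensorProduct

namespace Fermat.Agent.Jac

variable {k : Type u} [Field k]

/-- Isomorphism classes. -/
def LineData.isoSetoid (D : CurveData.{u} k) (R : Type u) [CommRing R] [Algebra k R] :
    Setoid (LineData D R) where
  r L L' := Nonempty (LineData.Iso L L')
  iseqv := LineData.equivalence_iso

/-- The Picard group of the curve times `Spec R`, through line data. -/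
def LinePic (D : CurveData.{u} k) (R : Type u) [CommRing R] [Algebra k R] : Type (u + 1) :=
  Quotient (LineData.isoSetoid D R)

namespace LinePic

variable {D : CurveData.{u} k} {R R' R'' : Type u} [CommRing R] [Algebra k R] [CommRing R']
  [Algebra k R'] [CommRing R''] [Algebra k R'']

/-- The class of line data. -/
def mk (L : LineData D R) : LinePic D R := Quotient.mk (LineData.isoSetoid D R) L

theorem mk_eq_mk {L L' : LineData D R} : mk L = mk L' ↔ Nonempty (LineData.Iso L L') :=
  ⟨fun h => Quotient.exact h, fun h => Quotient.sound h⟩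

theorem mk_surjective : Function.Surjective (mk : LineData D R → LinePic D R) :=
  Quotient.mk_surjective

instance : One (LinePic D R) := ⟨mk LineData.unit⟩

instance : Mul (LinePic D R) :=
  ⟨Quotient.map₂ (sa := LineData.isoSetoid D R) (sb := LineData.isoSetoid D R)
    (sc := LineData.isoSetoid D R) LineData.tensor
    fun _ _ ⟨e⟩ _ _ ⟨e'⟩ => ⟨LineData.tensorCongr e e'⟩⟩

theorem mk_mul (L L' : LineData D R) : mk L * mk L' = mk (L.tensor L') := rfl

theorem one_def : (1 : LinePic D R) = mk LineData.unit := rfl

instance : Inv (LinePic D R) :=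
  ⟨fun x => mk (x.out.exists_inverse.choose)⟩

instance : CommGroup (LinePic D R) where
  mul_assoc := by
    rintro ⟨a⟩ ⟨b⟩ ⟨c⟩
    exact Quotient.sound ⟨LineData.tensorAssoc a b c⟩
  one_mul := by
    rintro ⟨a⟩
    exact Quotient.sound ⟨LineData.unitTensor a⟩
  mul_one := by
    rintro ⟨a⟩
    exact Quotient.sound ⟨(LineData.tensorComm a _).trans (LineData.unitTensor a)⟩
  mul_comm := by
    rintro ⟨a⟩ ⟨b⟩
    exact Quotient.sound ⟨LineData.tensorComm a b⟩
  inv_mul_cancel := fun x => by
    obtain ⟨e⟩ := x.out.exists_inverse.choose_spec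
    conv_lhs => arg 2; rw [← Quotient.out_eq x]
    exact Quotient.sound ⟨(LineData.tensorComm _ _).trans e.symm⟩

/-- The class of a chosen pullback. -/
def map (φ : R →ₐ[k] R') : LinePic D R →* LinePic D R' :=
  have key : ∀ {L : LineData D R} {L' : LineData D R'}, LineData.Pullback φ L L' →
      mk (LineData.exists_pullback φ L).choose = mk L' := fun {L L'} p =>
    mk_eq_mk.mpr ((LineData.exists_pullback φ L).choose_spec.some.nonempty_iso p)
  { toFun := Quotient.lift (s := LineData.isoSetoid D R)
      (fun L => mk (LineData.exists_pullback φ L).choose)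
      fun L L' ⟨e⟩ => key (LineData.Pullback.congr e
        (LineData.exists_pullback φ L').choose_spec.some (LineData.Iso.refl _))
    map_one' := key (LineData.Pullback.unit φ)
    map_mul' := by
      rintro ⟨a⟩ ⟨b⟩
      exact key ((LineData.exists_pullback φ a).choose_spec.some.tensor
        (LineData.exists_pullback φ b).choose_spec.some) }

theorem map_mk {φ : R →ₐ[k] R'} {L : LineData D R} {L' : LineData D R'}
    (p : LineData.Pullback φ L L') : map φ (mk L) = mk L' :=
  mk_eq_mk.mpr ((LineData.exists_pullback φ L).choose_spec.some.nonempty_iso p)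

theorem exists_pullback_of_map_eq {φ : R →ₐ[k] R'} {L : LineData D R} {L' : LineData D R'}
    (h : map φ (mk L) = mk L') : Nonempty (LineData.Pullback φ L L') := by
  obtain ⟨e⟩ := mk_eq_mk.mp h
  exact ⟨LineData.Pullback.congr (LineData.Iso.refl L)
    (LineData.exists_pullback φ L).choose_spec.some e⟩

theorem map_map (φ : R →ₐ[k] R') (ψ : R' →ₐ[k] R'') (x : LinePic D R) :
    map ψ (map φ x) = map (ψ.comp φ) x := by
  obtain ⟨L, rfl⟩ := mk_surjective x
  obtain ⟨L', ⟨p⟩⟩ := LineData.exists_pullback φ L
  obtain ⟨L'', ⟨q⟩⟩ := LineData.exists_pullback ψ L'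
  rw [map_mk p, map_mk q, map_mk (p.comp q)]

theorem map_id (x : LinePic D R) : map (AlgHom.id k R) x = x := by
  obtain ⟨L, rfl⟩ := mk_surjective x
  exact map_mk (LineData.Iso.refl L).toPullback

end LinePic

end Fermat.Agent.Jac
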