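import Fermat.Agent.Jac.Alg.Hom
import Mathlib.RingTheory.IsTensorProduct
import Mathlib.LinearAlgebra.TensorProduct.Tower

/-!
# A pullback of line data is a base change on both charts
-/

set_option autoImplicit false

universe u

noncomputable section

open TensorProduct

namespace Fermat.Agent.Jac

section General

variable {R R' : Type u} [CommRing R] [CommRing R'] [Algebra R R']
variable {M M' : Type u} [AddCommGroup M] [Module R M] [AddCommGroup M'] [Module R' M']

/-- The map `R' ⊗ M → M'` given by a semilinear map. -/
def semiLift (g : M →ₛₗ[algebraMap R R'] M') : R' ⊗[R] M →ₗ[R'] M' where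
  toFun := TensorProduct.liftAddHom
    (AddMonoidHom.mk' (fun r => AddMonoidHom.mk' (fun m => r • g m)
      fun a b => by rw [map_add, smul_add]) fun a b => by ext m; exact add_smul a b (g m))
    fun r s m => by
      show (r • s) • g m = s • g (r • m)
      rw [map_smulₛₗ, smul_smul, Algebra.smul_def, mul_comm]
  map_add' := map_add _
  map_smul' := fun r z => by
    simp only [RingHom.id_apply]
    induction z using TensorProduct.induction_on with
    | zero => simp
    | tmul s m =>
      rw [TensorProduct.smul_tmul', TensorProduct.liftAddHom_tmul, TensorProduct.liftAddHom_tmul]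
      show (r * s) • g m = r • s • g m
      rw [mul_smul]
    | add a b ha hb => rw [smul_add, map_add, map_add, smul_add, ha, hb]

@[simp]
theorem semiLift_tmul (g : M →ₛₗ[algebraMap R R'] M') (r : R') (m : M) :
    semiLift g (r ⊗ₜ m) = r • g m := rfl

end General

variable {k : Type u} [Field k] {D : CurveData.{u} k}
variable {R R' : Type u} [CommRing R] [Algebra k R] [CommRing R'] [Algebra k R']
  [Algebra R R'] [IsScalarTower k R R']

namespace CurveData

theorem isPushout_AR :
    letI : Algebra (D.AR R) (D.AR R') :=
      (D.mapAR (IsScalarTower.toAlgHom k R R')).toRingHom.toAlgebra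
    ∀ [IsScalarTower R (D.AR R) (D.AR R')],
      Algebra.IsPushout R R' (D.AR R) (D.AR R') := by
  let : Algebra (D.AR R) (D.AR R') :=
    (D.mapAR (IsScalarTower.toAlgHom k R R')).toRingHom.toAlgebra
  intro _
  refine ⟨IsBaseChange.of_equiv
    (TensorProduct.AlgebraTensorModule.cancelBaseChange k R R' R' D.A) fun z => ?_⟩
  induction z using TensorProduct.induction_on with
  | zero => simp
  | tmul r a =>
    rw [AlgebraTensorModule.cancelBaseChange_tmul]
    show (r • (1 : R')) ⊗ₜ[k] a = (IsScalarTower.toAlgHom k R R' r) ⊗ₜ[k] a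
    rw [Algebra.smul_def, mul_one, IsScalarTower.toAlgHom_apply]
  | add p q hp hq => rw [tmul_add, map_add, map_add, hp, hq]

theorem isPushout_AR₁ :
    letI : Algebra (D.AR₁ R) (D.AR₁ R') :=
      (D.mapAR₁ (IsScalarTower.toAlgHom k R R')).toRingHom.toAlgebra
    ∀ [IsScalarTower R (D.AR₁ R) (D.AR₁ R')],
      Algebra.IsPushout R R' (D.AR₁ R) (D.AR₁ R') := by
  let : Algebra (D.AR₁ R) (D.AR₁ R') :=
    (D.mapAR₁ (IsScalarTower.toAlgHom k R R')).toRingHom.toAlgebra
  intro _
  refine ⟨IsBaseChange.of_equiv
    (TensorProduct.AlgebraTensorModule.cancelBaseChange k R R' R' D.A₁) fun z => ?_⟩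
  induction z using TensorProduct.induction_on with
  | zero => simp
  | tmul r a =>
    rw [AlgebraTensorModule.cancelBaseChange_tmul]
    show (r • (1 : R')) ⊗ₜ[k] a = (IsScalarTower.toAlgHom k R R' r) ⊗ₜ[k] a
    rw [Algebra.smul_def, mul_one, IsScalarTower.toAlgHom_apply]
  | add p q hp hq => rw [tmul_add, map_add, map_add, hp, hq]

end CurveData

section Invertible

variable {S S' : Type u} [CommRing S] [CommRing S'] [Algebra R S] [Algebra R' S']
variable {M M' : Type u} [AddCommGroup M] [AddCommGroup M'] [Module S M] [Module S' M']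
  [Module R M] [Module R' M'] [IsScalarTower R S M] [IsScalarTower R' S' M']

theorem semiLift_bijective [Algebra S S'] [Algebra R S'] [IsScalarTower R R' S']
    [IsScalarTower R S S'] [Algebra.IsPushout R R' S S'] [Module.Invertible S M]
    [Module.Invertible S' M'] (g : M →ₛₗ[algebraMap R R'] M')
    (hg : ∀ (s : S) (m : M), g (s • m) = algebraMap S S' s • g m)
    (hspan : Submodule.span S' (Set.range g) = ⊤) :
    Function.Bijective (semiLift g) := by
  let : Module S M' := Module.compHom M' (algebraMap S S')
  have : IsScalarTower S S' M' := ⟨fun s s' m => by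
    show (s • s') • m = algebraMap S S' s • s' • m
    rw [Algebra.smul_def, mul_smul]⟩
  let gS : M →ₗ[S] M' := { toFun := g, map_add' := map_add g, map_smul' := hg }
  let Θ : S' ⊗[S] M →ₗ[S'] M' := gS.liftBaseChange S'
  have hΘ : Function.Surjective Θ := by
    rw [← LinearMap.range_eq_top, eq_top_iff, ← hspan, Submodule.span_le]
    rintro _ ⟨m, rfl⟩
    exact ⟨1 ⊗ₜ m, by simp [Θ, gS]⟩
  have hbij : Function.Bijective Θ := Module.Invertible.bijective_of_surjective hΘ
  have key : ∀ z, semiLift g z = Θ ((Algebra.IsPushout.cancelBaseChange R R' S S' M).symm z) := by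
    intro z
    induction z using TensorProduct.induction_on with
    | zero => simp
    | tmul r m =>
      rw [semiLift_tmul, Algebra.IsPushout.cancelBaseChange_symm_tmul,
        LinearMap.liftBaseChange_tmul]
      exact (algebraMap_smul S' r (g m)).symm
    | add a b ha hb => rw [map_add, map_add, map_add, ha, hb]
  have : ⇑(semiLift g) = Θ ∘ (Algebra.IsPushout.cancelBaseChange R R' S S' M).symm := funext key
  rw [this]
  exact hbij.comp (LinearEquiv.bijective _)

end Invertible

namespace LineData

variable {L : LineData D R} {L' : LineData D R'}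
variable (p : Pullback (IsScalarTower.toAlgHom k R R') L L')

/-- `gM` as a map semilinear over the base. -/
def Pullback.gMR : L.M →ₛₗ[algebraMap R R'] L'.M where
  toFun := p.gM
  map_add' := map_add p.gM
  map_smul' := fun r m => by
    rw [← algebraMap_smul (D.AR R) r m, map_smulₛₗ, ← algebraMap_smul (D.AR R') (algebraMap R R' r)]
    rfl

/-- `gN` as a map semilinear over the base. -/
def Pullback.gNR : L.N →ₛₗ[algebraMap R R'] L'.N where
  toFun := p.gN
  map_add' := map_add p.gN
  map_smul' := fun r m => by
    rw [← algebraMap_smul (D.AR₁ R) r m, map_smulₛₗ,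
      ← algebraMap_smul (D.AR₁ R') (algebraMap R R' r)]
    rfl

theorem Pullback.bijective_M : Function.Bijective (semiLift p.gMR) := by
  let φ := IsScalarTower.toAlgHom k R R'
  let : Algebra (D.AR R) (D.AR R') := (D.mapAR φ).toRingHom.toAlgebra
  have : IsScalarTower R (D.AR R) (D.AR R') := IsScalarTower.of_algebraMap_eq fun r => by
    show _ = (D.mapAR φ) (r ⊗ₜ 1)
    rw [CurveData.mapAR, Algebra.TensorProduct.map_tmul, map_one,
      IsScalarTower.algebraMap_apply R R' (D.AR R')]
    rfl
  have := CurveData.isPushout_AR (D := D) (R := R) (R' := R')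
  exact semiLift_bijective p.gMR (fun s m => map_smulₛₗ p.gM s m) p.spanM

theorem Pullback.bijective_N : Function.Bijective (semiLift p.gNR) := by
  let φ := IsScalarTower.toAlgHom k R R'
  let : Algebra (D.AR₁ R) (D.AR₁ R') := (D.mapAR₁ φ).toRingHom.toAlgebra
  have : IsScalarTower R (D.AR₁ R) (D.AR₁ R') := IsScalarTower.of_algebraMap_eq fun r => by
    show _ = (D.mapAR₁ φ) (r ⊗ₜ 1)
    rw [CurveData.mapAR₁, Algebra.TensorProduct.map_tmul, map_one,
      IsScalarTower.algebraMap_apply R R' (D.AR₁ R')]
    rfl
  have := CurveData.isPushout_AR₁ (D := D) (R := R) (R' := R')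
  exact semiLift_bijective p.gNR (fun s m => map_smulₛₗ p.gN s m) p.spanN

end LineData

end Fermat.Agent.Jac
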