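import Fermat.Agent.Jac.Alg.Tensor

/-!
# Existence and uniqueness of pullbacks of line data
-/

set_option autoImplicit false

universe u

noncomputable section

open TensorProduct

namespace Fermat.Agent.Jac.LineData

variable {k : Type u} [Field k] {D : CurveData.{u} k}
variable {R R' : Type u} [CommRing R] [Algebra k R] [CommRing R'] [Algebra k R']

theorem nonempty_glue_baseChange {S₀ S₁ T S₀' S₁' T' : Type u} [CommRing S₀] [CommRing S₁]
    [CommRing T] [CommRing S₀'] [CommRing S₁'] [CommRing T'] [Algebra S₀ T] [Algebra S₁ T]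
    [Algebra S₀' T'] [Algebra S₁' T'] [Algebra S₀ S₀'] [Algebra S₁ S₁'] [Algebra T T']
    [Algebra S₀ T'] [Algebra S₁ T'] [IsScalarTower S₀ T T'] [IsScalarTower S₀ S₀' T']
    [IsScalarTower S₁ T T'] [IsScalarTower S₁ S₁' T'] {M N : Type u} [AddCommGroup M]
    [AddCommGroup N] [Module S₀ M] [Module S₁ N] (g : T ⊗[S₀] M ≃ₗ[T] T ⊗[S₁] N) :
    ∃ g' : T' ⊗[S₀'] (S₀' ⊗[S₀] M) ≃ₗ[T'] T' ⊗[S₁'] (S₁' ⊗[S₁] N),
      ∀ (m : M) (n : N) (b : T), b • g (1 ⊗ₜ m) = 1 ⊗ₜ n →
        algebraMap T T' b • g' (1 ⊗ₜ ((1 : S₀') ⊗ₜ m)) = 1 ⊗ₜ ((1 : S₁') ⊗ₜ n) := by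
  let g' : T' ⊗[S₀'] (S₀' ⊗[S₀] M) ≃ₗ[T'] T' ⊗[S₁'] (S₁' ⊗[S₁] N) :=
    AlgebraTensorModule.cancelBaseChange S₀ S₀' T' T' M ≪≫ₗ
      (AlgebraTensorModule.cancelBaseChange S₀ T T' T' M).symm ≪≫ₗ
      AlgebraTensorModule.congr (.refl T' T') g ≪≫ₗ
      AlgebraTensorModule.cancelBaseChange S₁ T T' T' N ≪≫ₗ
      (AlgebraTensorModule.cancelBaseChange S₁ S₁' T' T' N).symm
  refine ⟨g', fun m n b h => ?_⟩
  rw [← map_smul]
  have h1 : g' (algebraMap T T' b • 1 ⊗ₜ ((1 : S₀') ⊗ₜ m)) =
      (AlgebraTensorModule.cancelBaseChange S₁ S₁' T' T' N).symm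
        (AlgebraTensorModule.cancelBaseChange S₁ T T' T' N
          (algebraMap T T' b ⊗ₜ g (1 ⊗ₜ m))) := by
    simp [g', TensorProduct.smul_tmul', Algebra.algebraMap_eq_smul_one]
  rw [h1]
  have h2 : algebraMap T T' b ⊗ₜ[T] g ((1 : T) ⊗ₜ[S₀] m) = (1 : T') ⊗ₜ[T] ((1 : T) ⊗ₜ[S₁] n) := by
    rw [Algebra.algebraMap_eq_smul_one, TensorProduct.smul_tmul, h]
  rw [h2]
  simp

theorem exists_pullback (φ : R →ₐ[k] R') (L : LineData D R) :
    ∃ L' : LineData D R', Nonempty (Pullback φ L L') := by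
  let : Algebra (D.AR R) (D.AR R') := (D.mapAR φ).toRingHom.toAlgebra
  let : Algebra (D.AR₁ R) (D.AR₁ R') := (D.mapAR₁ φ).toRingHom.toAlgebra
  let : Algebra (D.BR R) (D.BR R') := (D.mapBR φ).toRingHom.toAlgebra
  let : Algebra (D.AR R) (D.BR R') :=
    ((algebraMap (D.AR R') (D.BR R')).comp (D.mapAR φ).toRingHom).toAlgebra
  let : Algebra (D.AR₁ R) (D.BR R') :=
    ((algebraMap (D.AR₁ R') (D.BR R')).comp (D.mapAR₁ φ).toRingHom).toAlgebra
  have : IsScalarTower (D.AR R) (D.AR R') (D.BR R') := IsScalarTower.of_algebraMap_eq fun _ => rfl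
  have : IsScalarTower (D.AR₁ R) (D.AR₁ R') (D.BR R') := IsScalarTower.of_algebraMap_eq fun _ => rfl
  have : IsScalarTower (D.AR R) (D.BR R) (D.BR R') :=
    IsScalarTower.of_algebraMap_eq fun a => (CurveData.mapBR_algebraMap₀ φ a).symm
  have : IsScalarTower (D.AR₁ R) (D.BR R) (D.BR R') :=
    IsScalarTower.of_algebraMap_eq fun a => (CurveData.mapBR_algebraMap₁ φ a).symm
  obtain ⟨g', hg'⟩ := nonempty_glue_baseChange (S₀' := D.AR R') (S₁' := D.AR₁ R')
    (T' := D.BR R') L.glue
  let L' : LineData D R' :=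
    { M := D.AR R' ⊗[D.AR R] L.M
      N := D.AR₁ R' ⊗[D.AR₁ R] L.N
      glue := g' }
  refine ⟨L', ⟨{
    gM := { toFun := fun m => (1 : D.AR R') ⊗ₜ[D.AR R] m
            map_add' := fun a b => TensorProduct.tmul_add _ a b
            map_smul' := fun a m => by
              rw [TensorProduct.tmul_smul]
              exact (algebraMap_smul (D.AR R') a ((1 : D.AR R') ⊗ₜ[D.AR R] m)).symm }
    gN := { toFun := fun n => (1 : D.AR₁ R') ⊗ₜ[D.AR₁ R] n
            map_add' := fun a b => TensorProduct.tmul_add _ a b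
            map_smul' := fun a n => by
              rw [TensorProduct.tmul_smul]
              exact (algebraMap_smul (D.AR₁ R') a ((1 : D.AR₁ R') ⊗ₜ[D.AR₁ R] n)).symm }
    spanM := by
      rw [eq_top_iff]
      rintro z -
      induction z using TensorProduct.induction_on with
      | zero => exact zero_mem _
      | tmul a m =>
        rw [show a ⊗ₜ[D.AR R] m = a • ((1 : D.AR R') ⊗ₜ[D.AR R] m) by
          rw [TensorProduct.smul_tmul', smul_eq_mul, mul_one]]
        exact Submodule.smul_mem _ _ (Submodule.subset_span ⟨m, rfl⟩)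
      | add p q hp hq => exact add_mem hp hq
    spanN := by
      rw [eq_top_iff]
      rintro z -
      induction z using TensorProduct.induction_on with
      | zero => exact zero_mem _
      | tmul a m =>
        rw [show a ⊗ₜ[D.AR₁ R] m = a • ((1 : D.AR₁ R') ⊗ₜ[D.AR₁ R] m) by
          rw [TensorProduct.smul_tmul', smul_eq_mul, mul_one]]
        exact Submodule.smul_mem _ _ (Submodule.subset_span ⟨m, rfl⟩)
      | add p q hp hq => exact add_mem hp hq
    rel := fun j m n h => by
      have h' := hg' m n (algebraMap (D.AR₁ R) (D.BR R) (D.yR R) ^ j) h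
      show algebraMap (D.AR₁ R') (D.BR R') (D.yR R') ^ j • L'.f₀ _ = L'.f₁ _
      rw [show algebraMap (D.BR R) (D.BR R') (algebraMap (D.AR₁ R) (D.BR R) (D.yR R) ^ j) =
        algebraMap (D.AR₁ R') (D.BR R') (D.yR R') ^ j by
          show D.mapBR φ _ = _
          rw [map_pow, CurveData.mapBR_algebraMap₁, CurveData.mapAR₁_yR]] at h'
      exact h' }⟩⟩

theorem exists_equiv_of_semilinear {S S' : Type u} [CommRing S] [CommRing S'] {σ : S →+* S'}
    {M M' M'' : Type u} [AddCommGroup M] [AddCommGroup M'] [AddCommGroup M''] [Module S M]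
    [Module S' M'] [Module S' M''] [Module.Invertible S M] [Module.Invertible S' M']
    [Module.Invertible S' M''] (g : M →ₛₗ[σ] M') (g' : M →ₛₗ[σ] M'')
    (hg : Submodule.span S' (Set.range g) = ⊤) (hg' : Submodule.span S' (Set.range g') = ⊤) :
    ∃ e : M' ≃ₗ[S'] M'', ∀ m, e (g m) = g' m := by
  let : Algebra S S' := σ.toAlgebra
  let : Module S M' := Module.compHom M' σ
  let : Module S M'' := Module.compHom M'' σ
  have t : IsScalarTower S S' M' := ⟨fun s s' m => by
    show (σ s * s') • m = σ s • s' • m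
    rw [mul_smul]⟩
  have t' : IsScalarTower S S' M'' := ⟨fun s s' m => by
    show (σ s * s') • m = σ s • s' • m
    rw [mul_smul]⟩
  let a : M →ₗ[S] M' := { toFun := g, map_add' := map_add g, map_smul' := fun s m => map_smulₛₗ g s m }
  let a' : M →ₗ[S] M'' :=
    { toFun := g', map_add' := map_add g', map_smul' := fun s m => map_smulₛₗ g' s m }
  have key : ∀ {P : Type u} [AddCommGroup P] [Module S' P] [Module S P] [IsScalarTower S S' P]
      [Module.Invertible S' P] (b : M →ₗ[S] P), Submodule.span S' (Set.range b) = ⊤ →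
      Function.Bijective (b.liftBaseChange S') := by
    intro P _ _ _ _ _ b hb
    refine Module.Invertible.bijective_of_surjective ?_
    rw [← LinearMap.range_eq_top, eq_top_iff, ← hb, Submodule.span_le]
    rintro _ ⟨m, rfl⟩
    exact ⟨1 ⊗ₜ m, by simp⟩
  let e' := LinearEquiv.ofBijective _ (key a hg)
  let e'' := LinearEquiv.ofBijective _ (key a' hg')
  refine ⟨e'.symm ≪≫ₗ e'', fun m => ?_⟩
  have h : e' (1 ⊗ₜ m) = g m := by simp [e', a]
  rw [LinearEquiv.trans_apply, ← h, LinearEquiv.symm_apply_apply]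
  simp [e'', a']

theorem Pullback.nonempty_iso {φ : R →ₐ[k] R'} {L : LineData D R} {L' L'' : LineData D R'}
    (p : Pullback φ L L') (q : Pullback φ L L'') : Nonempty (Iso L' L'') := by
  obtain ⟨eM, hM⟩ := exists_equiv_of_semilinear p.gM q.gM p.spanM q.spanM
  obtain ⟨eN, hN⟩ := exists_equiv_of_semilinear p.gN q.gN p.spanN q.spanN
  refine ⟨⟨eM, eN, rel_of_generates (L := L') (L' := L'') (AlgHom.id k R') (semiM eM.toLinearMap)
    (semiN eN.toLinearMap) (Set.range p.gM) p.spanM ?_⟩⟩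
  rintro _ ⟨m, rfl⟩
  obtain ⟨j, n, hn⟩ := L.exists_rel m
  refine ⟨j, p.gN n, p.rel j m n hn, ?_⟩
  show L''.Rel j (eM (p.gM m)) (eN (p.gN n))
  rw [hM, hN]
  exact q.rel j m n hn

/-- An isomorphism is a pullback along the identity. -/
def Iso.toPullback {L L' : LineData D R} (e : Iso L L') : Pullback (AlgHom.id k R) L L' where
  gM := semiM e.eM.toLinearMap
  gN := semiN e.eN.toLinearMap
  spanM := by
    rw [show Set.range (semiM e.eM.toLinearMap) = Set.univ from e.eM.surjective.range_eq,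
      Submodule.span_univ]
  spanN := by
    rw [show Set.range (semiN e.eN.toLinearMap) = Set.univ from e.eN.surjective.range_eq,
      Submodule.span_univ]
  rel := e.rel

theorem Pullback.nonempty_iso_id {L L' : LineData D R} (p : Pullback (AlgHom.id k R) L L') :
    Nonempty (Iso L L') :=
  (Iso.refl L).toPullback.nonempty_iso p

/-- Pullbacks can be composed with isomorphisms. -/
def Pullback.congr {φ : R →ₐ[k] R'} {L K : LineData D R} {L' K' : LineData D R'}
    (e : Iso K L) (p : Pullback φ L L') (e' : Iso L' K') : Pullback φ K K' :=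
  have h1 : φ.comp (AlgHom.id k R) = φ := AlgHom.comp_id φ
  have h2 : (AlgHom.id k R').comp φ = φ := AlgHom.id_comp φ
  h2 ▸ (h1 ▸ e.toPullback.comp p).comp e'.toPullback

/-- The trivial bundle pulls back to the trivial bundle. -/
def Pullback.unit (φ : R →ₐ[k] R') :
    Pullback φ (LineData.unit : LineData D R) (LineData.unit : LineData D R') where
  gM := { toFun := D.mapAR φ, map_add' := map_add _, map_smul' := fun a b => map_mul _ a b }
  gN := { toFun := D.mapAR₁ φ, map_add' := map_add _, map_smul' := fun a b => map_mul _ a b }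
  spanM := by
    rw [eq_top_iff]
    rintro z -
    rw [show z = z • D.mapAR φ 1 by rw [map_one, smul_eq_mul, mul_one]]
    exact Submodule.smul_mem _ _ (Submodule.subset_span ⟨1, rfl⟩)
  spanN := by
    rw [eq_top_iff]
    rintro z -
    rw [show z = z • D.mapAR₁ φ 1 by rw [map_one, smul_eq_mul, mul_one]]
    exact Submodule.smul_mem _ _ (Submodule.subset_span ⟨1, rfl⟩)
  rel := fun j a b h => unit_rel_iff.mpr (CurveData.mapBR_rel_scalar φ (unit_rel_iff.mp h))

end Fermat.Agent.Jac.LineData
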