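import Fermat.Agent.Jac.Alg.Lift

/-!
# Rigid classes form a subgroup; the classes form a small type
-/

set_option autoImplicit false

universe u

noncomputable section

open TensorProduct

namespace Fermat.Agent.Jac

variable {k : Type u} [Field k] {D : CurveData.{u} k}
variable {R : Type u} [CommRing R] [Algebra k R]

namespace LineData

theorem Rigid.of_tensor_iso_unit {L K : LineData D R} (h : L.Rigid)
    (e : Iso (L.tensor K) (LineData.unit : LineData D R)) : K.Rigid := by
  obtain ⟨g, hg⟩ := h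
  obtain ⟨n₀, hn₀⟩ := hg 1
  let σ : D.AR₁ R →+* R := (D.evR (R := R)).toRingHom
  have hred : IsReduction σ g := isReduction_of_surjective CurveData.evR_surjective g hg
  let b : L.N → K.N → R := fun n n' => σ (e.eN (n ⊗ₜ n'))
  have hb_smul : ∀ (a : D.AR₁ R) n n', b (a • n) n' = σ a * b n n' := fun a n n' => by
    show σ (e.eN ((a • n) ⊗ₜ n')) = _
    rw [← TensorProduct.smul_tmul', map_smul, smul_eq_mul, map_mul]
  have hb_smul' : ∀ (a : D.AR₁ R) n n', b n (a • n') = σ a * b n n' := fun a n n' => by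
    show σ (e.eN (n ⊗ₜ (a • n'))) = _
    rw [TensorProduct.tmul_smul, map_smul, smul_eq_mul, map_mul]
  have hb_add : ∀ n m n', b (n + m) n' = b n n' + b m n' := fun n m n' => by
    show σ (e.eN _) = _
    rw [TensorProduct.add_tmul, map_add, map_add]
  have hb_zero : ∀ z ∈ RingHom.ker σ • (⊤ : Submodule (D.AR₁ R) L.N), ∀ n', b z n' = 0 := by
    intro z hz n'
    refine Submodule.smul_induction_on hz (fun r hr x _ => ?_) fun x y hx hy => ?_
    · rw [hb_smul, RingHom.mem_ker.mp hr, zero_mul]
    · rw [hb_add, hx, hy, add_zero]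
  have hkey : ∀ n n', b n n' = g n * b n₀ n' := fun n n' => by
    let a : D.AR₁ R := g n ⊗ₜ[k] (1 : D.A₁)
    have ha : σ a = g n := by
      show D.evR (g n ⊗ₜ[k] (1 : D.A₁)) = g n
      rw [CurveData.evR_tmul, map_one, map_one, mul_one]
    have h0 : g (n - a • n₀) = 0 := by
      rw [map_sub, map_smulₛₗ, hn₀, smul_eq_mul, mul_one]
      exact sub_eq_zero.mpr ha.symm
    have h1 := hb_zero _ (hred.ker_le _ h0) n'
    have h2 := hb_add (n - a • n₀) (a • n₀) n'
    rw [sub_add_cancel, h1, zero_add, hb_smul, ha] at h2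
    exact h2
  let gK : K.N →ₛₗ[σ] R :=
    { toFun := fun n' => b n₀ n'
      map_add' := fun x y => by
        show σ (e.eN (n₀ ⊗ₜ (x + y))) = _
        rw [TensorProduct.tmul_add, map_add, map_add]
      map_smul' := fun a x => by
        rw [hb_smul', smul_eq_mul] }
  have : RingHomSurjective σ := ⟨CurveData.evR_surjective⟩
  have hrange : ∀ w : (L.tensor K).N, σ (e.eN w) ∈ LinearMap.range gK := fun w => by
    induction w using TensorProduct.induction_on with
    | zero => rw [map_zero, map_zero]; exact zero_mem _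
    | tmul n n' =>
      refine ⟨(g n ⊗ₜ[k] (1 : D.A₁) : D.AR₁ R) • n', ?_⟩
      rw [map_smulₛₗ, smul_eq_mul]
      show D.evR (g n ⊗ₜ[k] (1 : D.A₁)) * b n₀ n' = b n n'
      rw [CurveData.evR_tmul, map_one, map_one, mul_one, hkey n n']
    | add x y hx hy => rw [map_add, map_add]; exact add_mem hx hy
  refine ⟨gK, fun r => ?_⟩
  obtain ⟨w, hw⟩ := e.eN.surjective (r ⊗ₜ[k] (1 : D.A₁) : D.AR₁ R)
  have h1 := hrange w
  rw [hw, show σ (r ⊗ₜ[k] (1 : D.A₁)) = r from by
    show D.evR (r ⊗ₜ[k] (1 : D.A₁)) = r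
    rw [CurveData.evR_tmul, map_one, map_one, mul_one]] at h1
  exact h1

end LineData

namespace LinePic

theorem inv_mem_rigid {x : LinePic D R} (h : x ∈ rigid D R) : x⁻¹ ∈ rigid D R := by
  obtain ⟨L, rfl, hL⟩ := h
  obtain ⟨K, hK⟩ := mk_surjective (mk L)⁻¹
  have h1 : mk (L.tensor K) = mk (LineData.unit : LineData D R) := by
    rw [← mk_mul, hK, mul_inv_cancel, one_def]
  exact ⟨K, hK, hL.of_tensor_iso_unit (mk_eq_mk.mp h1).some⟩

/-- Rigid classes, as a subgroup. -/
def rigidGroup (D : CurveData.{u} k) (R : Type u) [CommRing R] [Algebra k R] :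
    Subgroup (LinePic D R) :=
  { rigid D R with inv_mem' := inv_mem_rigid }

theorem mem_rigidGroup {x : LinePic D R} : x ∈ rigidGroup D R ↔ x ∈ rigid D R := Iff.rfl

/-- Data for a line bundle built on representatives of Picard groups. -/
structure PicTriple (D : CurveData.{u} k) (R : Type u) [CommRing R] [Algebra k R] : Type u where
  p : CommRing.Pic (D.AR R)
  q : CommRing.Pic (D.AR₁ R)
  glue : (D.BR R ⊗[D.AR R] p.AsModule) ≃ₗ[D.BR R] (D.BR R ⊗[D.AR₁ R] q.AsModule)

/-- The class of a triple. -/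
def PicTriple.toClass (T : PicTriple D R) : LinePic D R :=
  let : Module R T.p.AsModule := Module.compHom _ (algebraMap R (D.AR R))
  let : Module R T.q.AsModule := Module.compHom _ (algebraMap R (D.AR₁ R))
  have : IsScalarTower R (D.AR R) T.p.AsModule := IsScalarTower.of_algebraMap_smul fun _ _ => rfl
  have : IsScalarTower R (D.AR₁ R) T.q.AsModule := IsScalarTower.of_algebraMap_smul fun _ _ => rfl
  LinePic.mk ({ M := T.p.AsModule, N := T.q.AsModule, glue := T.glue } : LineData D R)

theorem PicTriple.toClass_surjective :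
    Function.Surjective (PicTriple.toClass : PicTriple D R → LinePic D R) := by
  intro x
  obtain ⟨L, rfl⟩ := mk_surjective x
  let eM := CommRing.Pic.mk.linearEquiv (D.AR R) L.M
  let eN := CommRing.Pic.mk.linearEquiv (D.AR₁ R) L.N
  let T : PicTriple D R :=
    { p := CommRing.Pic.mk (D.AR R) L.M
      q := CommRing.Pic.mk (D.AR₁ R) L.N
      glue := (TensorProduct.AlgebraTensorModule.congr (LinearEquiv.refl (D.BR R) (D.BR R)) eM) ≪≫ₗ
        L.glue ≪≫ₗ
        (TensorProduct.AlgebraTensorModule.congr (LinearEquiv.refl (D.BR R) (D.BR R)) eN).symm }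
  refine ⟨T, ?_⟩
  unfold PicTriple.toClass
  refine LinePic.mk_eq_mk.mpr ⟨⟨eM, eN, fun j m n h => ?_⟩⟩
  have h' := congrArg
    (TensorProduct.AlgebraTensorModule.congr (LinearEquiv.refl (D.BR R) (D.BR R)) eN) h
  show _ • L.f₀ (eM m) = L.f₁ (eN n)
  rw [map_smul] at h'
  refine Eq.trans ?_ (h'.trans ?_)
  · refine congrArg _ (Eq.symm ?_)
    refine (LinearEquiv.apply_symm_apply
      (TensorProduct.AlgebraTensorModule.congr (LinearEquiv.refl (D.BR R) (D.BR R)) eN) _).trans ?_
    exact congrArg L.glue (TensorProduct.AlgebraTensorModule.congr_tmul _ _ _ _)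
  · exact TensorProduct.AlgebraTensorModule.congr_tmul _ _ _ _

instance small_linePic : Small.{u} (LinePic D R) :=
  small_of_surjective PicTriple.toClass_surjective

end LinePic

end Fermat.Agent.Jac
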