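import Fermat.Agent.Jac.CurveData
import Mathlib.RingTheory.Flat.Basic
import Mathlib.RingTheory.Localization.BaseChange
import Mathlib.RingTheory.TensorProduct.Maps
import Mathlib.RingTheory.TensorProduct.Finite
import Mathlib.LinearAlgebra.Basis.VectorSpace

/-!
# The rings of a two-chart curve over a base algebra

For a `k`-algebra `R`: `AR = R ⊗ A`, `AR₁ = R ⊗ A₁`, `BR = R ⊗ B`, with `BR` a localisation of both.
-/

set_option autoImplicit false

universe u

noncomputable section

open Polynomial TensorProduct

namespace Fermat.Agent.Jac.CurveData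

variable {k : Type u} [Field k] (D : CurveData.{u} k)

instance algebraAB : Algebra D.A D.B := D.i₀.toRingHom.toAlgebra

instance algebraA₁B : Algebra D.A₁ D.B := D.i₁.toRingHom.toAlgebra

instance towerAB : IsScalarTower k D.A D.B :=
  IsScalarTower.of_algebraMap_eq fun r => (D.i₀.commutes r).symm

instance towerA₁B : IsScalarTower k D.A₁ D.B :=
  IsScalarTower.of_algebraMap_eq fun r => (D.i₁.commutes r).symm

instance isAwayX : IsLocalization.Away D.x D.B := D.awayX

instance isAwayY : IsLocalization.Away D.y D.B := D.awayY

variable (R : Type u) [CommRing R] [Algebra k R]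

/-- Coordinate ring of `(C ∖ ε) × Spec R`. -/
abbrev AR : Type u := R ⊗[k] D.A

/-- Coordinate ring of the chart at `ε` times `Spec R`. -/
abbrev AR₁ : Type u := R ⊗[k] D.A₁

/-- Coordinate ring of the intersection of the charts times `Spec R`. -/
abbrev BR : Type u := R ⊗[k] D.B

/-- Restriction from the first chart to the intersection. -/
def res₀ : D.AR R →ₐ[R] D.BR R := Algebra.TensorProduct.map (AlgHom.id R R) D.i₀

/-- Restriction from the second chart to the intersection. -/
def res₁ : D.AR₁ R →ₐ[R] D.BR R := Algebra.TensorProduct.map (AlgHom.id R R) D.i₁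

instance algebraRes₀ : Algebra (D.AR R) (D.BR R) := (D.res₀ R).toRingHom.toAlgebra

instance algebraRes₁ : Algebra (D.AR₁ R) (D.BR R) := (D.res₁ R).toRingHom.toAlgebra

instance towerRes₀ : IsScalarTower R (D.AR R) (D.BR R) :=
  IsScalarTower.of_algebraMap_eq fun r => ((D.res₀ R).commutes r).symm

instance towerRes₁ : IsScalarTower R (D.AR₁ R) (D.BR R) :=
  IsScalarTower.of_algebraMap_eq fun r => ((D.res₁ R).commutes r).symm

theorem algebraMap_AR_tmul (r : R) (a : D.A) :
    algebraMap (D.AR R) (D.BR R) (r ⊗ₜ a) = r ⊗ₜ D.i₀ a := rfl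

theorem algebraMap_AR₁_tmul (r : R) (a : D.A₁) :
    algebraMap (D.AR₁ R) (D.BR R) (r ⊗ₜ a) = r ⊗ₜ D.i₁ a := rfl

/-- `x` on the first chart. -/
abbrev xR : D.AR R := 1 ⊗ₜ D.x

/-- `y` on the second chart. -/
abbrev yR : D.AR₁ R := 1 ⊗ₜ D.y

theorem xR_mul_yR :
    algebraMap (D.AR R) (D.BR R) (D.xR R) * algebraMap (D.AR₁ R) (D.BR R) (D.yR R) = 1 := by
  rw [algebraMap_AR_tmul, algebraMap_AR₁_tmul, Algebra.TensorProduct.tmul_mul_tmul, one_mul,
    D.xy]
  rfl

instance awayXR : IsLocalization.Away (D.xR R) (D.BR R) := by
  have h := IsLocalization.tensorProduct_tensorProduct_right k R (Submonoid.powers D.x) D.B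
    (by ext a; rfl)
  simpa [IsLocalization.Away, Submonoid.map_powers] using h

instance awayYR : IsLocalization.Away (D.yR R) (D.BR R) := by
  have h := IsLocalization.tensorProduct_tensorProduct_right k R (Submonoid.powers D.y) D.B
    (by ext a; rfl)
  simpa [IsLocalization.Away, Submonoid.map_powers] using h

theorem injective_xR : Function.Injective (fun a : D.AR R => D.xR R * a) := by
  have h : Function.Injective (LinearMap.mulLeft k D.x) :=
    mul_right_injective₀ fun h => Polynomial.X_ne_zero (D.injective_x (by simp [h]))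
  convert Module.Flat.lTensor_preserves_injective_linearMap (M := R) _ h using 1
  ext a
  induction a using TensorProduct.induction_on with
  | zero => simp
  | tmul r a => simp [Algebra.TensorProduct.tmul_mul_tmul]
  | add p q hp hq => simp [mul_add, hp, hq]

theorem injective_yR : Function.Injective (fun a : D.AR₁ R => D.yR R * a) := by
  have h : Function.Injective (LinearMap.mulLeft k D.y) :=
    mul_right_injective₀ fun h => Polynomial.X_ne_zero (D.injective_y (by simp [h]))
  convert Module.Flat.lTensor_preserves_injective_linearMap (M := R) _ h using 1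
  ext a
  induction a using TensorProduct.induction_on with
  | zero => simp
  | tmul r a => simp [Algebra.TensorProduct.tmul_mul_tmul]
  | add p q hp hq => simp [mul_add, hp, hq]

end Fermat.Agent.Jac.CurveData
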