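import Fermat.Agent.Jac.Alg.Natural

/-!
# Tensor products and inverses of line data
-/

set_option autoImplicit false

universe u

noncomputable section

open TensorProduct

namespace Fermat.Agent.Jac.LineData

variable {k : Type u} [Field k] {D : CurveData.{u} k}
variable {R R' : Type u} [CommRing R] [Algebra k R] [CommRing R'] [Algebra k R']

/-- The tensor product. -/
@[reducible] def tensor (L L' : LineData D R) : LineData D R where
  M := L.M ⊗[D.AR R] L'.M
  N := L.N ⊗[D.AR₁ R] L'.N
  glue := (AlgebraTensorModule.distribBaseChange (D.AR R) (D.BR R) L.M L'.M).trans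
    ((AlgebraTensorModule.congr L.glue L'.glue).trans
      (AlgebraTensorModule.distribBaseChange (D.AR₁ R) (D.BR R) L.N L'.N).symm)

/-- Product of sections on the intersection. -/
def mulP (L L' : LineData D R) :
    L.P ⊗[D.BR R] L'.P ≃ₗ[D.BR R] (L.tensor L').P :=
  (AlgebraTensorModule.distribBaseChange (D.AR₁ R) (D.BR R) L.N L'.N).symm

theorem tensor_f₀ (L L' : LineData D R) (m : L.M) (m' : L'.M) :
    (L.tensor L').f₀ (m ⊗ₜ m') = mulP L L' (L.f₀ m ⊗ₜ L'.f₀ m') := rfl

theorem tensor_f₁ (L L' : LineData D R) (n : L.N) (n' : L'.N) :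
    (L.tensor L').f₁ (n ⊗ₜ n') = mulP L L' (L.f₁ n ⊗ₜ L'.f₁ n') := by
  rw [mulP, f₁_apply, f₁_apply, f₁_apply, AlgebraTensorModule.distribBaseChange_symm_tmul,
    one_mul]

theorem Rel.tmul {L L' : LineData D R} {i j : ℕ} {m : L.M} {n : L.N} {m' : L'.M} {n' : L'.N}
    (h : L.Rel i m n) (h' : L'.Rel j m' n') :
    (L.tensor L').Rel (i + j) (m ⊗ₜ m') (n ⊗ₜ n') := by
  show _ • (L.tensor L').f₀ _ = (L.tensor L').f₁ _
  unfold Rel at h h'
  rw [tensor_f₀, tensor_f₁, ← map_smul, ← h, ← h', TensorProduct.smul_tmul_smul, pow_add]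

theorem span_tmul {S : Type u} [CommRing S] (M M' : Type u) [AddCommGroup M] [Module S M]
    [AddCommGroup M'] [Module S M'] :
    Submodule.span S (Set.range fun z : M × M' => z.1 ⊗ₜ[S] z.2) = ⊤ := by
  rw [eq_top_iff, ← TensorProduct.span_tmul_eq_top S M M']
  exact Submodule.span_mono fun _ ⟨a, b, h⟩ => ⟨(a, b), h⟩

/-- A morphism out of a tensor product respects `Rel` if it does so on pure tensors. -/
theorem tensor_rel_of {φ : R →ₐ[k] R'} {L L' : LineData D R} {K : LineData D R'}
    (gM : (L.tensor L').M →ₛₗ[(D.mapAR φ).toRingHom] K.M)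
    (gN : (L.tensor L').N →ₛₗ[(D.mapAR₁ φ).toRingHom] K.N)
    (h : ∀ i j m n m' n', L.Rel i m n → L'.Rel j m' n' →
      K.Rel (i + j) (gM (m ⊗ₜ m')) (gN (n ⊗ₜ n'))) :
    ∀ j z w, (L.tensor L').Rel j z w → K.Rel j (gM z) (gN w) := by
  refine rel_of_generates φ gM gN _ (span_tmul L.M L'.M) ?_
  rintro _ ⟨⟨m, m'⟩, rfl⟩
  obtain ⟨i, n, hn⟩ := L.exists_rel m
  obtain ⟨j, n', hn'⟩ := L'.exists_rel m'
  exact ⟨i + j, n ⊗ₜ n', hn.tmul hn', h i j m n m' n' hn hn'⟩

theorem mapAR_id : (D.mapAR (AlgHom.id k R)).toRingHom = RingHom.id (D.AR R) := by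
  show (Algebra.TensorProduct.map (AlgHom.id k R) (AlgHom.id k D.A)).toRingHom = _
  rw [Algebra.TensorProduct.map_id]
  rfl

theorem mapAR₁_id : (D.mapAR₁ (AlgHom.id k R)).toRingHom = RingHom.id (D.AR₁ R) := by
  show (Algebra.TensorProduct.map (AlgHom.id k R) (AlgHom.id k D.A₁)).toRingHom = _
  rw [Algebra.TensorProduct.map_id]
  rfl

/-- A linear map as a map semilinear along the identity map of `R`. -/
def semiM {L L' : LineData D R} (e : L.M →ₗ[D.AR R] L'.M) :
    L.M →ₛₗ[(D.mapAR (AlgHom.id k R)).toRingHom] L'.M where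
  toFun := e
  map_add' := map_add e
  map_smul' a m := by rw [mapAR_id]; exact map_smul e a m

/-- A linear map as a map semilinear along the identity map of `R`. -/
def semiN {L L' : LineData D R} (e : L.N →ₗ[D.AR₁ R] L'.N) :
    L.N →ₛₗ[(D.mapAR₁ (AlgHom.id k R)).toRingHom] L'.N where
  toFun := e
  map_add' := map_add e
  map_smul' a m := by rw [mapAR₁_id]; exact map_smul e a m

/-- Isomorphisms out of tensor products only have to be checked on pure tensors. -/
def isoOfTensor {L L' K : LineData D R} (eM : (L.tensor L').M ≃ₗ[D.AR R] K.M)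
    (eN : (L.tensor L').N ≃ₗ[D.AR₁ R] K.N)
    (h : ∀ i j m n m' n', L.Rel i m n → L'.Rel j m' n' →
      K.Rel (i + j) (eM (m ⊗ₜ m')) (eN (n ⊗ₜ n'))) :
    Iso (L.tensor L') K :=
  ⟨eM, eN, tensor_rel_of (semiM eM.toLinearMap) (semiN eN.toLinearMap) h⟩

theorem unit_f₀ (a : D.AR R) :
    (unit : LineData D R).f₀ a = algebraMap (D.AR R) (D.BR R) a ⊗ₜ (1 : D.AR₁ R) := by
  show (TensorProduct.AlgebraTensorModule.rid (D.AR₁ R) (D.BR R) (D.BR R)).symm
    ((TensorProduct.AlgebraTensorModule.rid (D.AR R) (D.BR R) (D.BR R)) (1 ⊗ₜ a)) = _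
  rw [AlgebraTensorModule.rid_tmul, Algebra.smul_def, mul_one,
    AlgebraTensorModule.rid_symm_apply]

theorem unit_f₁ (b : D.AR₁ R) :
    (unit : LineData D R).f₁ b = algebraMap (D.AR₁ R) (D.BR R) b ⊗ₜ (1 : D.AR₁ R) := by
  show (1 : D.BR R) ⊗ₜ[D.AR₁ R] b = _
  rw [Algebra.algebraMap_eq_smul_one, TensorProduct.smul_tmul, smul_eq_mul, mul_one]

theorem unit_rel_iff {j : ℕ} {a : D.AR R} {b : D.AR₁ R} :
    (unit : LineData D R).Rel j a b ↔
      algebraMap (D.AR R) (D.BR R) a * algebraMap (D.AR₁ R) (D.BR R) (D.yR R) ^ j =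
        algebraMap (D.AR₁ R) (D.BR R) b := by
  show _ • (unit : LineData D R).f₀ a = (unit : LineData D R).f₁ b ↔ _
  rw [unit_f₀, unit_f₁, TensorProduct.smul_tmul', smul_eq_mul, mul_comm]
  constructor
  · intro h
    have h' := congrArg (TensorProduct.AlgebraTensorModule.rid (D.AR₁ R) (D.BR R) (D.BR R)) h
    simpa using h'
  · intro h; rw [h]

theorem unit_rel_one : (unit : LineData D R).Rel 0 (1 : D.AR R) (1 : D.AR₁ R) := by
  rw [unit_rel_iff, pow_zero, mul_one, map_one, map_one]

/-- `1 ⊗ L ≅ L`. -/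
def unitTensor (L : LineData D R) : Iso ((unit : LineData D R).tensor L) L :=
  isoOfTensor (TensorProduct.lid (D.AR R) L.M) (TensorProduct.lid (D.AR₁ R) L.N)
    fun _ _ a b m' n' ha hm => by
      have h := hm.smul (unit_rel_iff.mp ha)
      simpa only [TensorProduct.lid_tmul] using h

/-- Commutativity. -/
def tensorComm (L L' : LineData D R) : Iso (L.tensor L') (L'.tensor L) :=
  isoOfTensor (TensorProduct.comm (D.AR R) L.M L'.M) (TensorProduct.comm (D.AR₁ R) L.N L'.N)
    fun i j m n m' n' hm hm' => by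
      have h := hm'.tmul hm
      rw [Nat.add_comm] at h
      exact h

/-- Associativity. -/
def tensorAssoc (L L' L'' : LineData D R) :
    Iso ((L.tensor L').tensor L'') (L.tensor (L'.tensor L'')) where
  eM := TensorProduct.assoc (D.AR R) L.M L'.M L''.M
  eN := TensorProduct.assoc (D.AR₁ R) L.N L'.N L''.N
  rel := rel_of_generates (L := (L.tensor L').tensor L'') (L' := L.tensor (L'.tensor L''))
    (AlgHom.id k R) (semiM (TensorProduct.assoc (D.AR R) L.M L'.M L''.M).toLinearMap)
    (semiN (TensorProduct.assoc (D.AR₁ R) L.N L'.N L''.N).toLinearMap)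
    {z | ∃ m m' m'', z = (m ⊗ₜ m') ⊗ₜ m''} (by
      rw [eq_top_iff]
      rintro z -
      induction z using TensorProduct.induction_on with
      | zero => exact zero_mem _
      | tmul w m'' =>
        induction w using TensorProduct.induction_on with
        | zero => rw [TensorProduct.zero_tmul]; exact zero_mem _
        | tmul m m' => exact Submodule.subset_span ⟨m, m', m'', rfl⟩
        | add p q hp hq => rw [TensorProduct.add_tmul]; exact add_mem hp hq
      | add p q hp hq => exact add_mem hp hq) (by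
      rintro _ ⟨m, m', m'', rfl⟩
      obtain ⟨i, n, hn⟩ := L.exists_rel m
      obtain ⟨i', n', hn'⟩ := L'.exists_rel m'
      obtain ⟨i'', n'', hn''⟩ := L''.exists_rel m''
      refine ⟨_, _, (hn.tmul hn').tmul hn'', ?_⟩
      rw [Nat.add_assoc]
      exact hn.tmul (hn'.tmul hn''))

/-- Functoriality in isomorphisms. -/
def tensorCongr {L L' K K' : LineData D R} (e : Iso L K) (e' : Iso L' K') :
    Iso (L.tensor L') (K.tensor K') :=
  isoOfTensor (TensorProduct.congr e.eM e'.eM) (TensorProduct.congr e.eN e'.eN)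
    fun _ _ _ _ _ _ hm hm' => (e.rel _ _ _ hm).tmul (e'.rel _ _ _ hm')

/-- Tensor product of two pullbacks. -/
def Pullback.tensor {φ : R →ₐ[k] R'} {L L' : LineData D R} {K K' : LineData D R'}
    (p : Pullback φ L K) (q : Pullback φ L' K') :
    Pullback φ (L.tensor L') (K.tensor K') :=
  let gM : (L.tensor L').M →ₛₗ[(D.mapAR φ).toRingHom] (K.tensor K').M :=
    TensorProduct.lift (LinearMap.mk₂'ₛₗ (D.mapAR φ).toRingHom (D.mapAR φ).toRingHom
      (fun m m' => p.gM m ⊗ₜ[D.AR R'] q.gM m')
      (fun a b c => by rw [map_add, TensorProduct.add_tmul])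
      (fun a b c => by rw [map_smulₛₗ, TensorProduct.smul_tmul'])
      (fun a b c => by rw [map_add, TensorProduct.tmul_add])
      (fun a b c => by rw [map_smulₛₗ, TensorProduct.tmul_smul]))
  let gN : (L.tensor L').N →ₛₗ[(D.mapAR₁ φ).toRingHom] (K.tensor K').N :=
    TensorProduct.lift (LinearMap.mk₂'ₛₗ (D.mapAR₁ φ).toRingHom (D.mapAR₁ φ).toRingHom
      (fun m m' => p.gN m ⊗ₜ[D.AR₁ R'] q.gN m')
      (fun a b c => by rw [map_add, TensorProduct.add_tmul])
      (fun a b c => by rw [map_smulₛₗ, TensorProduct.smul_tmul'])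
      (fun a b c => by rw [map_add, TensorProduct.tmul_add])
      (fun a b c => by rw [map_smulₛₗ, TensorProduct.tmul_smul]))
  { gM := gM
    gN := gN
    spanM := by
      rw [eq_top_iff]
      rintro z -
      induction z using TensorProduct.induction_on with
      | zero => exact zero_mem _
      | tmul a b =>
        have ha : a ∈ Submodule.span (D.AR R') (Set.range p.gM) := p.spanM ▸ Submodule.mem_top
        induction ha using Submodule.span_induction with
        | mem a ha =>
          have hb : b ∈ Submodule.span (D.AR R') (Set.range q.gM) := q.spanM ▸ Submodule.mem_top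
          induction hb using Submodule.span_induction with
          | mem b hb =>
            obtain ⟨m, rfl⟩ := ha
            obtain ⟨m', rfl⟩ := hb
            exact Submodule.subset_span ⟨m ⊗ₜ m', rfl⟩
          | zero => rw [TensorProduct.tmul_zero]; exact zero_mem _
          | add u v _ _ hu hv => rw [TensorProduct.tmul_add]; exact add_mem hu hv
          | smul c u _ hu => rw [TensorProduct.tmul_smul]; exact Submodule.smul_mem _ c hu
        | zero => rw [TensorProduct.zero_tmul]; exact zero_mem _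
        | add u v _ _ hu hv => rw [TensorProduct.add_tmul]; exact add_mem hu hv
        | smul c u _ hu => rw [← TensorProduct.smul_tmul']; exact Submodule.smul_mem _ c hu
      | add u v hu hv => exact add_mem hu hv
    spanN := by
      rw [eq_top_iff]
      rintro z -
      induction z using TensorProduct.induction_on with
      | zero => exact zero_mem _
      | tmul a b =>
        have ha : a ∈ Submodule.span (D.AR₁ R') (Set.range p.gN) := p.spanN ▸ Submodule.mem_top
        induction ha using Submodule.span_induction with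
        | mem a ha =>
          have hb : b ∈ Submodule.span (D.AR₁ R') (Set.range q.gN) := q.spanN ▸ Submodule.mem_top
          induction hb using Submodule.span_induction with
          | mem b hb =>
            obtain ⟨m, rfl⟩ := ha
            obtain ⟨m', rfl⟩ := hb
            exact Submodule.subset_span ⟨m ⊗ₜ m', rfl⟩
          | zero => rw [TensorProduct.tmul_zero]; exact zero_mem _
          | add u v _ _ hu hv => rw [TensorProduct.tmul_add]; exact add_mem hu hv
          | smul c u _ hu => rw [TensorProduct.tmul_smul]; exact Submodule.smul_mem _ c hu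
        | zero => rw [TensorProduct.zero_tmul]; exact zero_mem _
        | add u v _ _ hu hv => rw [TensorProduct.add_tmul]; exact add_mem hu hv
        | smul c u _ hu => rw [← TensorProduct.smul_tmul']; exact Submodule.smul_mem _ c hu
      | add u v hu hv => exact add_mem hu hv
    rel := tensor_rel_of gM gN fun _ _ _ _ _ _ hm hm' =>
      (p.rel _ _ _ hm).tmul (q.rel _ _ _ hm') }

/-- Change of the identification on the intersection by a unit. -/
@[reducible] def scale (L : LineData D R) (u : (D.BR R)ˣ) : LineData D R where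
  M := L.M
  N := L.N
  glue := L.glue.trans (LinearEquiv.smulOfUnit u)

theorem scale_f₀ (L : LineData D R) (u : (D.BR R)ˣ) (m : L.M) :
    (L.scale u).f₀ m = (u : D.BR R) • L.f₀ m := rfl

theorem scale_f₁ (L : LineData D R) (u : (D.BR R)ˣ) (n : L.N) :
    (L.scale u).f₁ n = L.f₁ n := rfl

theorem tensor_scale_f₀ (L K : LineData D R) (u : (D.BR R)ˣ) (z : (L.tensor K).M) :
    (L.tensor (K.scale u)).f₀ z = (u : D.BR R) • ((L.tensor K).f₀ z : (L.tensor K).P) := by
  induction z using TensorProduct.induction_on with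
  | zero =>
    rw [map_zero, map_zero, smul_zero]
  | tmul m m' =>
    show mulP L (K.scale u) (L.f₀ m ⊗ₜ ((u : D.BR R) • K.f₀ m')) = _
    rw [TensorProduct.tmul_smul, map_smul]
    rfl
  | add a b ha hb =>
    rw [map_add, map_add, smul_add, ha, hb]

/-- Trivial modules on both charts with matching generators give a trivial line bundle. -/
def isoUnitOfGens (K : LineData D R) (eM : D.AR R ≃ₗ[D.AR R] K.M)
    (eN : D.AR₁ R ≃ₗ[D.AR₁ R] K.N) (h : K.Rel 0 (eM 1) (eN 1)) :
    Iso (unit : LineData D R) K :=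
  ⟨eM, eN, rel_of_generates (L := (unit : LineData D R)) (L' := K) (AlgHom.id k R)
    (semiM (L := (unit : LineData D R)) eM.toLinearMap)
    (semiN (L := (unit : LineData D R)) eN.toLinearMap)
    ({(1 : D.AR R)} : Set (D.AR R)) Ideal.span_singleton_one
    fun m hm => by
      rw [Set.mem_singleton_iff] at hm
      subst hm
      exact ⟨0, (1 : D.AR₁ R), unit_rel_one, h⟩⟩

theorem nonempty_equiv_of_inverse {S : Type u} [CommRing S] {P Q X Y : Type u} [AddCommGroup P]
    [AddCommGroup Q] [AddCommGroup X] [AddCommGroup Y] [Module S P] [Module S Q] [Module S X]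
    [Module S Y] (e : P ≃ₗ[S] Q) (a : P ⊗[S] X ≃ₗ[S] S) (b : Q ⊗[S] Y ≃ₗ[S] S) :
    Nonempty (X ≃ₗ[S] Y) :=
  ⟨(TensorProduct.lid S X).symm ≪≫ₗ
    TensorProduct.congr ((TensorProduct.comm S Y Q ≪≫ₗ b).symm) (.refl S X) ≪≫ₗ
    TensorProduct.assoc S Y Q X ≪≫ₗ
    TensorProduct.congr (.refl S Y) (TensorProduct.congr e.symm (.refl S X) ≪≫ₗ a) ≪≫ₗ
    TensorProduct.rid S Y⟩

theorem nonempty_baseChange_inverse {S S' : Type u} [CommRing S] [CommRing S'] [Algebra S S']
    (M : Type u) [AddCommGroup M] [Module S M] [Module.Invertible S M] :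
    Nonempty ((S' ⊗[S] M) ⊗[S'] (S' ⊗[S] Module.Dual S M) ≃ₗ[S'] S') :=
  ⟨(AlgebraTensorModule.distribBaseChange S S' M _).symm ≪≫ₗ
    AlgebraTensorModule.congr (.refl _ _) (TensorProduct.comm _ _ _ ≪≫ₗ
      Module.Invertible.linearEquiv S M) ≪≫ₗ AlgebraTensorModule.rid _ _ _⟩

/-- For trivial modules on both charts the two generators differ by a unit on the intersection. -/
theorem exists_unit_gens (K : LineData D R) (eM : D.AR R ≃ₗ[D.AR R] K.M)
    (eN : D.AR₁ R ≃ₗ[D.AR₁ R] K.N) :
    ∃ u : (D.BR R)ˣ, (u : D.BR R) • K.f₀ (eM 1) = K.f₁ (eN 1) := by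
  have h1 : ∀ z : K.P, ∃ a : D.BR R, a • K.f₁ (eN 1) = z := by
    intro z
    obtain ⟨c, n, hn⟩ := D.exists_tmul_of_mem₁ z
    refine ⟨algebraMap (D.AR R) (D.BR R) (D.xR R) ^ c * algebraMap _ _ (eN.symm n), ?_⟩
    rw [mul_smul, ← f₁_smul, ← map_smul eN, smul_eq_mul, mul_one, LinearEquiv.apply_symm_apply,
      f₁_apply, ← hn, smul_smul, ← mul_pow, D.xR_mul_yR R, one_pow, one_smul]
  have h0 : ∀ z : K.P, ∃ a : D.BR R, a • K.f₀ (eM 1) = z := by
    intro z
    obtain ⟨c, m, hm⟩ := D.exists_tmul_of_mem (K.glue.symm z)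
    refine ⟨algebraMap (D.AR₁ R) (D.BR R) (D.yR R) ^ c * algebraMap _ _ (eM.symm m), ?_⟩
    rw [mul_smul, ← f₀_smul, ← map_smul eM, smul_eq_mul, mul_one, LinearEquiv.apply_symm_apply,
      f₀_apply, ← hm, map_smul, LinearEquiv.apply_symm_apply, smul_smul, ← mul_pow,
      mul_comm (algebraMap (D.AR₁ R) (D.BR R) (D.yR R)), D.xR_mul_yR R, one_pow, one_smul]
  obtain ⟨a, ha⟩ := h0 (K.f₁ (eN 1))
  obtain ⟨b, hb⟩ := h1 (K.f₀ (eM 1))
  refine ⟨⟨a, b, ?_, ?_⟩, ha⟩
  all_goals
    have h : (a * b) • K.f₁ (eN 1) = (1 : D.BR R) • K.f₁ (eN 1) := by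
      rw [mul_smul, hb, ha, one_smul]
    have h' := congrArg
      (fun z => AlgebraTensorModule.rid (D.AR₁ R) (D.BR R) (D.BR R)
        (AlgebraTensorModule.congr (.refl (D.BR R) (D.BR R)) eN.symm z)) h
    simp only [map_smul, f₁_apply, AlgebraTensorModule.congr_tmul, LinearEquiv.refl_apply,
      LinearEquiv.symm_apply_apply, AlgebraTensorModule.rid_tmul, one_smul, smul_eq_mul,
      mul_one] at h'
    first
      | exact h'
      | rwa [mul_comm] at h'

theorem exists_inverse (L : LineData D R) :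
    ∃ L' : LineData D R, Nonempty (Iso (unit : LineData D R) (L.tensor L')) := by
  obtain ⟨a⟩ := nonempty_baseChange_inverse (S' := D.BR R) (S := D.AR R) L.M
  obtain ⟨b⟩ := nonempty_baseChange_inverse (S' := D.BR R) (S := D.AR₁ R) L.N
  obtain ⟨g⟩ := nonempty_equiv_of_inverse L.glue a b
  let L₀ : LineData D R :=
    { M := Module.Dual (D.AR R) L.M
      N := Module.Dual (D.AR₁ R) L.N
      glue := g }
  let eM : D.AR R ≃ₗ[D.AR R] (L.tensor L₀).M :=
    (Module.Invertible.linearEquiv (D.AR R) L.M).symm ≪≫ₗ TensorProduct.comm _ _ _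
  let eN : D.AR₁ R ≃ₗ[D.AR₁ R] (L.tensor L₀).N :=
    (Module.Invertible.linearEquiv (D.AR₁ R) L.N).symm ≪≫ₗ TensorProduct.comm _ _ _
  obtain ⟨u, hu⟩ := exists_unit_gens (L.tensor L₀) eM eN
  refine ⟨L₀.scale u, ⟨isoUnitOfGens (L.tensor (L₀.scale u)) eM eN ?_⟩⟩
  show _ • (L.tensor (L₀.scale u)).f₀ (eM 1) = (L.tensor (L₀.scale u)).f₁ (eN 1)
  rw [pow_zero, one_smul]
  exact (tensor_scale_f₀ L L₀ u (eM 1)).trans hu

end Fermat.Agent.Jac.LineData
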